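import Fermat.Agent.Thirteen.Defs
import Fermat.Agent.Frob.VarChange

/-!
# A point of order `13` gives a point of `X₁(13)`

A point of order `13` of a Weierstrass curve brings it to the Tate normal form
`y² + (1 - c) x y - b y = x³ - b x²` with the point at the origin. Writing `b = r s (r - 1)` and
`c = s (r - 1)` the equation `13 P = 0` is the plane model `planeEq13 r s = 0` of `X₁(13)`, and
`X = (s - r) / ((1 - r) (1 - s))` is the abscissa of the model `Y² = f13 X`. Doubling the point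
is `(X, Y) ↦ (-1 / (X + 1), Y / (X + 1) ^ 3)`.
-/

set_option autoImplicit false
set_option linter.unusedSectionVars false
set_option linter.style.haveILetI false

noncomputable section

open WeierstrassCurve FA.Frob

namespace FA.Thirteen

variable {K : Type*} [Field K]

/-- The plane model of `X₁(13)` in the coordinates `r, s`. -/
def planeEq13 (r s : K) : K :=
  -r ^ 3 + r ^ 2 * s ^ 4 - 5 * r ^ 2 * s ^ 3 + 9 * r ^ 2 * s ^ 2 - 4 * r ^ 2 * s + 2 * r ^ 2 +
    r * s ^ 3 - 6 * r * s ^ 2 + 3 * r * s - r + s ^ 3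

/-- The coordinates on `Y² = f13 X` of the point `(r, s)`. -/
def zRS (r s : K) : K × K :=
  ((s - r) / ((1 - r) * (1 - s)),
    2 * ((s - r) / (1 - s)) * ((s - r) / ((1 - r) * (1 - s))) ^ 3 +
      ((s - r) / ((1 - r) * (1 - s))) ^ 3 + (s - r) / ((1 - r) * (1 - s)) + 1)

/-- The Tate normal form. -/
def tateCurve (b c : K) : WeierstrassCurve K := ⟨1 - c, -b, -b, 0, 0⟩

/-- Twice the ordinate of the translated normal form. -/
def tateA3 (W : WeierstrassCurve K) (x y : K) : K := 2 * y + W.a₁ * x + W.a₃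

/-- The slope of the tangent. -/
def lam13 (W : WeierstrassCurve K) (x y : K) : K :=
  (3 * x ^ 2 + 2 * W.a₂ * x + W.a₄ - W.a₁ * y) / tateA3 W x y

/-- The first coefficient with the tangent at the origin horizontal. -/
def tateA1 (W : WeierstrassCurve K) (x y : K) : K := W.a₁ + 2 * lam13 W x y

/-- The second coefficient with the tangent at the origin horizontal. -/
def tateA2 (W : WeierstrassCurve K) (x y : K) : K :=
  W.a₂ + 3 * x - lam13 W x y * W.a₁ - lam13 W x y ^ 2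

/-- The parameters of the Tate normal form. -/
def bc13 (W : WeierstrassCurve K) (x y : K) : K × K :=
  (-tateA2 W x y ^ 3 / tateA3 W x y ^ 2, 1 - tateA1 W x y * tateA2 W x y / tateA3 W x y)

/-- The point of `Y² = f13 X` attached to a point of order `13`. -/
def z13 (W : WeierstrassCurve K) (x y : K) : K × K :=
  zRS ((bc13 W x y).1 / (bc13 W x y).2)
    ((bc13 W x y).2 ^ 2 / ((bc13 W x y).1 - (bc13 W x y).2))

theorem map_z13 {K' : Type*} [Field K'] (φ : K →+* K') (W : WeierstrassCurve K) (x y : K) :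
    z13 (W.map φ) (φ x) (φ y) = Prod.map φ φ (z13 W x y) := by
  simp [z13, zRS, bc13, tateA1, tateA2, tateA3, lam13, map_div₀, map_ofNat]

theorem Δ_tateCurve (b c : K) : (tateCurve b c).Δ =
    b ^ 3 * (16 * b ^ 2 - 8 * b * c ^ 2 - 20 * b * c + b + c * (c - 1) ^ 3) := by
  simp [tateCurve, WeierstrassCurve.Δ, WeierstrassCurve.b₂, WeierstrassCurve.b₄,
    WeierstrassCurve.b₆, WeierstrassCurve.b₈]
  ring

/-- The properties of the parameters `r, s` of a point of order `13`. -/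
structure TateGood (r s : K) : Prop where
  r0 : r ≠ 0
  r1 : r - 1 ≠ 0
  s0 : s ≠ 0
  s1 : s - 1 ≠ 0
  rs : r - s ≠ 0
  eq : planeEq13 r s = 0
  disc : 16 * (r * s * (r - 1)) ^ 2 - 8 * (r * s * (r - 1)) * (s * (r - 1)) ^ 2 -
    20 * (r * s * (r - 1)) * (s * (r - 1)) + r * s * (r - 1) +
      s * (r - 1) * (s * (r - 1) - 1) ^ 3 ≠ 0

variable {r s : K}

theorem TateGood.w_ne (h : TateGood r s) : r * s - 2 * r + 1 ≠ 0 := fun hw => by
  have he := h.eq
  simp only [planeEq13] at he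
  refine pow_ne_zero 3 h.rs ?_
  linear_combination r * (s - 1) ^ 3 * hw - he

theorem TateGood.X_ne_zero (h : TateGood r s) : (zRS r s).1 ≠ 0 :=
  div_ne_zero (by rw [← neg_ne_zero, neg_sub]; exact h.rs)
    (mul_ne_zero (by rw [← neg_ne_zero, neg_sub]; exact h.r1)
      (by rw [← neg_ne_zero, neg_sub]; exact h.s1))

theorem TateGood.X_add_one (h : TateGood r s) :
    (zRS r s).1 + 1 = (r * s - 2 * r + 1) / ((1 - r) * (1 - s)) := by
  have hr : (1 : K) - r ≠ 0 := by rw [← neg_ne_zero, neg_sub]; exact h.r1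
  have hs : (1 : K) - s ≠ 0 := by rw [← neg_ne_zero, neg_sub]; exact h.s1
  show (s - r) / ((1 - r) * (1 - s)) + 1 = _
  rw [div_add_one (mul_ne_zero hr hs)]
  congr 1
  ring

theorem TateGood.X_ne_neg_one (h : TateGood r s) : (zRS r s).1 ≠ -1 := by
  rw [ne_eq, ← add_eq_zero_iff_eq_neg, h.X_add_one]
  exact div_ne_zero h.w_ne (mul_ne_zero (by rw [← neg_ne_zero, neg_sub]; exact h.r1)
    (by rw [← neg_ne_zero, neg_sub]; exact h.s1))

theorem TateGood.curve (h : TateGood r s) : (zRS r s).2 ^ 2 = f13 (zRS r s).1 := by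
  have hr : (1 : K) - r ≠ 0 := by rw [← neg_ne_zero, neg_sub]; exact h.r1
  have hs : (1 : K) - s ≠ 0 := by rw [← neg_ne_zero, neg_sub]; exact h.s1
  have he := h.eq
  simp only [planeEq13] at he
  simp only [zRS]
  obtain ⟨d, hd⟩ : ∃ d, s - r = d := ⟨_, rfl⟩
  obtain ⟨e, he'⟩ : ∃ e, 1 - s = e := ⟨_, rfl⟩
  obtain ⟨u, hu⟩ : ∃ u, (1 - r) * (1 - s) = u := ⟨_, rfl⟩
  have key : (2 * d ^ 4 + e * (u ^ 3 + d * u ^ 2 + d ^ 3)) ^ 2 - e ^ 2 * (d ^ 6 + 4 * d ^ 5 * u +
      6 * d ^ 4 * u ^ 2 + 2 * d ^ 3 * u ^ 3 + d ^ 2 * u ^ 4 + 2 * d * u ^ 5 + u ^ 6) = 0 := by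
    subst hd he' hu
    linear_combination (4 * (s - r) ^ 4 * (1 - r)) * he
  rw [hd, hu, he']
  have he0 : e ≠ 0 := he' ▸ hs
  have hu0 : u ≠ 0 := hu ▸ mul_ne_zero hr hs
  have hY : 2 * (d / e) * (d / u) ^ 3 + (d / u) ^ 3 + d / u + 1 =
      (2 * d ^ 4 + e * (u ^ 3 + d * u ^ 2 + d ^ 3)) / (e * u ^ 3) := by
    field_simp
    ring
  have hf : f13 (d / u) = e ^ 2 * (d ^ 6 + 4 * d ^ 5 * u + 6 * d ^ 4 * u ^ 2 + 2 * d ^ 3 * u ^ 3 +
      d ^ 2 * u ^ 4 + 2 * d * u ^ 5 + u ^ 6) / (e * u ^ 3) ^ 2 := by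
    simp only [f13]
    field_simp
  rw [hY, hf, div_pow, sub_eq_zero.mp key]

theorem TateGood.cubic_ne (h : TateGood r s) :
    (zRS r s).1 ^ 3 - (zRS r s).1 ^ 2 - 4 * (zRS r s).1 - 1 ≠ 0 := by
  have hr : (1 : K) - r ≠ 0 := by rw [← neg_ne_zero, neg_sub]; exact h.r1
  have hs : (1 : K) - s ≠ 0 := by rw [← neg_ne_zero, neg_sub]; exact h.s1
  have hu : (1 - r) * (1 - s) ≠ 0 := mul_ne_zero hr hs
  intro h0
  simp only [zRS] at h0
  field_simp at h0
  have he := h.eq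
  simp only [planeEq13] at he
  have hcub : (s - r) ^ 3 - (s - r) ^ 2 * ((1 - r) * (1 - s)) -
      4 * (s - r) * ((1 - r) * (1 - s)) ^ 2 - ((1 - r) * (1 - s)) ^ 3 = 0 := by
    linear_combination h0
  refine h.disc ?_
  have hk : r * (r - 1) ^ 2 * (s - 1) ^ 5 ≠ 0 :=
    mul_ne_zero (mul_ne_zero h.r0 (pow_ne_zero _ h.r1)) (pow_ne_zero _ h.s1)
  refine (mul_eq_zero.mp (show r * (r - 1) ^ 2 * (s - 1) ^ 5 * _ = 0 from ?_)).resolve_left hk
  linear_combination (-(s ^ 3 * (r - s) * (r * s - 2 * r + 1) ^ 3)) * hcub +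
    (r^4*s^6 - 15*r^4*s^5 + 45*r^4*s^4 - 48*r^4*s^3 + 16*r^4*s^2 + r^3*s^6 + 27*r^3*s^5
      - 113*r^3*s^4 + 141*r^3*s^3 - 52*r^3*s^2 - 4*r^2*s^6 - 9*r^2*s^5 + 86*r^2*s^4
      - 134*r^2*s^3 + 54*r^2*s^2 + r^2*s + r*s^6 + r*s^5 - 25*r*s^4 + 49*r*s^3 - 20*r*s^2
      - 2*r*s + s^4 - 4*s^3 + s^2 + s) * he

/-- The doubling on the parameters. -/
theorem zRS_double (h : TateGood r s) {r₂ s₂ : K} (h₂ : TateGood r₂ s₂)
    (hr₂ : r₂ = -r * (s - 1) ^ 3 / (s ^ 2 * (2 * r - 1 - r * s)))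
    (hs₂ : s₂ = (r - 1) * (s - 1) / (s * (r - s))) :
    zRS r₂ s₂ = (-1 / ((zRS r s).1 + 1), (zRS r s).2 / ((zRS r s).1 + 1) ^ 3) := by
  have hr : (1 : K) - r ≠ 0 := by rw [← neg_ne_zero, neg_sub]; exact h.r1
  have hs : (1 : K) - s ≠ 0 := by rw [← neg_ne_zero, neg_sub]; exact h.s1
  have hr' : (1 : K) - r₂ ≠ 0 := by rw [← neg_ne_zero, neg_sub]; exact h₂.r1
  have hs' : (1 : K) - s₂ ≠ 0 := by rw [← neg_ne_zero, neg_sub]; exact h₂.s1
  have hc : 2 * r - 1 - r * s ≠ 0 := fun e => h.w_ne (by linear_combination -e)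
  have he := h.eq
  simp only [planeEq13] at he
  obtain ⟨R, hR⟩ : ∃ R, s ^ 2 * (2 * r - 1 - r * s) = R := ⟨_, rfl⟩
  obtain ⟨S, hS⟩ : ∃ S, s * (r - s) = S := ⟨_, rfl⟩
  have hR0 : R ≠ 0 := hR ▸ mul_ne_zero (pow_ne_zero _ h.s0) hc
  have hS0 : S ≠ 0 := hS ▸ mul_ne_zero h.s0 h.rs
  obtain ⟨nd, hnd⟩ : ∃ nd, (r - 1) * (s - 1) * R + r * (s - 1) ^ 3 * S = nd := ⟨_, rfl⟩
  obtain ⟨ne, hne⟩ : ∃ ne, S - (r - 1) * (s - 1) = ne := ⟨_, rfl⟩
  obtain ⟨nu, hnu⟩ : ∃ nu, (R + r * (s - 1) ^ 3) * ne = nu := ⟨_, rfl⟩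
  have ed : s₂ - r₂ = nd / (S * R) := by
    rw [hr₂, hs₂, hR, hS, ← hnd]; field_simp; ring
  have ee : 1 - s₂ = ne / S := by
    rw [hs₂, hS, ← hne]; field_simp
  have eu : (1 - r₂) * (1 - s₂) = nu / (S * R) := by
    rw [ee, hr₂, hR, ← hnu]; field_simp; ring
  have hne0 : ne ≠ 0 := fun e => hs' (by rw [ee, e, zero_div])
  have hnu0 : nu ≠ 0 := fun e => mul_ne_zero hr' hs' (by rw [eu, e, zero_div])
  have eX : (s₂ - r₂) / ((1 - r₂) * (1 - s₂)) = -1 / ((zRS r s).1 + 1) := by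
    rw [ed, eu, div_div_div_cancel_right₀ (mul_ne_zero hS0 hR0), h.X_add_one, div_div_eq_mul_div,
      div_eq_div_iff hnu0 h.w_ne]
    subst hnu hne hnd hR hS
    linear_combination (-s ^ 2 + 2 * s - 1) * he
  have eQ : (s₂ - r₂) / (1 - s₂) =
      -((s - r) / (1 - s) * ((s - r) / ((1 - r) * (1 - s))) ^ 3 -
        ((s - r) / ((1 - r) * (1 - s))) ^ 2 + 1) := by
    rw [ed, ee, show nd / (S * R) / (ne / S) = nd / (R * ne) by field_simp,
      show -((s - r) / (1 - s) * ((s - r) / ((1 - r) * (1 - s))) ^ 3 -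
        ((s - r) / ((1 - r) * (1 - s))) ^ 2 + 1) =
        -((s - r) ^ 4 - (1 - s) * (s - r) ^ 2 * ((1 - r) * (1 - s)) +
          (1 - s) * ((1 - r) * (1 - s)) ^ 3) / ((1 - s) * ((1 - r) * (1 - s)) ^ 3) by
        field_simp,
      div_eq_div_iff (mul_ne_zero hR0 hne0) (mul_ne_zero hs (pow_ne_zero _ (mul_ne_zero hr hs)))]
    subst hnu hne hnd hR hS
    linear_combination (r^3*s^3 - 2*r^3*s^2 - r^2*s^4 + r^2*s^3 + 4*r^2*s^2 - r^2*s - 2*r*s^3
      - 2*r*s^2 + r*s + s^5 - 2*s^4 + 3*s^3 - s^2) * he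
  have hX1 : (zRS r s).1 + 1 ≠ 0 := fun e => h.X_ne_neg_one (add_eq_zero_iff_eq_neg.mp e)
  refine Prod.ext eX ?_
  show 2 * _ * ((s₂ - r₂) / ((1 - r₂) * (1 - s₂))) ^ 3 + ((s₂ - r₂) / ((1 - r₂) * (1 - s₂))) ^ 3 +
    (s₂ - r₂) / ((1 - r₂) * (1 - s₂)) + 1 = (zRS r s).2 / ((zRS r s).1 + 1) ^ 3
  rw [eX, eQ]
  simp only [zRS] at hX1 ⊢
  generalize (s - r) / (1 - s) = q at *
  generalize (s - r) / ((1 - r) * (1 - s)) = X at *
  field_simp
  ring

section Group

variable [DecidableEq K]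

variable {W : WeierstrassCurve K}

theorem eq_or_eq_neg_of_X_eq {x y₁ y₂ : K} {h₁ : W.toAffine.Nonsingular x y₁}
    {h₂ : W.toAffine.Nonsingular x y₂} :
    (Affine.Point.some x y₁ h₁ : W.toAffine.Point) = .some x y₂ h₂ ∨
      (Affine.Point.some x y₁ h₁ : W.toAffine.Point) = -.some x y₂ h₂ := by
  rcases Affine.Y_eq_of_X_eq h₁.1 h₂.1 rfl with rfl | e
  · exact Or.inl rfl
  · right
    rw [Affine.Point.neg_some, Affine.Point.some.injEq]
    exact ⟨rfl, e⟩

theorem add_eq_some {x₁ x₂ y₁ y₂ ℓ x₃ y₃ : K} {h₁ : W.toAffine.Nonsingular x₁ y₁}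
    {h₂ : W.toAffine.Nonsingular x₂ y₂} (hx : x₁ ≠ x₂) (hl : ℓ * (x₁ - x₂) = y₁ - y₂)
    (h3 : W.toAffine.addX x₁ x₂ ℓ = x₃) (h4 : W.toAffine.addY x₁ x₂ y₁ ℓ = y₃) :
    ∃ h₃, (Affine.Point.some x₁ y₁ h₁ + .some x₂ y₂ h₂ : W.toAffine.Point) = .some x₃ y₃ h₃ := by
  have e : W.toAffine.slope x₁ x₂ y₁ y₂ = ℓ := by
    rw [Affine.slope_of_X_ne hx, div_eq_iff (sub_ne_zero.mpr hx), hl]
  subst h3 h4
  rw [← e]
  exact ⟨_, Affine.Point.add_of_X_ne hx⟩

theorem nsmul_ne_zero13 {P : W.toAffine.Point} (hP : addOrderOf P = 13) {k : ℕ}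
    (hk : ¬ 13 ∣ k) : k • P ≠ 0 :=
  fun h => hk (hP ▸ addOrderOf_dvd_of_nsmul_eq_zero h)

theorem nsmul_ne_self {P : W.toAffine.Point} (hP : addOrderOf P = 13) {k : ℕ}
    (hk : ¬ 13 ∣ k) : (k + 1) • P ≠ P := fun h =>
  nsmul_ne_zero13 hP hk (by rwa [succ_nsmul, add_eq_right] at h)

theorem nsmul_ne_neg_self {P : W.toAffine.Point} (hP : addOrderOf P = 13) {k : ℕ}
    (hk : ¬ 13 ∣ k + 1) : k • P ≠ -P := fun h =>
  nsmul_ne_zero13 hP hk (by rw [succ_nsmul, h, neg_add_cancel])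

/-- **The origin of order `13` on a Tate normal form**. -/
theorem exists_good (b c : K) [(tateCurve b c).IsElliptic]
    (h0 : (tateCurve b c).toAffine.Nonsingular 0 0)
    (hP : addOrderOf (Affine.Point.some 0 0 h0) = 13) :
    b * c ≠ 0 ∧ (∃ h2, 2 • Affine.Point.some 0 0 h0 = .some b (b * c) h2) ∧
      ∃ r s, b = r * s * (r - 1) ∧ c = s * (r - 1) ∧ b / c = r ∧ c ^ 2 / (b - c) = s ∧
        TateGood r s := by
  have hΔ : (tateCurve b c).Δ ≠ 0 := (tateCurve b c).isUnit_Δ.ne_zero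
  rw [Δ_tateCurve] at hΔ
  obtain ⟨hb3, hD⟩ := mul_ne_zero_iff.mp hΔ
  have hb : b ≠ 0 := fun e => hb3 (by rw [e]; ring)
  set P := Affine.Point.some 0 0 h0 with hPdef
  have hzero : ∀ {y : K} (h : (tateCurve b c).toAffine.Nonsingular 0 y) {k : ℕ},
      Affine.Point.some 0 y h = (k + 1) • P → ¬ 13 ∣ k → ¬ 13 ∣ k + 2 → False :=
    fun h k e h1 h2 => by
      rcases eq_or_eq_neg_of_X_eq (h₁ := h) (h₂ := h0) with e' | e'
      · exact nsmul_ne_self hP h1 (e ▸ e')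
      · exact nsmul_ne_neg_self hP h2 (e ▸ e')
  -- the small multiples
  obtain ⟨h2, e2⟩ : ∃ h2, 2 • P = .some b (b * c) h2 := by
    have hy : (0 : K) ≠ (tateCurve b c).toAffine.negY 0 0 := by
      simpa [tateCurve, Affine.negY] using hb.symm
    have hl : (tateCurve b c).toAffine.slope 0 0 0 0 = 0 := by
      rw [Affine.slope_of_Y_ne rfl hy]; simp [tateCurve]
    have e := Affine.Point.add_self_of_Y_ne (h₁ := h0) hy
    have ex : (tateCurve b c).toAffine.addX 0 0 0 = b := by simp [tateCurve, Affine.addX]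
    have ey : (tateCurve b c).toAffine.addY 0 0 0 0 = b * c := by
      simp [tateCurve, Affine.addY, Affine.negAddY, Affine.addX, Affine.negY]; ring
    simp only [hl, ex, ey] at e
    exact ⟨_, (two_nsmul P).trans e⟩
  obtain ⟨h3, e3⟩ : ∃ h3, 3 • P = .some c (b - c) h3 := by
    obtain ⟨h, e⟩ := add_eq_some (x₃ := c) (y₃ := b - c) (ℓ := c) (h₁ := h2) (h₂ := h0) hb
      (by ring) (by simp [tateCurve, Affine.addX]; ring)
      (by simp [tateCurve, Affine.addY, Affine.negAddY, Affine.addX, Affine.negY]; ring)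
    exact ⟨h, by rw [succ_nsmul, e2, hPdef, e]⟩
  have hc : c ≠ 0 := fun e => by
    subst e
    exact hzero h3 (k := 2) e3.symm (by norm_num) (by norm_num)
  have hbc : b - c ≠ 0 := fun e => by
    have hbc' : b = c := sub_eq_zero.mp e
    obtain ⟨h, e4⟩ := add_eq_some (x₃ := 0) (y₃ := b) (ℓ := 0) (h₁ := h3) (h₂ := h0) hc
      (by rw [e]; ring) (by simp [tateCurve, Affine.addX, hbc'])
      (by simp [tateCurve, Affine.addY, Affine.negAddY, Affine.addX, Affine.negY, hbc'])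
    exact hzero h (k := 3) (by rw [succ_nsmul, e3, hPdef, e4]) (by norm_num) (by norm_num)
  obtain ⟨r, hr⟩ : ∃ r, b / c = r := ⟨_, rfl⟩
  obtain ⟨s, hs⟩ : ∃ s, c ^ 2 / (b - c) = s := ⟨_, rfl⟩
  have hcr : c = s * (r - 1) := by rw [← hr, ← hs]; field_simp
  have hbr : b = r * s * (r - 1) := by
    rw [mul_assoc, ← hcr, ← hr, div_mul_cancel₀ b hc]
  refine ⟨mul_ne_zero hb hc, ⟨h2, e2⟩, r, s, hbr, hcr, hr, hs, ?_⟩
  subst hcr hbr
  clear hr hs
  have hr0 : r ≠ 0 := fun e => hb (by rw [e]; ring)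
  have hs0 : s ≠ 0 := fun e => hc (by rw [e]; ring)
  have hr1 : r - 1 ≠ 0 := fun e => hc (by rw [e]; ring)
  obtain ⟨h4, e4⟩ : ∃ h4, 4 • P = .some (r * (r - 1)) (r ^ 2 * (r - 1) * (s - 1)) h4 := by
    obtain ⟨h, e⟩ := add_eq_some (x₃ := r * (r - 1)) (y₃ := r ^ 2 * (r - 1) * (s - 1))
      (ℓ := r - 1) (h₁ := h3) (h₂ := h0) hc
      (by ring) (by simp [tateCurve, Affine.addX]; ring)
      (by simp [tateCurve, Affine.addY, Affine.negAddY, Affine.addX, Affine.negY]; ring)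
    exact ⟨h, by rw [succ_nsmul, e3, hPdef, e]⟩
  obtain ⟨h5, e5⟩ :
      ∃ h5, 5 • P = .some (r * s * (s - 1)) (r * s ^ 2 * (r - s)) h5 := by
    obtain ⟨h, e⟩ := add_eq_some (x₃ := r * s * (s - 1)) (y₃ := r * s ^ 2 * (r - s))
      (ℓ := r * (s - 1)) (h₁ := h4) (h₂ := h0) (mul_ne_zero hr0 hr1)
      (by ring) (by simp [tateCurve, Affine.addX]; ring)
      (by simp [tateCurve, Affine.addY, Affine.negAddY, Affine.addX, Affine.negY]; ring)
    exact ⟨h, by rw [succ_nsmul, e4, hPdef, e]⟩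
  have hs1 : s - 1 ≠ 0 := fun e => by
    obtain rfl := sub_eq_zero.mp e
    have hx : r * (1 : K) * (1 - 1) = 0 := by ring
    obtain ⟨h, e'⟩ : ∃ h, 5 • P = .some 0 (r * 1 ^ 2 * (r - 1)) h :=
      ⟨hx ▸ h5, e5.trans (by simp only [hx])⟩
    exact hzero h (k := 4) e'.symm (by norm_num) (by norm_num)
  obtain ⟨x, hx⟩ : ∃ x, s * (r - 1) * (r - s) / (s - 1) ^ 2 = x := ⟨_, rfl⟩
  obtain ⟨y, hy⟩ : ∃ y, -(s * (r - s) / (s - 1) + 1 - s * (r - 1)) * x + r * s * (r - 1) = y :=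
    ⟨_, rfl⟩
  obtain ⟨h6, e6⟩ : ∃ h6, 6 • P = .some x y h6 := by
    obtain ⟨h, e⟩ := add_eq_some (x₃ := x) (y₃ := y) (ℓ := s * (r - s) / (s - 1)) (h₁ := h5)
      (h₂ := h0) (mul_ne_zero (mul_ne_zero hr0 hs0) hs1)
      (by field_simp; ring) (by rw [← hx]; simp [tateCurve, Affine.addX]; field_simp; ring)
      (by rw [← hy, ← hx]; simp [tateCurve, Affine.addY, Affine.negAddY, Affine.addX, Affine.negY]
          field_simp; ring)
    exact ⟨h, by rw [succ_nsmul, e5, hPdef, e]⟩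
  have hrs : r - s ≠ 0 := fun e => by
    have hx0 : x = 0 := by rw [← hx, e]; simp
    subst hx0
    exact hzero h6 (k := 5) e6.symm (by norm_num) (by norm_num)
  refine ⟨hr0, hr1, hs0, hs1, hrs, ?_, hD⟩
  have h12 : Affine.Point.some x y h6 + .some x y h6 = -P := by
    rw [← e6, ← add_nsmul, eq_neg_iff_add_eq_zero, ← succ_nsmul, show 6 + 6 + 1 = addOrderOf P from
      hP.symm]
    exact addOrderOf_nsmul_eq_zero P
  have hY : y ≠ (tateCurve (r * s * (r - 1)) (s * (r - 1))).toAffine.negY x y := fun e => by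
    rw [Affine.Point.add_self_of_Y_eq e] at h12
    exact nsmul_ne_zero13 hP (k := 1) (by norm_num) (by rw [one_nsmul, ← neg_eq_zero, ← h12])
  rw [Affine.Point.add_self_of_Y_ne hY, hPdef, Affine.Point.neg_some, Affine.Point.some.injEq]
    at h12
  obtain ⟨hX3, hY3⟩ := h12
  obtain ⟨μ, hμ⟩ : ∃ μ,
      (tateCurve (r * s * (r - 1)) (s * (r - 1))).toAffine.slope x x y y = μ := ⟨_, rfl⟩
  have hden : y - (tateCurve (r * s * (r - 1)) (s * (r - 1))).toAffine.negY x y ≠ 0 :=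
    sub_ne_zero.mpr hY
  have hnum := hμ
  rw [Affine.slope_of_Y_ne rfl hY, div_eq_iff hden] at hnum
  rw [hμ] at hX3 hY3
  simp only [Affine.addY, Affine.negAddY, hX3] at hY3
  simp [tateCurve, Affine.negY] at hY3 hnum
  have hyx : y = μ * x := by linear_combination -hY3
  have heq := (Affine.equation_iff x y).mp h6.1
  simp [tateCurve] at heq
  have hby : r * s * (r - 1) * y = x ^ 3 := by
    linear_combination -(2 : K) * heq - x * hnum +
      (2 * y + (1 - s * (r - 1)) * x - r * s * (r - 1)) * hyx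
  have hx' : (s - 1) ^ 2 * x = s * (r - 1) * (r - s) := by
    rw [← hx]; field_simp
  have hy' : (s - 1) ^ 3 * y = -(s * (r - s) + (1 - s * (r - 1)) * (s - 1)) *
      (s * (r - 1) * (r - s)) + r * s * (r - 1) * (s - 1) ^ 3 := by
    rw [← hy, ← hx]; field_simp; ring
  refine (mul_eq_zero.mp (show s ^ 3 * (r - 1) ^ 3 * planeEq13 r s = 0 from ?_)).resolve_left
    (mul_ne_zero (pow_ne_zero _ hs0) (pow_ne_zero _ hr1))
  simp only [planeEq13]
  linear_combination (s - 1) ^ 6 * hby - r * s * (r - 1) * (s - 1) ^ 3 * hy' +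
    ((s - 1) ^ 4 * x ^ 2 + (s - 1) ^ 2 * x * (s * (r - 1) * (r - s)) +
      (s * (r - 1) * (r - s)) ^ 2) * hx'

variable [W.IsElliptic] {x y : K} {h : W.toAffine.Nonsingular x y}

/-- **The Tate normal form** of a point of order `13`. -/
theorem exists_tate (hP : addOrderOf (Affine.Point.some x y h) = 13) :
    ∃ C : VariableChange K, C • W = tateCurve (bc13 W x y).1 (bc13 W x y).2 ∧
      vcX C 0 = x ∧ vcY C 0 0 = y := by
  have hy : y ≠ W.toAffine.negY x y := fun e => by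
    refine nsmul_ne_zero13 hP (k := 2) (by norm_num) ?_
    rw [two_nsmul]; exact Affine.Point.add_self_of_Y_eq e
  have h3 : tateA3 W x y ≠ 0 := fun e => hy (by
    simp only [tateA3] at e
    simp only [Affine.negY]
    linear_combination e)
  have hl : W.toAffine.slope x x y y = lam13 W x y := by
    rw [Affine.slope_of_Y_ne rfl hy, lam13, show y - W.toAffine.negY x y = tateA3 W x y by
      simp only [tateA3, Affine.negY]; ring]
  have h2 : tateA2 W x y ≠ 0 := fun e => by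
    have ex : W.toAffine.addX x x (lam13 W x y) = x := by
      simp only [tateA2] at e
      simp only [Affine.addX]
      linear_combination -e
    have e2 := Affine.Point.add_self_of_Y_ne (h₁ := h) hy
    simp only [hl, ex] at e2
    obtain ⟨h', e2'⟩ : ∃ h', 2 • Affine.Point.some x y h =
        Affine.Point.some x (W.toAffine.addY x x y (lam13 W x y)) h' :=
      ⟨_, (two_nsmul _).trans e2⟩
    rcases eq_or_eq_neg_of_X_eq (h₁ := h') (h₂ := h) with e' | e' <;> rw [← e2'] at e'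
    · exact nsmul_ne_self hP (k := 1) (by norm_num) e'
    · exact nsmul_ne_neg_self hP (k := 2) (by norm_num) e'
  refine ⟨⟨Units.mk0 (tateA3 W x y / tateA2 W x y) (div_ne_zero h3 h2), x, lam13 W x y, y⟩, ?_,
    by simp [vcX], by simp [vcY]⟩
  have hlam : lam13 W x y * tateA3 W x y = 3 * x ^ 2 + 2 * W.a₂ * x + W.a₄ - W.a₁ * y :=
    div_mul_cancel₀ _ h3
  have heq := (Affine.equation_iff x y).mp h.1
  ext <;>
    simp only [variableChange_a₁, variableChange_a₂, variableChange_a₃, variableChange_a₄,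
      variableChange_a₆, tateCurve, bc13, Units.val_inv_eq_inv_val, Units.val_mk0]
  · simp only [tateA1]; field_simp; ring
  · rw [show W.a₂ - lam13 W x y * W.a₁ + 3 * x - lam13 W x y ^ 2 = tateA2 W x y by
      simp only [tateA2]; ring]
    field_simp
  · rw [show W.a₃ + x * W.a₁ + 2 * y = tateA3 W x y by simp only [tateA3]; ring]
    field_simp
  · rw [show W.a₄ - lam13 W x y * W.a₃ + 2 * x * W.a₂ - (y + x * lam13 W x y) * W.a₁ + 3 * x ^ 2 -
      2 * lam13 W x y * y = 0 by simp only [tateA3] at hlam; linear_combination -hlam, mul_zero]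
  · rw [show W.a₆ + x * W.a₄ + x ^ 2 * W.a₂ + x ^ 3 - y * W.a₃ - y ^ 2 - x * y * W.a₁ = 0 by
      linear_combination -heq, mul_zero]

/-- The parameters are invariant under changes of variables. -/
theorem bc13_vc {W' : WeierstrassCurve K} {C : VariableChange K} (hC : C • W = W') {X Y : K}
    (h3 : tateA3 W' X Y ≠ 0) : bc13 W (vcX C X) (vcY C X Y) = bc13 W' X Y := by
  obtain ⟨e1, e2, e3, e4, -⟩ := vc_coeffs C hC
  have hu : (C.u : K) ≠ 0 := C.u.ne_zero
  have f3 : tateA3 W (vcX C X) (vcY C X Y) = (C.u : K) ^ 3 * tateA3 W' X Y := by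
    simp only [tateA3, vcX, vcY]; rw [e3, e1]; ring
  have fl : lam13 W (vcX C X) (vcY C X Y) = C.u * lam13 W' X Y + C.s := by
    rw [lam13, f3, lam13]
    field_simp
    simp only [tateA3, vcX, vcY]
    rw [e4, e3, e2, e1]
    ring
  have f1 : tateA1 W (vcX C X) (vcY C X Y) = C.u * tateA1 W' X Y := by
    simp only [tateA1]; rw [fl, e1]; ring
  have f2 : tateA2 W (vcX C X) (vcY C X Y) = (C.u : K) ^ 2 * tateA2 W' X Y := by
    simp only [tateA2]; rw [fl, e2, e1]; simp only [vcX]; ring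
  simp only [bc13, f1, f2, f3, Prod.mk.injEq]
  constructor <;> field_simp

/-- The parameters of a point of order `13` and of its double. -/
theorem exists_params (hP : addOrderOf (Affine.Point.some x y h) = 13) :
    ∃ r s, z13 W x y = zRS r s ∧ TateGood r s ∧
      ∀ {x' y' : K} {h' : W.toAffine.Nonsingular x' y'},
        2 • Affine.Point.some x y h = .some x' y' h' →
          bc13 W x' y' = (-r * (s - 1) ^ 3 / (s ^ 4 * (r - 1)),
            (2 * r - 1 - r * s) / (s ^ 2 * (r - 1))) := by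
  obtain ⟨C, hC, hX, hY⟩ := exists_tate hP
  obtain ⟨b, hb⟩ : ∃ b, (bc13 W x y).1 = b := ⟨_, rfl⟩
  obtain ⟨c, hc⟩ : ∃ c, (bc13 W x y).2 = c := ⟨_, rfl⟩
  rw [hb, hc] at hC
  haveI : (tateCurve b c).IsElliptic := hC ▸ inferInstance
  have h0 : (tateCurve b c).toAffine.Nonsingular 0 0 :=
    Affine.equation_iff_nonsingular.mp ((equation_vc C hC 0 0).mp (by rw [hX, hY]; exact h.1))
  have he : vcEquiv C hC (.some 0 0 h0) = Affine.Point.some x y h := by
    rw [vcEquiv_some, Affine.Point.some.injEq]; exact ⟨hX, hY⟩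
  have hP0 : addOrderOf (Affine.Point.some 0 0 h0) = 13 := by
    rw [← hP, ← he]
    exact (addOrderOf_injective (vcEquiv C hC).toAddMonoidHom (vcEquiv C hC).injective _).symm
  obtain ⟨hbc0, ⟨h2, e2⟩, r, s, hbr, hcr, hr, hs, hg⟩ := exists_good b c h0 hP0
  refine ⟨r, s, by rw [z13, hb, hc, hr, hs], hg, fun {x' y' h'} hd => ?_⟩
  rw [← he, ← map_nsmul, e2, vcEquiv_some, Affine.Point.some.injEq] at hd
  obtain ⟨rfl, rfl⟩ := hd
  have h3 : tateA3 (tateCurve b c) b (b * c) = b * c := by simp [tateA3, tateCurve]; ring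
  have hc0 := (mul_ne_zero_iff.mp hbc0).2
  have hb0 := (mul_ne_zero_iff.mp hbc0).1
  rw [bc13_vc hC (by rwa [h3])]
  have hl : lam13 (tateCurve b c) b (b * c) = (r - 1) * (1 + s) := by
    rw [lam13, h3, div_eq_iff hbc0]
    simp [tateCurve]
    rw [hbr, hcr]; ring
  have h2' : tateA2 (tateCurve b c) b (b * c) = r * (r - 1) * (s - 1) := by
    simp only [tateA2, hl]; simp [tateCurve]; rw [hbr, hcr]; ring
  have h1' : tateA1 (tateCurve b c) b (b * c) = 1 + (r - 1) * (2 + s) := by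
    simp only [tateA1, hl]; simp [tateCurve]; rw [hcr]; ring
  have := hg.r0; have := hg.r1; have := hg.s0
  rw [bc13, h1', h2', h3, hbr, hcr, Prod.mk.injEq]
  constructor
  · field_simp
  · field_simp; ring

/-- **A point of order `13` gives a point of `Y² = f13 X` off the cusps.** -/
theorem z13_spec (hP : addOrderOf (Affine.Point.some x y h) = 13) :
    (z13 W x y).2 ^ 2 = f13 (z13 W x y).1 ∧ (z13 W x y).1 ≠ 0 ∧ (z13 W x y).1 ≠ -1 ∧
      (z13 W x y).1 ^ 3 - (z13 W x y).1 ^ 2 - 4 * (z13 W x y).1 - 1 ≠ 0 := by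
  obtain ⟨r, s, hz, hg, -⟩ := exists_params hP
  rw [hz]
  exact ⟨hg.curve, hg.X_ne_zero, hg.X_ne_neg_one, hg.cubic_ne⟩

/-- **Doubling the point** is the automorphism `(X, Y) ↦ (-1 / (X + 1), Y / (X + 1) ^ 3)`. -/
theorem z13_double (hP : addOrderOf (Affine.Point.some x y h) = 13) {x' y' : K}
    {h' : W.toAffine.Nonsingular x' y'}
    (hd : 2 • Affine.Point.some x y h = .some x' y' h') :
    z13 W x' y' = (-1 / ((z13 W x y).1 + 1), (z13 W x y).2 / ((z13 W x y).1 + 1) ^ 3) := by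
  obtain ⟨r, s, hz, hg, hdbl⟩ := exists_params hP
  have hP' : addOrderOf (Affine.Point.some x' y' h') = 13 := by
    haveI : Fact (Nat.Prime 13) := ⟨by norm_num⟩
    refine addOrderOf_eq_prime ?_ (Affine.Point.some_ne_zero h')
    rw [← hd, nsmul_left_comm, ← hP, addOrderOf_nsmul_eq_zero, nsmul_zero]
  obtain ⟨C, hC, hX, hY⟩ := exists_tate hP'
  have e := hdbl hd
  rw [e] at hC
  haveI : (tateCurve (-r * (s - 1) ^ 3 / (s ^ 4 * (r - 1)))
    ((2 * r - 1 - r * s) / (s ^ 2 * (r - 1)))).IsElliptic := hC ▸ inferInstance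
  have h0 : (tateCurve (-r * (s - 1) ^ 3 / (s ^ 4 * (r - 1)))
      ((2 * r - 1 - r * s) / (s ^ 2 * (r - 1)))).toAffine.Nonsingular 0 0 :=
    Affine.equation_iff_nonsingular.mp ((equation_vc C hC 0 0).mp (by rw [hX, hY]; exact h'.1))
  have hP0 : addOrderOf (Affine.Point.some 0 0 h0) = 13 := by
    rw [← hP', show Affine.Point.some x' y' h' = vcEquiv C hC (.some 0 0 h0) by
      rw [vcEquiv_some, Affine.Point.some.injEq]; exact ⟨hX.symm, hY.symm⟩]
    exact (addOrderOf_injective (vcEquiv C hC).toAddMonoidHom (vcEquiv C hC).injective _).symm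
  obtain ⟨-, -, r₂, s₂, -, -, hr₂, hs₂, hg₂⟩ := exists_good _ _ h0 hP0
  have := hg.r0; have := hg.r1; have := hg.s0; have := hg.s1; have := hg.rs
  have hw : 2 * r - 1 - r * s ≠ 0 := fun e => hg.w_ne (by linear_combination -e)
  have er : r₂ = -r * (s - 1) ^ 3 / (s ^ 2 * (2 * r - 1 - r * s)) := by
    rw [← hr₂]; field_simp
  have es : s₂ = (r - 1) * (s - 1) / (s * (r - s)) := by
    have ht : -r * (s - 1) ^ 3 - (2 * r - 1 - r * s) * s ^ 2 ≠ 0 := fun e => by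
      refine hg₂.s0 ?_
      rw [← hs₂, show -r * (s - 1) ^ 3 / (s ^ 4 * (r - 1)) -
        (2 * r - 1 - r * s) / (s ^ 2 * (r - 1)) =
          (-r * (s - 1) ^ 3 - (2 * r - 1 - r * s) * s ^ 2) / (s ^ 4 * (r - 1)) by field_simp,
        e, zero_div, div_zero]
    rw [← hs₂, show -r * (s - 1) ^ 3 / (s ^ 4 * (r - 1)) -
        (2 * r - 1 - r * s) / (s ^ 2 * (r - 1)) =
          (-r * (s - 1) ^ 3 - (2 * r - 1 - r * s) * s ^ 2) / (s ^ 4 * (r - 1)) by field_simp,
      show ((2 * r - 1 - r * s) / (s ^ 2 * (r - 1))) ^ 2 /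
          ((-r * (s - 1) ^ 3 - (2 * r - 1 - r * s) * s ^ 2) / (s ^ 4 * (r - 1))) =
        (2 * r - 1 - r * s) ^ 2 /
          ((r - 1) * (-r * (s - 1) ^ 3 - (2 * r - 1 - r * s) * s ^ 2)) by field_simp,
      div_eq_div_iff (mul_ne_zero hg.r1 ht) (mul_ne_zero hg.s0 hg.rs)]
    have he := hg.eq
    simp only [planeEq13] at he
    linear_combination -he
  have hz' : z13 W x' y' = zRS r₂ s₂ := by
    rw [z13, e]
    simp only [hr₂, hs₂]
  rw [hz', hz, zRS_double hg hg₂ er es]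

end Group

/-- **No rational point of order `13`** if the only rational points of the sextic are cusps. -/
theorem no_point_thirteen_of_onlyCusps (H : OnlyCusps) (E : WeierstrassCurve ℚ) [E.IsElliptic]
    (P : E.toAffine.Point) : addOrderOf P ≠ 13 := by
  intro hP
  rcases P with _ | ⟨x, y, h⟩
  · rw [← Affine.Point.zero_def, addOrderOf_zero] at hP
    norm_num at hP
  · obtain ⟨h1, h2, h3, -⟩ := z13_spec hP
    rcases H _ _ h1 with e | e
    · exact h2 e
    · exact h3 e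

end FA.Thirteen

end
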