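import Fermat.Agent.Thirteen.Irreducible
import Fermat.Agent.Root.SummaryDiscriminant
import Fermat.Agent.Root.SummaryMazur
import Fermat.Agent.Root.SummarySurjective
import Fermat.Agent.Root.SummaryTwists

/-!
# The Summary statements for every prime `p ≥ 11`, given the rational points of `X₁(13)`

Under `OnlyCusps` (the rational points of `y² = f13 x` are cusps) the restriction `p ≠ 13` is
lifted from Mazur's theorem, irreducibility, level lowering, surjectivity and Ribet's equation.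
-/

set_option autoImplicit false
set_option linter.style.haveILetI false
set_option linter.unusedSectionVars false

noncomputable section

open WeierstrassCurve WeierstrassCurve.Affine Matrix
open FA.Frob (ratCurve)
open scoped WeierstrassCurve.Affine

local notation "Qb" => AlgebraicClosure ℚ
local notation "GQ" => AlgebraicClosure ℚ ≃ₐ[ℚ] AlgebraicClosure ℚ
local notation "M2" => Matrix (Fin 2) (Fin 2)

namespace FA.Thirteen

variable (H : OnlyCusps)
include H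

/-- **Irreducibility at every prime `p ≥ 11`**. -/
theorem modRepIsIrreducible_of_onlyCusps {W : WeierstrassCurve ℤ} (hΔ : W.Δ ≠ 0)
    (hW : W.IsSemistableModel) {p : ℕ} (hp : p.Prime) (h11 : 11 ≤ p) :
    W.ModRepIsIrreducible p := by
  rcases eq_or_ne p 13 with rfl | h13
  · exact modRepIsIrreducible_thirteen_of_onlyCusps H hΔ hW
  · exact FA.Ribet.modRepIsIrreducible_of_semistable hΔ hW hp h11 h13

end FA.Thirteen

namespace FA.Summary

variable (H : FA.Thirteen.OnlyCusps)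
include H

/-- **No rational point of order `p ≥ 11`** on any elliptic curve over `ℚ`. -/
theorem mazur_of_onlyCusps (E : WeierstrassCurve ℚ) [E.IsElliptic] {p : ℕ} (hp : p.Prime)
    (h11 : 11 ≤ p) (P : E.toAffine.Point) : addOrderOf P ≠ p := by
  rcases eq_or_ne p 13 with rfl | h13
  · exact FA.Thirteen.no_point_thirteen_of_onlyCusps H E P
  · exact mazur E hp h11 h13 P

/-- The primes dividing the order of a rational torsion point are at most `7`. -/
theorem mazur_prime_dvd_of_onlyCusps (E : WeierstrassCurve ℚ) [E.IsElliptic] (P : E.toAffine.Point)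
    (hP : addOrderOf P ≠ 0) {p : ℕ} (hp : p.Prime) (hd : p ∣ addOrderOf P) : p ≤ 7 := by
  rcases mazur_prime_dvd E P hP hp hd with h | rfl
  · exact h
  obtain ⟨k, hk⟩ := hd
  have hk0 : k ≠ 0 := fun e => hP (by rw [hk, e, mul_zero])
  refine absurd ?_ (FA.Thirteen.no_point_thirteen_of_onlyCusps H E (k • P))
  rw [addOrderOf_nsmul' P hk0, hk, Nat.gcd_mul_left_left,
    Nat.mul_div_cancel _ (Nat.pos_of_ne_zero hk0)]

/-- **No Galois stable subgroup of order `p ≥ 11`** on a semistable curve. -/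
theorem noStableSubgroup_of_onlyCusps (E : WeierstrassCurve ℚ) [E.IsElliptic]
    (h : ∀ p : ℕ, ∀ [Fact p.Prime], ∃ C : VariableChange ℚ_[p],
      HasGoodReduction ℤ_[p] (C • E.map (algebraMap ℚ ℚ_[p])) ∨
        HasMultiplicativeReduction ℤ_[p] (C • E.map (algebraMap ℚ ℚ_[p])))
    [inst : DecidableEq (AlgebraicClosure ℚ)] {p : ℕ} (hp : p.Prime) (h11 : 11 ≤ p)
    (G : AddSubgroup (E.toAffine⁄(AlgebraicClosure ℚ)).Point) (hcard : Nat.card G = p) :
    ¬ ∀ σ : AlgebraicClosure ℚ ≃ₐ[ℚ] AlgebraicClosure ℚ, ∀ P ∈ G,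
      Affine.Point.map σ.toAlgHom P ∈ G := by
  intro hst
  obtain rfl : inst = instDecEqAlgebraicClosureRat := Subsingleton.elim _ _
  obtain ⟨W, hW, hs⟩ := FA.Root.exists_semistableModel E
    fun q _ => FA.Root.isSemistableAt_of_reduction E (h q).choose_spec
  exact FA.Root.not_modRepIsIrreducible_of_model_subgroup hW hp G hcard hst
    (FA.Thirteen.modRepIsIrreducible_of_onlyCusps H (FA.Frob.Δ_ne_zero_of_model hW) hs hp h11)

/-- **No Galois stable subgroup of order `p ≥ 11`** with a semistable quadratic twist. -/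
theorem noStableSubgroup_twist_of_onlyCusps (E : WeierstrassCurve ℚ) [E.IsElliptic] {d : ℚ} (hd : d ≠ 0)
    (h : ∀ p : ℕ, ∀ [Fact p.Prime], ∃ C : VariableChange ℚ_[p],
      HasGoodReduction ℤ_[p] (C • (⟨0, 0, 0, -27 * (d ^ 2 * E.c₄), -54 * (d ^ 3 * E.c₆)⟩ :
          WeierstrassCurve ℚ).map (algebraMap ℚ ℚ_[p])) ∨
        HasMultiplicativeReduction ℤ_[p] (C • (⟨0, 0, 0, -27 * (d ^ 2 * E.c₄),
          -54 * (d ^ 3 * E.c₆)⟩ : WeierstrassCurve ℚ).map (algebraMap ℚ ℚ_[p])))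
    [inst : DecidableEq (AlgebraicClosure ℚ)] {p : ℕ} (hp : p.Prime) (h11 : 11 ≤ p)
    (G : AddSubgroup (E.toAffine⁄(AlgebraicClosure ℚ)).Point) (hcard : Nat.card G = p) :
    ¬ ∀ σ : AlgebraicClosure ℚ ≃ₐ[ℚ] AlgebraicClosure ℚ, ∀ P ∈ G,
      Affine.Point.map σ.toAlgHom P ∈ G := by
  intro hst
  obtain rfl : inst = instDecEqAlgebraicClosureRat := Subsingleton.elim _ _
  haveI := FA.Root.quadTwist_isElliptic E hd
  obtain ⟨e, he⟩ := FA.Root.exists_twist_equiv E hd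
  refine noStableSubgroup_of_onlyCusps H (FA.Twists.quadTwist E d) h hp h11 (G.comap e.toAddMonoidHom) ?_
    fun σ Q hQ => ?_
  · rw [← hcard]
    exact Nat.card_congr (e.toEquiv.subtypeEquiv fun _ => Iff.rfl)
  · show e (σ • Q) ∈ G
    rcases he σ Q with h' | h'
    · exact h' ▸ hst σ _ hQ
    · exact neg_mem_iff.1 (h' ▸ hst σ _ hQ)

/-- **Level lowering** for semistable curves and every prime `p ≥ 11`. -/
theorem levelLowering_of_onlyCusps (E : WeierstrassCurve ℚ) [E.IsElliptic]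
    (h : ∀ p : ℕ, ∀ [Fact p.Prime], ∃ C : VariableChange ℚ_[p],
      HasGoodReduction ℤ_[p] (C • E.map (algebraMap ℚ ℚ_[p])) ∨
        HasMultiplicativeReduction ℤ_[p] (C • E.map (algebraMap ℚ ℚ_[p])))
    {p : ℕ} (hp : p.Prime) (h11 : 11 ≤ p) :
    ∃ (W : WeierstrassCurve ℤ) (C : VariableChange ℚ), C • E = W.map (Int.castRingHom ℚ) ∧
      (∀ q : ℕ, q.Prime → (q : ℤ) ∣ W.Δ → ¬ (q : ℤ) ∣ W.c₄) ∧
      ∃ (N : ℕ) (f : CuspForm (CongruenceSubgroup.Gamma0 N) 2)
        (𝔪 : Ideal (integralClosure ℤ ℂ)),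
        N ∣ (∏ q ∈ W.Δ.natAbs.primeFactors.filter (fun q => ¬ p ∣ padicValInt q W.Δ), q) ∧
        (UpperHalfPlane.qExpansion 1 f).coeff 1 = 1 ∧
        (∀ n : ℕ, IsIntegral ℤ ((UpperHalfPlane.qExpansion 1 f).coeff n)) ∧
        𝔪.IsMaximal ∧ (p : integralClosure ℤ ℂ) ∈ 𝔪 ∧
        ∀ l : ℕ, l.Prime → ¬ (l : ℤ) ∣ N * p * W.Δ →
          ∃ a : integralClosure ℤ ℂ, (a : ℂ) = (UpperHalfPlane.qExpansion 1 f).coeff l ∧
            a - ((E.LFunction l : ℤ) : integralClosure ℤ ℂ) ∈ 𝔪 := by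
  obtain ⟨W, hW, hs⟩ := FA.Root.exists_semistableModel E
    fun q _ => FA.Root.isSemistableAt_of_reduction E (h q).choose_spec
  haveI := Fact.mk hp
  obtain ⟨C, hC⟩ := id hW
  exact ⟨W, C, hC, hs, FA.Root.exists_form_of_irreducible E hW hs (by omega)
    (FA.Thirteen.modRepIsIrreducible_of_onlyCusps H (FA.Frob.Δ_ne_zero_of_model hW) hs hp h11)⟩

/-- The primes with exponent prime to `p` in the discriminant, for every `p ≥ 11`. -/
theorem discriminantPrimes_of_onlyCusps (W : WeierstrassCurve ℤ) (hΔ : W.Δ ≠ 0)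
    (hW : ∀ q : ℕ, q.Prime → (q : ℤ) ∣ W.Δ → ¬ (q : ℤ) ∣ W.c₄)
    {p : ℕ} (hp : p.Prime) (h11 : 11 ≤ p) :
    11 ≤ (∏ q ∈ W.Δ.natAbs.primeFactors.filter (fun q => ¬ p ∣ padicValInt q W.Δ), q) ∧
      (∏ q ∈ W.Δ.natAbs.primeFactors.filter (fun q => ¬ p ∣ padicValInt q W.Δ), q) ≠ 13 := by
  haveI := Fact.mk hp
  exact FA.Root.discriminantPrimes_of_irreducible hΔ hW (by omega)
    (FA.Thirteen.modRepIsIrreducible_of_onlyCusps H hΔ hW hp h11)

/-- **The discriminant is not, up to sign, a `p`-th power**, for every `p ≥ 11`. -/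
theorem discriminant_ne_pow_of_onlyCusps (W : WeierstrassCurve ℤ) (hΔ : W.Δ ≠ 0)
    (hW : ∀ q : ℕ, q.Prime → (q : ℤ) ∣ W.Δ → ¬ (q : ℤ) ∣ W.c₄)
    {p : ℕ} (hp : p.Prime) (h11 : 11 ≤ p) (t : ℤ) :
    W.Δ.natAbs ≠ t.natAbs ^ p := by
  haveI := Fact.mk hp
  exact FA.Root.discriminant_ne_pow_of_irreducible hΔ hW (by omega)
    (FA.Thirteen.modRepIsIrreducible_of_onlyCusps H hΔ hW hp h11) t

end FA.Summary

namespace FA.Thirteen

open FA.EC FA.Frob FA.RT FA.Ribet

variable (H : OnlyCusps) {p : ℕ} [hp : Fact p.Prime] {W : WeierstrassCurve ℤ}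
  [(ratCurve W).IsElliptic]
include H

/-- **Serre surjectivity**: for a semistable equation and a prime `p ≥ 11` every
invertible matrix is the image of an automorphism of `ℚ̄`. -/
theorem exists_curveRep_eq_of_onlyCusps (hΔ : W.Δ ≠ 0) (hW : W.IsSemistableModel) (h11 : 11 ≤ p)
    {M : M2 (ZMod p)} (hM : M.det ≠ 0) : ∃ σ : GQ, curveRep p W σ = M :=
  exists_curveRep_eq_of_irreducible_odd hΔ hW (by omega)
    (modRepIsIrreducible_of_onlyCusps H hΔ hW hp.out h11) hM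

end FA.Thirteen

namespace FA.Summary

variable (H : FA.Thirteen.OnlyCusps)
include H

/-- **Serre surjectivity** for semistable curves and every prime `p ≥ 11`. -/
theorem galoisSurjectiveTorsion_of_onlyCusps (E : WeierstrassCurve ℚ) [E.IsElliptic]
    (h : ∀ p : ℕ, ∀ [Fact p.Prime], ∃ C : VariableChange ℚ_[p],
      HasGoodReduction ℤ_[p] (C • E.map (algebraMap ℚ ℚ_[p])) ∨
        HasMultiplicativeReduction ℤ_[p] (C • E.map (algebraMap ℚ ℚ_[p])))
    [inst : DecidableEq (AlgebraicClosure ℚ)] {p : ℕ} (hp : p.Prime) (h11 : 11 ≤ p)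
    (φ : Submodule.torsionBy ℤ (E.toAffine⁄(AlgebraicClosure ℚ)).Point (p : ℤ) ≃+
      Submodule.torsionBy ℤ (E.toAffine⁄(AlgebraicClosure ℚ)).Point (p : ℤ)) :
    ∃ σ : AlgebraicClosure ℚ ≃ₐ[ℚ] AlgebraicClosure ℚ, ∀ P,
      Affine.Point.map σ.toAlgHom P.1 = (φ P).1 := by
  obtain rfl : inst = instDecEqAlgebraicClosureRat := Subsingleton.elim _ _
  obtain ⟨W, hW, hs⟩ := FA.Root.exists_semistableModel E
    fun q _ => FA.Root.isSemistableAt_of_reduction E (h q).choose_spec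
  have hΔ : W.Δ ≠ 0 := FA.Frob.Δ_ne_zero_of_model hW
  haveI := FA.Frob.ratCurve_isElliptic_of_Δ hΔ
  haveI := Fact.mk hp
  exact FA.Root.exists_map_eq_of_model hW p (FA.Ribet.exists_smul_eq_of_curveRep
    fun _ hM => FA.Thirteen.exists_curveRep_eq_of_onlyCusps H hΔ hs h11 hM) φ

/-- No semistable discriminant is a `p`-th power away from two, `p ≥ 11`. -/
theorem _root_.FA.Thirteen.false_of_eq_pow_of_onlyCusps {W : WeierstrassCurve ℤ} {p : ℕ} (hp : p.Prime)
    (h11 : 11 ≤ p) (hΔ : W.Δ ≠ 0) (hW : W.IsSemistableModel)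
    {a b : ℕ} {t : ℤ} (h : (2 : ℤ) ^ a * W.Δ = 2 ^ b * t ^ p) : False :=
  haveI := Fact.mk hp
  FA.Root.not_modRepIsIrreducible_of_eq_pow (by omega) hΔ hW h
    (FA.Thirteen.modRepIsIrreducible_of_onlyCusps H hΔ hW hp h11)

open FA.Ribet in
/-- **`a ^ p + 2 ^ α b ^ p + c ^ p ≠ 0`** for a prime `p ≥ 11`. -/
theorem ribet_primeExponent_of_onlyCusps {p : ℕ} (hp : p.Prime)
    (h11 : 11 ≤ p) {α : ℕ} {a b c : ℤ} (hb : b ≠ 0) (hc : c ≠ 0) (hodd : Odd a)
    (hab : IsCoprime a b)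
    (hα : 4 ≤ α + p * padicValInt 2 b) : a ^ p + 2 ^ α * b ^ p + c ^ p ≠ 0 := by
  intro heq
  have hpodd : Odd p := hp.odd_of_ne_two (by omega)
  wlog h3 : a ^ p % 4 = 3 generalizing a b c
  · have h1 : a ^ p % 4 = 1 := by
      have := hodd.pow (n := p)
      rw [Int.odd_iff] at this
      omega
    refine this (a := -a) (b := -b) (c := -c) (neg_ne_zero.mpr hb) (neg_ne_zero.mpr hc) hodd.neg
      hab.neg_neg (by simpa [padicValInt] using hα) ?_ ?_
    · simp only [hpodd.neg_pow]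
      linear_combination -heq
    · rw [hpodd.neg_pow]
      omega
  have h16 : (16 : ℤ) ∣ 2 ^ α * b ^ p := by
    refine (show (16 : ℤ) ∣ 2 ^ (α + p * padicValInt 2 b) from pow_dvd_pow 2 hα).trans ?_
    rw [pow_add, mul_comm p, pow_mul]
    exact mul_dvd_mul_left _ (pow_dvd_pow_of_dvd (by simpa using padicValInt_dvd (p := 2) b) p)
  have h2a : IsCoprime a 2 := by
    obtain ⟨k, hk⟩ := hodd
    exact ⟨1, -k, by rw [hk]; ring⟩
  have hcop : IsCoprime (a ^ p) (2 ^ α * b ^ p) :=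
    IsCoprime.mul_right (h2a.pow (m := p) (n := α)) (hab.pow (m := p) (n := p))
  have ha0 : a ≠ 0 := fun e => by simp [e] at hodd
  have hsum : a ^ p + 2 ^ α * b ^ p = -(c ^ p) := by linear_combination heq
  have hne : a ^ p * (2 ^ α * b ^ p) * (a ^ p + 2 ^ α * b ^ p) ≠ 0 := by
    rw [hsum]
    exact mul_ne_zero (mul_ne_zero (pow_ne_zero _ ha0) (mul_ne_zero (pow_ne_zero _ two_ne_zero)
      (pow_ne_zero _ hb))) (neg_ne_zero.mpr (pow_ne_zero _ hc))
  refine FA.Thirteen.false_of_eq_pow_of_onlyCusps H (W := curve (a ^ p) (2 ^ α * b ^ p)) hp h11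
    (curve_Δ_ne_zero h3 h16 hne) (curve_semistable h3 h16 hcop)
    (a := 8) (b := 2 * α) (t := (a * b * c) ^ 2) ?_
  · rw [show (2 : ℤ) ^ 8 = 256 by norm_num, curve_Δ h3 h16, hsum, pow_mul' (2 : ℤ) 2 α,
      mul_pow, mul_pow, mul_pow, mul_pow, mul_pow, neg_sq]
    ring

/-- **Ribet's equation** for an exponent divisible by a prime `p ≥ 11`. -/
theorem ribetEquation_of_onlyCusps {n p : ℕ} (hp : p.Prime) (h11 : 11 ≤ p) (hpn : p ∣ n) {α : ℕ}
    {a b c : ℤ} (hb : b ≠ 0) (hc : c ≠ 0) (ha : Odd a) (hab : IsCoprime a b)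
    (hα : (16 : ℤ) ∣ 2 ^ α * b ^ n) : a ^ n + 2 ^ α * b ^ n + c ^ n ≠ 0 := by
  obtain ⟨k, rfl⟩ := hpn
  rw [mul_comm p k, pow_mul, pow_mul, pow_mul]
  have : Fact (Nat.Prime 2) := ⟨Nat.prime_two⟩
  have hb' : b ^ k ≠ 0 := pow_ne_zero _ hb
  refine ribet_primeExponent_of_onlyCusps H hp h11 hb'
    (pow_ne_zero _ hc) ha.pow hab.pow ?_
  have hval : padicValInt 2 (2 ^ α * b ^ (p * k)) = α + p * padicValInt 2 (b ^ k) := by
    rw [mul_comm p k, pow_mul, padicValInt, Int.natAbs_mul, Int.natAbs_pow, Int.natAbs_pow,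
      padicValNat.mul (pow_ne_zero _ (by norm_num))
        (pow_ne_zero _ (Int.natAbs_ne_zero.mpr hb')), padicValNat.pow _ _, padicValNat.pow _ _,
      show (2 : ℤ).natAbs = 2 from rfl, padicValNat.self one_lt_two, mul_one, padicValInt]
  have h16 : ((2 : ℕ) : ℤ) ^ 4 ∣ 2 ^ α * b ^ (p * k) := by simpa using hα
  rcases (padicValInt_dvd_iff _ _).mp h16 with h | h
  · exact absurd h (mul_ne_zero (pow_ne_zero _ two_ne_zero) (pow_ne_zero _ hb))
  · omega

end FA.Summary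

end
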