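import Fermat.Agent.Thirteen.Points
import Fermat.Agent.Thirteen.SummaryThirteen

/-!
# The Summary statements for every prime `p ≥ 11`

The rational points of `X₁(13)` are cusps (`FA.Thirteen.onlyCusps`), so no elliptic curve over `ℚ`
has a rational point of order `13` and semistable curves have irreducible `13`-torsion.
-/

set_option autoImplicit false

noncomputable section

open WeierstrassCurve WeierstrassCurve.Affine Matrix
open scoped WeierstrassCurve.Affine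

namespace FA.Summary

/-- **No rational point of order `13`** on any elliptic curve over `ℚ`. -/
theorem mazur_thirteen (E : WeierstrassCurve ℚ) [E.IsElliptic] (P : E.toAffine.Point) :
    addOrderOf P ≠ 13 :=
  FA.Thirteen.no_point_thirteen_of_onlyCusps FA.Thirteen.onlyCusps E P

/-- **Mazur**: no rational point of prime order `p ≥ 11`. -/
theorem mazur_all (E : WeierstrassCurve ℚ) [E.IsElliptic] {p : ℕ} (hp : p.Prime)
    (h11 : 11 ≤ p) (P : E.toAffine.Point) : addOrderOf P ≠ p :=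
  mazur_of_onlyCusps FA.Thirteen.onlyCusps E hp h11 P

/-- The primes dividing the order of a rational torsion point are at most `7`. -/
theorem mazur_prime_dvd_all (E : WeierstrassCurve ℚ) [E.IsElliptic] (P : E.toAffine.Point)
    (hP : addOrderOf P ≠ 0) {p : ℕ} (hp : p.Prime) (hd : p ∣ addOrderOf P) : p ≤ 7 :=
  mazur_prime_dvd_of_onlyCusps FA.Thirteen.onlyCusps E P hP hp hd

/-- A semistable curve has no Galois-stable subgroup of prime order `p ≥ 11`. -/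
theorem noStableSubgroup_all (E : WeierstrassCurve ℚ) [E.IsElliptic]
    (h : ∀ p : ℕ, ∀ [Fact p.Prime], ∃ C : VariableChange ℚ_[p],
      HasGoodReduction ℤ_[p] (C • E.map (algebraMap ℚ ℚ_[p])) ∨
        HasMultiplicativeReduction ℤ_[p] (C • E.map (algebraMap ℚ ℚ_[p])))
    [inst : DecidableEq (AlgebraicClosure ℚ)] {p : ℕ} (hp : p.Prime) (h11 : 11 ≤ p)
    (G : AddSubgroup (E.toAffine⁄(AlgebraicClosure ℚ)).Point) (hcard : Nat.card G = p) :
    ¬ ∀ σ : AlgebraicClosure ℚ ≃ₐ[ℚ] AlgebraicClosure ℚ, ∀ P ∈ G,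
      Affine.Point.map σ.toAlgHom P ∈ G :=
  noStableSubgroup_of_onlyCusps FA.Thirteen.onlyCusps E h hp h11 G hcard

/-- The same for curves with a semistable quadratic twist. -/
theorem noStableSubgroup_twist_all (E : WeierstrassCurve ℚ) [E.IsElliptic] {d : ℚ} (hd : d ≠ 0)
    (h : ∀ p : ℕ, ∀ [Fact p.Prime], ∃ C : VariableChange ℚ_[p],
      HasGoodReduction ℤ_[p] (C • (⟨0, 0, 0, -27 * (d ^ 2 * E.c₄), -54 * (d ^ 3 * E.c₆)⟩ :
          WeierstrassCurve ℚ).map (algebraMap ℚ ℚ_[p])) ∨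
        HasMultiplicativeReduction ℤ_[p] (C • (⟨0, 0, 0, -27 * (d ^ 2 * E.c₄),
          -54 * (d ^ 3 * E.c₆)⟩ : WeierstrassCurve ℚ).map (algebraMap ℚ ℚ_[p])))
    [inst : DecidableEq (AlgebraicClosure ℚ)] {p : ℕ} (hp : p.Prime) (h11 : 11 ≤ p)
    (G : AddSubgroup (E.toAffine⁄(AlgebraicClosure ℚ)).Point) (hcard : Nat.card G = p) :
    ¬ ∀ σ : AlgebraicClosure ℚ ≃ₐ[ℚ] AlgebraicClosure ℚ, ∀ P ∈ G,
      Affine.Point.map σ.toAlgHom P ∈ G :=
  noStableSubgroup_twist_of_onlyCusps FA.Thirteen.onlyCusps E hd h hp h11 G hcard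

/-- Level lowering at every prime `p ≥ 11`. -/
theorem levelLowering_all (E : WeierstrassCurve ℚ) [E.IsElliptic]
    (h : ∀ p : ℕ, ∀ [Fact p.Prime], ∃ C : VariableChange ℚ_[p],
      HasGoodReduction ℤ_[p] (C • E.map (algebraMap ℚ ℚ_[p])) ∨
        HasMultiplicativeReduction ℤ_[p] (C • E.map (algebraMap ℚ ℚ_[p])))
    {p : ℕ} (hp : p.Prime) (h11 : 11 ≤ p) :
    ∃ (W : WeierstrassCurve ℤ) (C : VariableChange ℚ), C • E = W.map (Int.castRingHom ℚ) ∧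
      (∀ q : ℕ, q.Prime → (q : ℤ) ∣ W.Δ → ¬ (q : ℤ) ∣ W.c₄) ∧
      ∃ (N : ℕ) (f : CuspForm (CongruenceSubgroup.Gamma0 N) 2)
        (𝔪 : Ideal (integralClosure ℤ ℂ)),
        N ∣ (∏ q ∈ W.Δ.natAbs.primeFactors.filter (fun q => ¬ p ∣ padicValInt q W.Δ), q) ∧
        (UpperHalfPlane.qExpansion 1 f).coeff 1 = 1 ∧
        (∀ n : ℕ, IsIntegral ℤ ((UpperHalfPlane.qExpansion 1 f).coeff n)) ∧
        𝔪.IsMaximal ∧ (p : integralClosure ℤ ℂ) ∈ 𝔪 ∧
        ∀ l : ℕ, l.Prime → ¬ (l : ℤ) ∣ N * p * W.Δ →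
          ∃ a : integralClosure ℤ ℂ, (a : ℂ) = (UpperHalfPlane.qExpansion 1 f).coeff l ∧
            a - ((E.LFunction l : ℤ) : integralClosure ℤ ℂ) ∈ 𝔪 :=
  levelLowering_of_onlyCusps FA.Thirteen.onlyCusps E h hp h11

/-- Primes of the discriminant at every prime `p ≥ 11`. -/
theorem discriminantPrimes_all (W : WeierstrassCurve ℤ) (hΔ : W.Δ ≠ 0)
    (hW : ∀ q : ℕ, q.Prime → (q : ℤ) ∣ W.Δ → ¬ (q : ℤ) ∣ W.c₄)
    {p : ℕ} (hp : p.Prime) (h11 : 11 ≤ p) :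
    11 ≤ (∏ q ∈ W.Δ.natAbs.primeFactors.filter (fun q => ¬ p ∣ padicValInt q W.Δ), q) ∧
      (∏ q ∈ W.Δ.natAbs.primeFactors.filter (fun q => ¬ p ∣ padicValInt q W.Δ), q) ≠ 13 :=
  discriminantPrimes_of_onlyCusps FA.Thirteen.onlyCusps W hΔ hW hp h11

/-- The discriminant is no `p`th power, `p ≥ 11`. -/
theorem discriminant_ne_pow_all (W : WeierstrassCurve ℤ) (hΔ : W.Δ ≠ 0)
    (hW : ∀ q : ℕ, q.Prime → (q : ℤ) ∣ W.Δ → ¬ (q : ℤ) ∣ W.c₄)
    {p : ℕ} (hp : p.Prime) (h11 : 11 ≤ p) (t : ℤ) :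
    W.Δ.natAbs ≠ t.natAbs ^ p :=
  discriminant_ne_pow_of_onlyCusps FA.Thirteen.onlyCusps W hΔ hW hp h11 t

/-- **Serre surjectivity** at every prime `p ≥ 11`. -/
theorem galoisSurjectiveTorsion_all (E : WeierstrassCurve ℚ) [E.IsElliptic]
    (h : ∀ p : ℕ, ∀ [Fact p.Prime], ∃ C : VariableChange ℚ_[p],
      HasGoodReduction ℤ_[p] (C • E.map (algebraMap ℚ ℚ_[p])) ∨
        HasMultiplicativeReduction ℤ_[p] (C • E.map (algebraMap ℚ ℚ_[p])))
    [inst : DecidableEq (AlgebraicClosure ℚ)] {p : ℕ} (hp : p.Prime) (h11 : 11 ≤ p)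
    (φ : Submodule.torsionBy ℤ (E.toAffine⁄(AlgebraicClosure ℚ)).Point (p : ℤ) ≃+
      Submodule.torsionBy ℤ (E.toAffine⁄(AlgebraicClosure ℚ)).Point (p : ℤ)) :
    ∃ σ : AlgebraicClosure ℚ ≃ₐ[ℚ] AlgebraicClosure ℚ, ∀ P,
      Affine.Point.map σ.toAlgHom P.1 = (φ P).1 :=
  galoisSurjectiveTorsion_of_onlyCusps FA.Thirteen.onlyCusps E h hp h11 φ

/-- **Ribet’s equation** for exponents with a prime factor `p ≥ 11`. -/
theorem ribetEquation_all {n p : ℕ} (hp : p.Prime) (h11 : 11 ≤ p) (hpn : p ∣ n) {α : ℕ}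
    {a b c : ℤ} (hb : b ≠ 0) (hc : c ≠ 0) (ha : Odd a) (hab : IsCoprime a b)
    (hα : (16 : ℤ) ∣ 2 ^ α * b ^ n) : a ^ n + 2 ^ α * b ^ n + c ^ n ≠ 0 :=
  ribetEquation_of_onlyCusps FA.Thirteen.onlyCusps hp h11 hpn hb hc ha hab hα

end FA.Summary

namespace FA.Thirteen

/-- **Irreducibility at every prime `p ≥ 11`** for semistable equations. -/
theorem modRepIsIrreducible_all {W : WeierstrassCurve ℤ} (hΔ : W.Δ ≠ 0)
    (hW : W.IsSemistableModel) {p : ℕ} (hp : p.Prime) (h11 : 11 ≤ p) :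
    W.ModRepIsIrreducible p :=
  modRepIsIrreducible_of_onlyCusps onlyCusps hΔ hW hp h11

end FA.Thirteen

end
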