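import Fermat.Agent.Thirteen.Omega
import Fermat.Agent.Ribet.MazurTwo

/-!
# Irreducibility of the mod thirteen representation of a semistable curve

Granted that the rational points of `y² = f13 x` are cusps, a semistable curve has irreducible
`13`-torsion: a stable line would carry the trivial or the cyclotomic character.
-/

set_option autoImplicit false

noncomputable section

open WeierstrassCurve WeierstrassCurve.Affine
open FA.Frob (ratCurve)
open scoped WeierstrassCurve.Affine

namespace FA.Thirteen

local notation "Qb" => AlgebraicClosure ℚ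
local notation "GQ" => AlgebraicClosure ℚ ≃ₐ[ℚ] AlgebraicClosure ℚ

/-- A point fixed by Galois is rational. -/
theorem exists_rat_point {E : WeierstrassCurve ℚ} (P : (E⁄Qb).toAffine.Point)
    (h : ∀ σ : GQ, σ • P = P) :
    ∃ Q : (E⁄ℚ).toAffine.Point, Affine.Point.map (W' := E.toAffine) (Algebra.ofId ℚ Qb) Q = P := by
  rcases P with _ | ⟨x, y, hxy⟩
  · exact ⟨0, map_zero _⟩
  have hfix : ∀ σ : GQ, σ x = x ∧ σ y = y := fun σ => by
    obtain ⟨h', e⟩ := FA.Local.smul_some (σ := σ) E hxy
    have := h σ
    rw [e, Affine.Point.some.injEq] at this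
    exact this
  obtain ⟨q, rfl⟩ := FA.EC.mem_range_of_fixed fun σ => (hfix σ).1
  obtain ⟨r, rfl⟩ := FA.EC.mem_range_of_fixed fun σ => (hfix σ).2
  exact ⟨.some q r ((Affine.baseChange_nonsingular (W := E.toAffine)
    (f := Algebra.ofId ℚ Qb) (algebraMap ℚ Qb).injective q r).1 hxy), rfl⟩

/-- **Irreducibility at thirteen** for semistable equations, from the rational points of
`X₁(13)`. -/
theorem modRepIsIrreducible_thirteen_of_onlyCusps (H : OnlyCusps) {W : WeierstrassCurve ℤ}
    (hΔ : W.Δ ≠ 0) (hW : W.IsSemistableModel) : W.ModRepIsIrreducible 13 := by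
  have h13 : Nat.Prime 13 := by norm_num
  have := Fact.mk h13
  by_contra hirr
  have := FA.Frob.ratCurve_isElliptic_of_Δ hΔ
  obtain ⟨v, hv, hs⟩ := FA.Ribet.exists_eigenvector W hirr
  choose a ha using hs
  let b := (FA.RT.torsBasis (p := 13) W).equivFun
  obtain ⟨y, rfl⟩ := b.surjective v
  have hy : ∀ σ : GQ, σ • y = a σ • y := fun σ => b.injective (by
    rw [← FA.RT.toMatrix_mulVec, map_smul, ha σ])
  set P : ((ratCurve W)⁄Qb).toAffine.Point := y.1
  have hP0 : P ≠ 0 := fun e => b.map_ne_zero_iff.mp hv (Subtype.ext e)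
  have hP : 13 • P = 0 := FA.Frob.nsmul_torsion y
  have hord : addOrderOf P = 13 := addOrderOf_eq_prime hP hP0
  rcases FA.Ribet.eigenvalue_cases hΔ hW (by norm_num) hv a ha with h1 | hdet
  · obtain ⟨Q, hQ⟩ := exists_rat_point P fun σ => by
      have h := congrArg Subtype.val (hy σ)
      rwa [h1 σ, one_smul] at h
    exact no_point_thirteen_of_onlyCusps H (ratCurve W) Q
      ((addOrderOf_injective (Affine.Point.map (W' := (ratCurve W).toAffine) (Algebra.ofId ℚ Qb))
        (Affine.Point.map_injective _) Q).symm.trans (by rw [hQ, hord]))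
  · refine false_of_omega_point H (ratCurve W) P hord fun σ n hn => ?_
    have h := congrArg Subtype.val (hy σ)
    rw [hdet σ, FA.RT.det_curveRep W σ n hn, Nat.cast_smul_eq_nsmul] at h
    exact h.trans (AddSubmonoidClass.coe_nsmul _ _)

end FA.Thirteen

end
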