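import Fermat.Agent.Thirteen.Defs

/-!
# The discriminant of the sextic field is at most `10816`

The elements `θ^j, i θ^j` (`j < 3`) are integral and the determinant of their trace matrix is
`-10816`.
-/

set_option autoImplicit false
set_option linter.unusedSimpArgs false

noncomputable section

namespace FA.Thirteen

open NumberField Module Polynomial

/-- The coefficients of the powers of `θL`. -/
def powCoeff : ℕ → Fin 6 → ℚ
  | 0 => ![1, 0, 0, 0, 0, 0]
  | 1 => ![0, 1, 0, 0, 0, 0]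
  | 2 => ![0, 0, 1, 0, 0, 0]
  | 3 => ![0, 0, 0, 1, 0, 0]
  | 4 => ![0, 0, 0, 0, 1, 0]
  | 5 => ![0, 0, 0, 0, 0, 1]
  | 6 => ![-1, -2, -1, -2, -6, -4]
  | 7 => ![4, 7, 2, 7, 22, 10]
  | 8 => ![-10, -16, -3, -18, -53, -18]
  | 9 => ![18, 26, 2, 33, 90, 19]
  | _ => ![-19, -20, 7, -36, -81, 14]

theorem pow_θL_eq (n : ℕ) (hn : n ≤ 10) : θL ^ n = ∑ j : Fin 6, powCoeff n j • θL ^ (j : ℕ) := by
  have h := f13_θL
  simp only [f13] at h
  simp only [Fin.sum_univ_succ, Algebra.smul_def]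
  interval_cases n <;> simp [powCoeff, Matrix.vecHead, Matrix.vecTail]
  · linear_combination h
  · linear_combination (θL - 4) * h
  · linear_combination (θL ^ 2 - 4 * θL + 10) * h
  · linear_combination (θL ^ 3 - 4 * θL ^ 2 + 10 * θL - 18) * h
  · linear_combination (θL ^ 4 - 4 * θL ^ 3 + 10 * θL ^ 2 - 18 * θL + 19) * h

/-- The power basis of the sextic field, indexed by `Fin 6`. -/
def powBasisL : Basis (Fin 6) ℚ L :=
  (AdjoinRoot.powerBasis fPoly_monic.ne_zero).basis.reindex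
    (finCongr (by rw [AdjoinRoot.powerBasis_dim, natDegree_fPoly]))

theorem powBasisL_apply (j : Fin 6) : powBasisL j = θL ^ (j : ℕ) := by
  simp [powBasisL, θL]

theorem repr_pow_θL (n : ℕ) (hn : n ≤ 10) (j : Fin 6) :
    powBasisL.repr (θL ^ n) j = powCoeff n j := by
  rw [pow_θL_eq n hn]
  simp_rw [← powBasisL_apply]
  rw [Basis.repr_sum_self]

theorem trace_pow_θL (k : ℕ) (hk : k ≤ 5) :
    Algebra.trace ℚ L (θL ^ k) = ∑ i : Fin 6, powCoeff (k + i) i := by
  rw [Algebra.trace_eq_matrix_trace powBasisL, Matrix.trace]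
  refine Finset.sum_congr rfl fun i _ => ?_
  rw [Matrix.diag_apply, Algebra.leftMulMatrix_eq_repr_mul, powBasisL_apply, ← pow_add,
    repr_pow_θL _ (by omega)]

/-- The integral family. -/
def intFam : Fin 6 → L := ![1, θL, θL ^ 2, iL, iL * θL, iL * θL ^ 2]

/-- The trace matrix of the integral family. -/
def intFamTrace : Matrix (Fin 6) (Fin 6) ℤ :=
  !![6, -4, 4, 0, 4, -8;
     -4, 4, 2, 4, -8, 20;
     4, 2, -28, -8, 20, -32;
     0, 4, -8, -6, 4, -4;
     4, -8, 20, 4, -4, -2;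
     -8, 20, -32, -4, -2, 28]

theorem trace_pow_values :
    Algebra.trace ℚ L 1 = 6 ∧ Algebra.trace ℚ L θL = -4 ∧ Algebra.trace ℚ L (θL ^ 2) = 4 ∧
    Algebra.trace ℚ L (θL ^ 3) = 2 ∧ Algebra.trace ℚ L (θL ^ 4) = -28 ∧
    Algebra.trace ℚ L (θL ^ 5) = 86 := by
  refine ⟨?_, ?_, ?_, ?_, ?_, ?_⟩
  · rw [← pow_zero θL, trace_pow_θL 0 (by omega)]
    simp [powCoeff, Fin.sum_univ_succ, Matrix.vecHead, Matrix.vecTail]; norm_num
  · rw [← pow_one θL, trace_pow_θL 1 (by omega)]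
    simp [powCoeff, Fin.sum_univ_succ, Matrix.vecHead, Matrix.vecTail]
  all_goals
    rw [trace_pow_θL _ (by omega)]
    simp [powCoeff, Fin.sum_univ_succ, Matrix.vecHead, Matrix.vecTail]; norm_num

theorem trace_iL_mul_values :
    Algebra.trace ℚ L iL = 0 ∧ Algebra.trace ℚ L (iL * θL) = 4 ∧
    Algebra.trace ℚ L (iL * θL ^ 2) = -8 ∧ Algebra.trace ℚ L (iL * θL ^ 3) = 20 ∧
    Algebra.trace ℚ L (iL * θL ^ 4) = -32 := by
  have h := f13_θL
  simp only [f13] at h
  obtain ⟨t0, t1, t2, t3, t4, t5⟩ := trace_pow_values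
  have key : ∀ (x : L) (a : Fin 6 → ℚ), x = ∑ j : Fin 6, a j • θL ^ (j : ℕ) →
      Algebra.trace ℚ L x = 6 * a 0 - 4 * a 1 + 4 * a 2 + 2 * a 3 - 28 * a 4 + 86 * a 5 := by
    intro x a hx
    rw [hx, map_sum]
    simp only [map_smul, Fin.sum_univ_succ]
    simp [t0, t1, t2, t3, t4, t5]
    ring
  refine ⟨(key iL ![-3/2, -2, -1/2, -9/2, -7/2, -1] ?_).trans ?_,
    (key _ ![1, 1/2, -1, 3/2, 3/2, 1/2] ?_).trans ?_,
    (key _ ![-1/2, 0, 0, -2, -3/2, -1/2] ?_).trans ?_,
    (key _ ![1/2, 1/2, 1/2, 1, 1, 1/2] ?_).trans ?_,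
    (key _ ![-1/2, -1/2, 0, -1/2, -2, -1] ?_).trans ?_⟩
  all_goals try simp only [Fin.sum_univ_succ, Algebra.smul_def]
  all_goals try (simp [iL, Matrix.vecHead, Matrix.vecTail]; grind)

theorem traceMatrix_intFam :
    Algebra.traceMatrix ℚ intFam = intFamTrace.map (Int.castRingHom ℚ) := by
  obtain ⟨t0, t1, t2, t3, t4, t5⟩ := trace_pow_values
  obtain ⟨u0, u1, u2, u3, u4⟩ := trace_iL_mul_values
  ext i j
  rw [Algebra.traceMatrix_apply, Algebra.traceForm_apply, Matrix.map_apply]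
  fin_cases i <;> fin_cases j <;>
    simp only [intFam, intFamTrace] <;>
    simp [Matrix.vecHead, Matrix.vecTail] <;>
    ring_nf <;>
    simp [iL_sq, t0, t1, t2, t3, t4, u0, u1, u2, u3, u4, mul_comm _ iL]

theorem det_intFamTrace : intFamTrace.det = -10816 := by
  decide +kernel

theorem discr_intFam : Algebra.discr ℚ intFam = -10816 := by
  rw [Algebra.discr_def, traceMatrix_intFam, ← RingHom.mapMatrix_apply, ← RingHom.map_det,
    det_intFamTrace]
  simp

theorem isIntegral_θL : IsIntegral ℤ θL := by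
  refine ⟨f13 (X : ℤ[X]), ?_, ?_⟩
  · unfold f13; monicity!
  · rw [← aeval_def]
    exact (map_f13 (aeval θL : ℤ[X] →ₐ[ℤ] L).toRingHom X).trans (by simpa using f13_θL)

theorem isIntegral_iL : IsIntegral ℤ iL :=
  IsIntegral.of_pow two_pos (by rw [iL_sq]; exact isIntegral_one.neg)

theorem isIntegral_intFam (i : Fin 6) : IsIntegral ℤ (intFam i) := by
  have ht := isIntegral_θL
  have hi := isIntegral_iL
  fin_cases i
  · exact isIntegral_one
  · exact ht
  · exact ht.pow 2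
  · exact hi
  · exact hi.mul ht
  · exact hi.mul (ht.pow 2)

/-- The discriminant of an integral family is a square multiple of that of the field. -/
theorem abs_discr_le_of_isIntegral {K : Type*} [Field K] [NumberField K] {ι : Type*} [Fintype ι]
    [DecidableEq ι] (hcard : Fintype.card ι = finrank ℚ K) (b : ι → K)
    (hb : ∀ i, IsIntegral ℤ (b i)) (hd : Algebra.discr ℚ b ≠ 0) :
    (|discr K| : ℚ) ≤ |Algebra.discr ℚ b| := by
  classical
  let e : ι ≃ Free.ChooseBasisIndex ℤ (𝓞 K) := Fintype.equivOfCardEq (by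
    rw [hcard, ← Module.finrank_eq_card_basis (integralBasis K)])
  let bas := (integralBasis K).reindex e.symm
  let P₀ : Matrix ι ι ℤ := fun i j =>
    (RingOfIntegers.basis K).repr (⟨b j, hb j⟩ : 𝓞 K) (e i)
  have hP : bas.toMatrix b = P₀.map (algebraMap ℤ ℚ) := by
    ext i j
    rw [Basis.toMatrix_apply, Basis.repr_reindex_apply, Matrix.map_apply, e.symm_symm]
    exact integralBasis_repr_apply K (⟨b j, hb j⟩ : 𝓞 K) (e i)
  have h := Algebra.discr_of_matrix_vecMul (A := ℚ) (bas : ι → K) (bas.toMatrix b)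
  have hcast : (algebraMap ℤ ℚ).mapMatrix P₀ = P₀.map (algebraMap ℤ ℚ) := rfl
  rw [Basis.toMatrix_map_vecMul, Basis.coe_reindex, e.symm_symm,
    show (integralBasis K : _ → K) ∘ e = (integralBasis K) ∘ ⇑e.symm.symm from rfl,
    Algebra.discr_reindex, ← coe_discr, hP, ← hcast, ← RingHom.map_det] at h
  rw [h] at hd ⊢
  have h0 : P₀.det ≠ 0 := fun h0 => hd (by rw [h0, map_zero]; simp)
  rw [abs_mul, abs_pow]
  refine le_mul_of_one_le_left (abs_nonneg _) (one_le_pow₀ ?_)
  rw [eq_intCast, ← Int.cast_abs]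
  exact_mod_cast Int.one_le_abs h0

theorem abs_discr_L_le : |discr L| ≤ 10816 := by
  have h := abs_discr_le_of_isIntegral (K := L) (by rw [finrank_L, Fintype.card_fin]) intFam
    isIntegral_intFam (by rw [discr_intFam]; norm_num)
  rw [discr_intFam, abs_neg] at h
  norm_num at h
  exact_mod_cast h

end FA.Thirteen

end
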