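import Fermat.Agent.Thirteen.Summary
import Fermat.Agent.Ribet.SerreLarge

/-!
# Serre's equation for every prime exponent `p ≥ 11`

With irreducibility at `13` the equation `a ^ p + b ^ p + q ^ α c ^ p = 0`, `q ≤ 19` an odd prime
other than `p`, has no solution for every prime `p ≥ 11`.
-/

set_option autoImplicit false

noncomputable section

open WeierstrassCurve FA.Ribet

namespace FA.Thirteen

variable {p : ℕ}

/-- An `A + B + C = 0` in coprime integers, `A` odd, `32 ∣ B`, whose product is a `p`-th power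
away from the odd prime `q`, gives a curve residually modular of a level dividing `2 q`. -/
theorem exists_level_of_add_eq_zero_all (hp : p.Prime) (h11 : 11 ≤ p) {q : ℕ}
    (hqp : q.Prime)
    (hq : q ≠ p) {A B C : ℤ} {k : ℕ} {t : ℤ} (hsum : A + B + C = 0) (hcop : IsCoprime A B)
    (hA : Odd A) (hB : (32 : ℤ) ∣ B) (ht : t ≠ 0)
    (hprod : A * B * C = (q : ℤ) ^ k * t ^ p) :
    ∃ A' B' : ℤ, A' % 4 = 3 ∧ (32 : ℤ) ∣ B' ∧ IsCoprime A' B' ∧ A' * B' * (A' + B') ≠ 0 ∧
      ∃ N : ℕ, N ∣ 2 * q ∧ (curve A' B').IsResiduallyModularOfLevel p N := by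
  have hpodd : Odd p := hp.odd_of_ne_two (by omega)
  wlog h3 : A % 4 = 3 generalizing A B C t
  · refine this (A := -A) (B := -B) (C := -C) (t := -t) (by linarith) hcop.neg_neg hA.neg
      hB.neg_right (neg_ne_zero.mpr ht) ?_ ?_
    · rw [hpodd.neg_pow]; linear_combination -hprod
    · rw [Int.odd_iff] at hA; omega
  refine ⟨A, B, h3, hB, hcop, ?_⟩
  have := Fact.mk hp
  have hC : A * B * (A + B) = -((q : ℤ) ^ k * t ^ p) := by
    rw [← hprod, show C = -(A + B) by linarith]; ring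
  have hne : A * B * (A + B) ≠ 0 := by
    rw [hC]
    exact neg_ne_zero.mpr (mul_ne_zero (pow_ne_zero _ (by exact_mod_cast hqp.ne_zero))
      (pow_ne_zero _ ht))
  have hB : (16 : ℤ) ∣ B := (show (16 : ℤ) ∣ 32 by norm_num).trans hB
  have hΔ := curve_Δ_ne_zero h3 hB hne
  have hW := curve_semistable h3 hB hcop
  refine ⟨hne, ?_⟩
  have hpm : ¬ p ∣ 2 * q := fun h => by
    rcases hp.dvd_mul.mp h with h | h
    · have := Nat.le_of_dvd (by norm_num) h; omega
    · exact hq ((Nat.prime_dvd_prime_iff_eq hp hqp).mp h).symm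
  refine exists_dvd_isResiduallyModular hpm (by omega) hΔ hW
    (FA.Thirteen.modRepIsIrreducible_all hΔ hW hp h11) (fun r hr hrm _ => ?_)
    (FA.Root.squarefree_badProd _)
    (FA.Root.isResiduallyModularOfLevel_of_modular hp (FA.SS.semistableModular _ hΔ hW))
  have : Fact r.Prime := ⟨hr⟩
  have e := congrArg (fun z : ℤ => padicValNat r z.natAbs) (curve_Δ h3 hB)
  simp only [hC, Int.natAbs_mul, Int.natAbs_pow, Int.natAbs_neg, Int.natAbs_natCast,
    show Int.natAbs 256 = 2 ^ 8 from rfl] at e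
  have h2 : padicValNat r 2 = 0 :=
    padicValNat.eq_zero_of_not_dvd fun hd => hrm (dvd_mul_of_dvd_left hd q)
  have h1 : padicValNat r q = 0 :=
    padicValNat.eq_zero_of_not_dvd fun hd => hrm (dvd_mul_of_dvd_right hd 2)
  rw [padicValNat.mul (by positivity) (Int.natAbs_ne_zero.mpr hΔ), padicValNat.pow _ _,
    padicValNat.pow _ _, padicValNat.mul (pow_ne_zero _ hqp.ne_zero)
      (pow_ne_zero _ (Int.natAbs_ne_zero.mpr ht)),
    padicValNat.pow _ _, padicValNat.pow _ _, h2, h1] at e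
  exact ⟨2 * padicValNat r t.natAbs, by rw [padicValInt, mul_left_comm]; simpa using e⟩

/-- A solution of `a ^ p + b ^ p + q ^ α c ^ p = 0` gives a curve residually modular of a level
dividing `2 q`. -/
theorem exists_level_all (hp : p.Prime) (h11 : 11 ≤ p) {q : ℕ}
    (hqp : q.Prime) (hq2 : q ≠ 2)
    (hq : q ≠ p) {α : ℕ} {a b c : ℤ} (ha : a ≠ 0) (hb : b ≠ 0) (hc : c ≠ 0) (hab : IsCoprime a b)
    (heq : a ^ p + b ^ p + (q : ℤ) ^ α * c ^ p = 0) :
    ∃ A B : ℤ, A % 4 = 3 ∧ (32 : ℤ) ∣ B ∧ IsCoprime A B ∧ A * B * (A + B) ≠ 0 ∧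
      ∃ N : ℕ, N ∣ 2 * q ∧ (curve A B).IsResiduallyModularOfLevel p N := by
  have hsix : ∀ x : ℤ, Even x → (32 : ℤ) ∣ x ^ p := fun x hx =>
    (show (32 : ℤ) ∣ 2 ^ p from pow_dvd_pow 2 (show 5 ≤ p by omega)).trans
      (pow_dvd_pow_of_dvd hx.two_dvd p)
  have hcop : IsCoprime (a ^ p) (b ^ p) := hab.pow
  have ht : a * b * c ≠ 0 := mul_ne_zero (mul_ne_zero ha hb) hc
  rcases Int.even_or_odd b with hbe | hbo
  · have hao : Odd a := by
      refine Int.not_even_iff_odd.mp fun hae => ?_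
      have := Int.isUnit_iff.mp (hab.isUnit_of_dvd' hae.two_dvd hbe.two_dvd)
      omega
    exact exists_level_of_add_eq_zero_all hp h11 hqp hq heq hcop hao.pow (hsix b hbe) ht (k := α)
      (by rw [mul_pow, mul_pow]; ring)
  rcases Int.even_or_odd a with hae | hao
  · exact exists_level_of_add_eq_zero_all hp h11 hqp hq (B := a ^ p) (by linear_combination heq)
      hcop.symm hbo.pow (hsix a hae) ht (k := α) (C := (q : ℤ) ^ α * c ^ p)
      (by rw [mul_pow, mul_pow]; ring)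
  · have hce : Even c := by
      have h := congrArg (Int.cast : ℤ → ZMod 2) heq
      have h1 : ∀ x : ℤ, Odd x → (x : ZMod 2) = 1 := fun x hx => by
        obtain ⟨j, rfl⟩ := hx
        push_cast
        rw [show (2 : ZMod 2) = 0 from rfl, zero_mul, zero_add]
      push_cast at h
      rw [h1 a hao, h1 b hbo, one_pow, show (1 : ZMod 2) + 1 = 0 from rfl, zero_add,
        (ZMod.natCast_eq_one_iff_odd).mpr (hqp.odd_of_ne_two hq2), one_pow, one_mul] at h
      rw [even_iff_two_dvd]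
      exact (ZMod.intCast_zmod_eq_zero_iff_dvd c 2).mp (eq_zero_of_pow_eq_zero h)
    refine exists_level_of_add_eq_zero_all hp h11 hqp hq (A := a ^ p) (B := (q : ℤ) ^ α * c ^ p)
      (C := b ^ p)
      (by linear_combination heq) ?_ hao.pow
      ((hsix c hce).mul_left _) ht (k := α) (by rw [mul_pow, mul_pow]; ring)
    rw [show (q : ℤ) ^ α * c ^ p = -(b ^ p) + a ^ p * (-1) by linear_combination heq]
    exact hcop.neg_right.add_mul_left_right (-1)

/-- **`a ^ p + b ^ p + q ^ α c ^ p ≠ 0`** for `q = 3, 5`, a prime `p ≥ 11`,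
`a` and `b` coprime. -/
theorem serre_three_five_all (hp : p.Prime) (h11 : 11 ≤ p) {q : ℕ}
    (hq : q = 3 ∨ q = 5) {α : ℕ} {a b c : ℤ} (ha : a ≠ 0) (hb : b ≠ 0) (hc : c ≠ 0)
    (hab : IsCoprime a b) : a ^ p + b ^ p + (q : ℤ) ^ α * c ^ p ≠ 0 := by
  intro heq
  obtain ⟨A, B, -, -, -, -, N, hN, f, -, hf, -⟩ :=
    exists_level_all hp h11 (by rcases hq with rfl | rfl <;> norm_num) (by omega) (by omega) ha hb
      hc hab heq
  have : NeZero N := ⟨by rintro rfl; have := Nat.eq_zero_of_zero_dvd hN; omega⟩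
  exact hf.ne_zero
    (cuspForm_eq_zero_of_genusFormula (genusFormula_eq_zero (m := 2 * q) (by omega) hN) f)

/-- **`a ^ p + b ^ p + q ^ α c ^ p ≠ 0`** for `q = 7, 11, 13`, a prime `p ≥ 11` other
than `q`, `a` and `b` coprime. -/
theorem serre_seven_eleven_thirteen_all {p : ℕ} (hp : p.Prime)
    (h11 : 11 ≤ p) {q : ℕ} (hq : q = 7 ∨ q = 11 ∨ q = 13) (hpq : q ≠ p) {α : ℕ}
    {a b c : ℤ} (ha : a ≠ 0) (hb : b ≠ 0)
    (hc : c ≠ 0) (hab : IsCoprime a b) : a ^ p + b ^ p + (q : ℤ) ^ α * c ^ p ≠ 0 := by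
  intro heq
  have := Fact.mk hp
  obtain ⟨A, B, hA, h32, hcop, hne, N, hN, f, 𝔪, hf, hm, hpm, hcong⟩ :=
    exists_level_all hp h11 (by rcases hq with rfl | rfl | rfl <;> norm_num) (by omega) hpq
      ha hb hc hab heq
  have hB : (16 : ℤ) ∣ B := (show (16 : ℤ) ∣ 32 by norm_num).trans h32
  obtain ⟨E, hEgood, hEΔ, hE3, hEf⟩ := exists_curve_of_eigenform hq hN hf
  exact false_of_congruent_three hp h11 (by omega) hA hB hcop hne hEΔ hEgood
    (by rcases hq with rfl | rfl | rfl <;> norm_num) hE3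
    fun l hl hlq hgood hlp => dvd_apOfModel_sub hp hN hm hpm hcong hEf hl hlq hgood hlp

/-- **`a ^ p + b ^ p + q ^ α c ^ p ≠ 0`** for `q = 17, 19`, a prime `p ≥ 11` other than `q`,
`a` and `b` coprime. -/
theorem serre_seventeen_nineteen_all {p : ℕ} (hp : p.Prime) (h11 : 11 ≤ p)
    {q : ℕ} (hq : q = 17 ∨ q = 19) (hpq : q ≠ p) {α : ℕ} {a b c : ℤ} (ha : a ≠ 0)
    (hb : b ≠ 0)
    (hc : c ≠ 0) (hab : IsCoprime a b) : a ^ p + b ^ p + (q : ℤ) ^ α * c ^ p ≠ 0 := by
  intro heq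
  have := Fact.mk hp
  obtain ⟨A, B, hA, h32, hcop, hne, N, hN, f, 𝔪, hf, hm, hpm, hcong⟩ :=
    exists_level_all hp h11 (by rcases hq with rfl | rfl <;> norm_num) (by omega) hpq ha hb hc hab
      heq
  have hB : (16 : ℤ) ∣ B := (show (16 : ℤ) ∣ 32 by norm_num).trans h32
  obtain ⟨E, hEgood, hEΔ, hE, hEf⟩ := exists_curve_of_eigenform_large hq hN hf
  have hdvd := fun l hl hlq hgood hlp =>
    dvd_apOfModel_sub (W := curve A B) (E := E) hp hN hm hpm hcong hEf (l := l) hl hlq hgood hlp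
  rcases hE with h3 | ⟨hg2, he2⟩
  · exact false_of_congruent_three hp h11 (by omega) hA hB hcop hne hEΔ hEgood
      (by rcases hq with rfl | rfl <;> norm_num) h3 hdvd
  · have h := dvd_apOfModel_sub_or_add (by omega) (curve_Δ_ne_zero hA hB hne)
      (curve_semistable hA hB hcop) hEΔ (2 * q).primeFactors
      (fun l hl hlS hWg _ hlp => dvd_sub_comm.mp (hdvd l hl (fun hd => hlS
        (Nat.mem_primeFactors.mpr ⟨hl, hd, by omega⟩)) hWg hlp))
      Nat.prime_two (by omega) (by exact_mod_cast two_dvd_curve_Δ hA h32) hg2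
    rw [he2] at h
    rcases h with h | h <;>
      have := Nat.le_of_dvd (by norm_num) (Int.natCast_dvd.mp h) <;> simp at this <;> omega

/-- **Serre's equation for an odd prime `q ≤ 19`** and every prime `p ≥ 11` other than `q`. -/
theorem serre_equation_all {p : ℕ} (hp : p.Prime) (h11 : 11 ≤ p) {q : ℕ} (hq : q.Prime)
    (hq2 : q ≠ 2) (hq19 : q ≤ 19) (hpq : q ≠ p) {α : ℕ} {a b c : ℤ} (ha : a ≠ 0) (hb : b ≠ 0)
    (hc : c ≠ 0) (hab : IsCoprime a b) : a ^ p + b ^ p + (q : ℤ) ^ α * c ^ p ≠ 0 := by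
  have hmem : (q = 3 ∨ q = 5) ∨ (q = 7 ∨ q = 11 ∨ q = 13) ∨ (q = 17 ∨ q = 19) := by
    have := hq.two_le
    interval_cases q <;> first | omega | norm_num at hq
  rcases hmem with h | h | h
  · exact serre_three_five_all hp h11 h ha hb hc hab
  · exact serre_seven_eleven_thirteen_all hp h11 h hpq ha hb hc hab
  · exact serre_seventeen_nineteen_all hp h11 h hpq ha hb hc hab

end FA.Thirteen

namespace FA.Summary

/-- **Serre's equation** for an exponent divisible by a prime `p ≥ 11` other than `q`, for an odd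
prime `q ≤ 19`. -/
theorem serreEquation_all {n p : ℕ} (hp : p.Prime) (h11 : 11 ≤ p) (hpn : p ∣ n) {q : ℕ}
    (hq : q.Prime) (hq2 : q ≠ 2) (hq19 : q ≤ 19) (hqp : q ≠ p) {α : ℕ} {a b c : ℤ} (ha : a ≠ 0)
    (hb : b ≠ 0) (hc : c ≠ 0) (hab : IsCoprime a b) :
    a ^ n + b ^ n + (q : ℤ) ^ α * c ^ n ≠ 0 := by
  obtain ⟨k, rfl⟩ := hpn
  rw [mul_comm p k, pow_mul, pow_mul, pow_mul]
  exact FA.Thirteen.serre_equation_all hp h11 hq hq2 hq19 hqp
    (pow_ne_zero _ ha) (pow_ne_zero _ hb) (pow_ne_zero _ hc) hab.pow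

end FA.Summary

end
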