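import Fermat.Agent.Thirteen.Cub

/-!
# The sextic field at `2`

The map from `L` to `ℚ₂[i][θ]/(g)`, integrality of square roots of integral elements, and the
finite checks modulo `2` and `4` used in the descent.
-/

set_option autoImplicit false
set_option linter.style.maxHeartbeats false

noncomputable section

namespace FA.Thirteen

/-- `ℤ₂ → ℤ/2`. -/
def red2 : ℤ_[2] →+* ZMod 2 := PadicInt.toZMod

/-- `ℤ₂ → ℤ/4`. -/
def red4 : ℤ_[2] →+* ZMod 4 := PadicInt.toZModPow 2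

/-- The inclusion `ℤ₂ → ℚ₂` as a ring hom. -/
abbrev incl : ℤ_[2] →+* ℚ_[2] := PadicInt.Coe.ringHom

theorem red2_eq_zero {x : ℤ_[2]} : red2 x = 0 ↔ 2 ∣ x := by
  rw [red2, ← RingHom.mem_ker, PadicInt.ker_toZMod, PadicInt.maximalIdeal_eq_span_p,
    Ideal.mem_span_singleton]
  norm_num

theorem red4_eq_zero {x : ℤ_[2]} : red4 x = 0 ↔ 4 ∣ x := by
  rw [red4, ← RingHom.mem_ker, PadicInt.ker_toZModPow, Ideal.mem_span_singleton]
  norm_num

/-- A `2`-adic integer is `0` or `1` plus an even one. -/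
theorem exists_bit (x : ℤ_[2]) : ∃ (b : Fin 2) (w : ℤ_[2]), x = (b.val : ℤ_[2]) + 2 * w := by
  obtain ⟨b, hb⟩ : ∃ b : Fin 2, red2 x = (b.val : ZMod 2) :=
    ⟨⟨(red2 x).val, ZMod.val_lt _⟩, (ZMod.natCast_zmod_val _).symm⟩
  obtain ⟨w, hw⟩ := red2_eq_zero.1 (show red2 (x - (b.val : ℤ_[2])) = 0 by
    rw [map_sub, map_natCast, hb, sub_self])
  exact ⟨b, w, by linear_combination hw⟩

namespace Cub

/-- The element with the given coordinates `0` or `1`. -/
def ofBits {R : Type} [CommRing R] (b : Fin 2 × Fin 2 × Fin 2 × Fin 2 × Fin 2 × Fin 2) : Cub R :=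
  ⟨(b.1.val : R), (b.2.1.val : R), (b.2.2.1.val : R), (b.2.2.2.1.val : R), (b.2.2.2.2.1.val : R),
    (b.2.2.2.2.2.val : R)⟩

theorem map_ofBits {R S : Type} [CommRing R] [CommRing S] (φ : R →+* S)
    (b : Fin 2 × Fin 2 × Fin 2 × Fin 2 × Fin 2 × Fin 2) : map φ (ofBits b) = ofBits b := by
  ext <;> simp [map_apply, ofBits]

theorem exists_ofBits (z : Cub ℤ_[2]) : ∃ b w, z = ofBits b + 2 * w := by
  obtain ⟨b0, w0, h0⟩ := exists_bit z.c00
  obtain ⟨b1, w1, h1⟩ := exists_bit z.c01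
  obtain ⟨b2, w2, h2⟩ := exists_bit z.c10
  obtain ⟨b3, w3, h3⟩ := exists_bit z.c11
  obtain ⟨b4, w4, h4⟩ := exists_bit z.c20
  obtain ⟨b5, w5, h5⟩ := exists_bit z.c21
  refine ⟨(b0, b1, b2, b3, b4, b5), ⟨w0, w1, w2, w3, w4, w5⟩, ?_⟩
  ext <;> simp [ofBits, two_mul, add_def, h0, h1, h2, h3, h4, h5]

theorem map_red4_sq (z : Cub ℤ_[2]) :
    ∃ b, map red2 z = ofBits b ∧ map red4 z ^ 2 = (ofBits b : Cub (ZMod 4)) ^ 2 := by
  obtain ⟨b, w, rfl⟩ := exists_ofBits z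
  refine ⟨b, ?_, ?_⟩
  · rw [map_add, map_mul, map_ofBits, map_ofNat, (by decide : (2 : Cub (ZMod 2)) = 0), zero_mul,
      add_zero]
  · rw [map_add, map_mul, map_ofBits, map_ofNat]
    have h : (4 : Cub (ZMod 4)) = 0 := by decide
    linear_combination ((ofBits b : Cub (ZMod 4)) * map red4 w + map red4 w ^ 2) * h

set_option maxRecDepth 100000 in
set_option maxHeartbeats 4000000 in
theorem sq_ofBits_eq_zero :
    ∀ b, (ofBits b : Cub (ZMod 4)) ^ 2 = 0 → b = (0, 0, 0, 0, 0, 0) := by decide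

set_option maxRecDepth 100000 in
set_option maxHeartbeats 4000000 in
/-- Squares modulo `2` are real. -/
theorem sq_im_zero : ∀ b, ((ofBits b : Cub (ZMod 2)) ^ 2).c01 = 0 ∧
    ((ofBits b : Cub (ZMod 2)) ^ 2).c11 = 0 ∧ ((ofBits b : Cub (ZMod 2)) ^ 2).c21 = 0 := by decide

set_option maxRecDepth 100000 in
set_option maxHeartbeats 4000000 in
/-- The three units are independent modulo squares. -/
theorem unit_class_trivial : ∀ a b c : Fin 2, ∀ s0 s1 s2 k0 k1 : ZMod 2,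
    (I : Cub (ZMod 2)) ^ a.val * e0 ^ b.val * e1 ^ c.val * ⟨s0, 0, s1, 0, s2, 0⟩
      = ⟨k0, 0, k1, 0, 1, 0⟩ → a = 0 ∧ b = 0 ∧ c = 0 := by decide

set_option maxRecDepth 100000 in
set_option maxHeartbeats 4000000 in
/-- Real quadratics which are squares modulo `4`. -/
theorem quad_sq_four : ∀ b, let s := (ofBits b : Cub (ZMod 4)) ^ 2;
    s.c01 = 0 → s.c11 = 0 → s.c21 = 0 → 2 * s.c20 = 2 → 2 * s.c10 = 0 →
      (2 * s.c00 = 2 → s.c10 = 2 ∧ s.c00 = s.c20) ∧
      (2 * s.c00 = 0 → s.c10 = 0 ∧ s.c00 = 0 ∧ (s.c20 = 1 → b = (0, 0, 1, 0, 0, 0))) := by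
  decide

set_option maxRecDepth 100000 in
set_option maxHeartbeats 4000000 in
/-- If `θβ + β²` is real modulo `2` then so is `β`. -/
theorem real_of_T_mul_add_sq : ∀ b, let s := (T : Cub (ZMod 2)) * ofBits b + ofBits b ^ 2;
    s.c01 = 0 → s.c11 = 0 → s.c21 = 0 →
      (ofBits b : Cub (ZMod 2)).c01 = 0 ∧ (ofBits b : Cub (ZMod 2)).c11 = 0 ∧
      (ofBits b : Cub (ZMod 2)).c21 = 0 := by decide

/-- An element of `Cub ℚ₂` with integral square is integral. -/
theorem exists_of_sq {x : Cub ℚ_[2]} {y : Cub ℤ_[2]} (h : x ^ 2 = map incl y) :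
    ∃ z : Cub ℤ_[2], map incl z = x := by
  have key : ∀ m : ℕ, ∀ z : Cub ℤ_[2], map incl z = 2 ^ m * x →
      ∃ z : Cub ℤ_[2], map incl z = x := by
    intro m
    induction m with
    | zero => exact fun z hz => ⟨z, by simpa using hz⟩
    | succ m ih =>
      intro z hz
      have h2 : z ^ 2 = 4 ^ (m + 1) * y := by
        refine map_injective (φ := incl) Subtype.coe_injective ?_
        rw [map_pow, map_mul, map_pow, map_ofNat, hz, mul_pow, h, ← pow_mul, mul_comm (m + 1),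
          pow_mul]
        norm_num
      obtain ⟨b, hb2, hb4⟩ := map_red4_sq z
      have h40 : (4 : Cub (ZMod 4)) = 0 := by decide
      have hb0 := sq_ofBits_eq_zero b (by
        rw [← hb4, ← map_pow, h2, map_mul, map_pow, map_ofNat, h40, zero_pow (by omega),
          zero_mul])
      obtain ⟨b', w, hw⟩ := exists_ofBits z
      have hb' : (ofBits b' : Cub (ZMod 2)) = ofBits b := by
        rw [← hb2, hw, map_add, map_mul, map_ofBits, map_ofNat,
          (by decide : (2 : Cub (ZMod 2)) = 0), zero_mul, add_zero]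
      have hinj : ∀ c, (ofBits c : Cub (ZMod 2)) = ofBits (0, 0, 0, 0, 0, 0) →
          c = (0, 0, 0, 0, 0, 0) := by decide
      obtain rfl := hinj b' (by rw [hb', hb0])
      refine ih w ?_
      have hz' : (2 : Cub ℚ_[2]) * map incl w = 2 * (2 ^ m * x) := by
        rw [← mul_assoc, ← pow_succ', ← hz, hw]
        simp [map_apply, ofBits, two_mul, add_def]
      have h2u : IsUnit (2 : Cub ℚ_[2]) := by
        have := (isUnit_iff_ne_zero.2 (two_ne_zero (α := ℚ_[2]))).map (C (R := ℚ_[2]))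
        rwa [map_ofNat] at this
      exact h2u.mul_left_cancel hz'
  obtain ⟨m, hm⟩ := pow_unbounded_of_one_lt
    (‖x.c00‖ + ‖x.c01‖ + ‖x.c10‖ + ‖x.c11‖ + ‖x.c20‖ + ‖x.c21‖) (one_lt_two (α := ℝ))
  have hint : ∀ r : ℚ_[2], ‖r‖ ≤ 2 ^ m → ‖(2 : ℚ_[2]) ^ m * r‖ ≤ 1 := fun r hr => by
    have hp : ‖((2 : ℕ) : ℚ_[2])‖ = ((2 : ℕ) : ℝ)⁻¹ := Padic.norm_p
    rw [Nat.cast_ofNat, Nat.cast_ofNat] at hp
    rw [norm_mul, norm_pow, hp, inv_pow, inv_mul_le_one₀ (by positivity)]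
    exact hr
  have := norm_nonneg x.c00; have := norm_nonneg x.c01; have := norm_nonneg x.c10
  have := norm_nonneg x.c11; have := norm_nonneg x.c20; have := norm_nonneg x.c21
  refine key m ⟨⟨_, hint x.c00 (by linarith)⟩, ⟨_, hint x.c01 (by linarith)⟩,
    ⟨_, hint x.c10 (by linarith)⟩, ⟨_, hint x.c11 (by linarith)⟩, ⟨_, hint x.c20 (by linarith)⟩,
    ⟨_, hint x.c21 (by linarith)⟩⟩ ?_
  have hC : (2 : Cub ℚ_[2]) ^ m = C (2 ^ m) := by rw [map_pow, map_ofNat]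
  rw [hC]
  ext <;> simp [map_apply, mul_def, prod, C_apply]

end Cub

/-- The completion of `L` at `2`. -/
def toCub : L →+* Cub ℚ_[2] :=
  AdjoinRoot.lift (Cub.C.comp (algebraMap ℚ ℚ_[2])) Cub.T (by
    simp [fPoly, f13]
    exact Cub.f13_T)

theorem toCub_θL : toCub θL = Cub.T := AdjoinRoot.lift_root _

theorem toCub_iL : toCub iL = Cub.I := by
  have h2 : IsUnit (2 : Cub ℚ_[2]) := by
    have := (isUnit_iff_ne_zero.2 (two_ne_zero (α := ℚ_[2]))).map (Cub.C (R := ℚ_[2]))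
    rwa [map_ofNat] at this
  refine h2.mul_left_cancel ?_
  have h : (2 : L) * iL = -(3 + 4 * θL + θL ^ 2 + 9 * θL ^ 3 + 7 * θL ^ 4 + 2 * θL ^ 5) := by
    rw [iL]; field_simp
  have := congrArg toCub h
  simp only [map_mul, map_neg, map_add, map_pow, map_ofNat, toCub_θL] at this
  rw [this]
  have e : ∀ (n : ℕ) [n.AtLeastTwo], (OfNat.ofNat n : Cub ℚ_[2]) = Cub.C (OfNat.ofNat n) :=
    fun n _ => (map_ofNat Cub.C n).symm
  simp only [e]
  ext <;> simp [Cub.mul_def, Cub.prod, Cub.add_def, Cub.neg_def, Cub.C_apply, Cub.T, Cub.I,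
    pow_succ] <;> ring

theorem toCub_e0L : toCub e0L = Cub.e0 := by
  simp only [e0L, map_add, map_mul, map_sub, map_pow, map_one, map_ofNat, toCub_θL, toCub_iL]
  ext <;> simp [sub_eq_add_neg, two_mul, pow_two, Cub.mul_def, Cub.prod, Cub.add_def, Cub.neg_def,
    Cub.T, Cub.I, Cub.e0]
  norm_num

theorem toCub_e1L : toCub e1L = Cub.e1 := by
  simp only [e1L, map_add, map_mul, map_pow, map_ofNat, toCub_θL, toCub_iL]
  have e : (2 : Cub ℚ_[2]) = Cub.C 2 := (map_ofNat Cub.C 2).symm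
  rw [e]
  ext <;> simp [pow_two, Cub.mul_def, Cub.prod, Cub.add_def, Cub.C_apply, Cub.T, Cub.I, Cub.e1]

end FA.Thirteen

end
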