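import Mathlib

/-!
# The sextic of `X₁(13)` and the sextic field it cuts out

`y² = f13 x` is a model of the modular curve `X₁(13)`; its rational cusps are the two points at
infinity and those with `x = 0, -1`.
-/

set_option autoImplicit false

noncomputable section

open Polynomial

namespace FA.Thirteen

/-- The sextic of the model `y² = f13 x` of `X₁(13)`. -/
def f13 {R : Type*} [CommRing R] (x : R) : R :=
  x ^ 6 + 4 * x ^ 5 + 6 * x ^ 4 + 2 * x ^ 3 + x ^ 2 + 2 * x + 1

/-- Real part of the Gaussian cubic dividing `f13`. -/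
def gA {R : Type*} [CommRing R] (x : R) : R := x ^ 3 + 2 * x ^ 2 - x - 1

/-- Imaginary part of the Gaussian cubic dividing `f13`. -/
def gB {R : Type*} [CommRing R] (x : R) : R := 2 * x ^ 2 + 2 * x

/-- The cubic with `f13 = h13 ^ 2 + 4 * (x ^ 5 + x ^ 4)`. -/
def h13 {R : Type*} [CommRing R] (x : R) : R := x ^ 3 + x + 1

theorem f13_eq_gA_gB {R : Type*} [CommRing R] (x : R) : f13 x = gA x ^ 2 + gB x ^ 2 := by
  simp only [f13, gA, gB]; ring

theorem f13_eq_h13 {R : Type*} [CommRing R] (x : R) :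
    f13 x = h13 x ^ 2 + 4 * (x ^ 5 + x ^ 4) := by
  simp only [f13, h13]; ring

theorem map_f13 {R S : Type*} [CommRing R] [CommRing S] (φ : R →+* S) (x : R) :
    φ (f13 x) = f13 (φ x) := by
  simp [f13, map_ofNat]

/-- The statement that the only rational points of `y² = f13 x` have `x = 0` or `x = -1`. -/
def OnlyCusps : Prop := ∀ x y : ℚ, y ^ 2 = f13 x → x = 0 ∨ x = -1

/-- The sextic as a polynomial. -/
def fPoly : ℚ[X] := f13 X

theorem fPoly_monic : fPoly.Monic := by
  unfold fPoly f13; monicity!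

theorem natDegree_fPoly : fPoly.natDegree = 6 := by
  unfold fPoly f13; compute_degree!

theorem aeval_fPoly {A : Type*} [CommRing A] [Algebra ℚ A] (a : A) : aeval a fPoly = f13 a := by
  simp [fPoly, f13, map_ofNat]

set_option maxRecDepth 20000 in
private theorem no_factor_three :
    (∀ a : ZMod 3, ∀ b₀ b₁ b₂ b₃ b₄ : ZMod 3,
      ¬ (a * b₀ = 1 ∧ b₀ + a * b₁ = 2 ∧ b₁ + a * b₂ = 1 ∧ b₂ + a * b₃ = 2 ∧ b₃ + a * b₄ = 6 ∧
        b₄ + a = 4)) ∧
    (∀ a₀ a₁ : ZMod 3, ∀ b₀ b₁ b₂ b₃ : ZMod 3,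
      ¬ (a₀ * b₀ = 1 ∧ a₁ * b₀ + a₀ * b₁ = 2 ∧ b₀ + a₁ * b₁ + a₀ * b₂ = 1 ∧
        b₁ + a₁ * b₂ + a₀ * b₃ = 2 ∧ b₂ + a₁ * b₃ + a₀ = 6 ∧ b₃ + a₁ = 4)) ∧
    (∀ a₀ a₁ a₂ : ZMod 3, ∀ b₀ b₁ b₂ : ZMod 3,
      ¬ (a₀ * b₀ = 1 ∧ a₁ * b₀ + a₀ * b₁ = 2 ∧ a₂ * b₀ + a₁ * b₁ + a₀ * b₂ = 1 ∧
        b₀ + a₂ * b₁ + a₁ * b₂ + a₀ = 2 ∧ b₁ + a₂ * b₂ + a₁ = 6 ∧ b₂ + a₂ = 4)) := by
  refine ⟨?_, ?_, ?_⟩ <;> decide

theorem fPoly_irreducible : Irreducible fPoly := by
  have hm : (f13 (X : ℤ[X])).Monic := by unfold f13; monicity!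
  have h3 : Irreducible ((f13 (X : ℤ[X])).map (Int.castRingHom (ZMod 3))) := by
    have : Fact (Nat.Prime 3) := ⟨Nat.prime_three⟩
    have hd : ((f13 (X : ℤ[X])).map (Int.castRingHom (ZMod 3))).natDegree = 6 := by
      rw [hm.natDegree_map]; unfold f13; compute_degree!
    have hne1 : (f13 (X : ℤ[X])).map (Int.castRingHom (ZMod 3)) ≠ 1 := by
      intro h; rw [h, natDegree_one] at hd; omega
    rw [(hm.map _).irreducible_iff_lt_natDegree_lt hne1]
    intro q hq hqd hdvd
    obtain ⟨b, hb⟩ := hdvd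
    rw [hd, Finset.mem_Ioc] at hqd
    have hbm : b.Monic := hq.of_mul_monic_left (hb ▸ hm.map _)
    have hbd : b.natDegree = 6 - q.natDegree := by
      have := congrArg natDegree hb
      rw [hd, hq.natDegree_mul hbm] at this
      omega
    have hc : ∀ n, ((f13 (X : ℤ[X])).map (Int.castRingHom (ZMod 3))).coeff n = (q * b).coeff n :=
      fun n => by rw [hb]
    obtain ⟨h1, h2, h3'⟩ := no_factor_three
    have qe := hq.as_sum
    have be := hbm.as_sum
    have hdd : q.natDegree = 1 ∨ q.natDegree = 2 ∨ q.natDegree = 3 := by omega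
    rcases hdd with e | e | e
    · rw [e] at qe; rw [hbd, e] at be
      refine h1 (q.coeff 0) (b.coeff 0) (b.coeff 1) (b.coeff 2) (b.coeff 3) (b.coeff 4) ?_
      rw [qe, be] at hc
      have c0 := hc 0; have c1 := hc 1; have c2 := hc 2; have c3 := hc 3; have c4 := hc 4
      have c5 := hc 5
      simp [f13, Finset.sum_range_succ, coeff_mul, Finset.Nat.sum_antidiagonal_eq_sum_range_succ_mk,
        coeff_X, coeff_one] at c0 c1 c2 c3 c4 c5
      refine ⟨?_, ?_, ?_, ?_, ?_, ?_⟩
      · linear_combination -c0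
      · linear_combination -c1
      · linear_combination -c2
      · linear_combination -c3
      · linear_combination -c4
      · linear_combination -c5
    · rw [e] at qe; rw [hbd, e] at be
      refine h2 (q.coeff 0) (q.coeff 1) (b.coeff 0) (b.coeff 1) (b.coeff 2) (b.coeff 3) ?_
      rw [qe, be] at hc
      have c0 := hc 0; have c1 := hc 1; have c2 := hc 2; have c3 := hc 3; have c4 := hc 4
      have c5 := hc 5
      simp [f13, Finset.sum_range_succ, coeff_mul, Finset.Nat.sum_antidiagonal_eq_sum_range_succ_mk,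
        coeff_X, coeff_one] at c0 c1 c2 c3 c4 c5
      refine ⟨?_, ?_, ?_, ?_, ?_, ?_⟩
      · linear_combination -c0
      · linear_combination -c1
      · linear_combination -c2
      · linear_combination -c3
      · linear_combination -c4
      · linear_combination -c5
    · rw [e] at qe; rw [hbd, e] at be
      refine h3' (q.coeff 0) (q.coeff 1) (q.coeff 2) (b.coeff 0) (b.coeff 1) (b.coeff 2) ?_
      rw [qe, be] at hc
      have c0 := hc 0; have c1 := hc 1; have c2 := hc 2; have c3 := hc 3; have c4 := hc 4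
      have c5 := hc 5
      simp [f13, Finset.sum_range_succ, coeff_mul, Finset.Nat.sum_antidiagonal_eq_sum_range_succ_mk,
        coeff_X, coeff_one] at c0 c1 c2 c3 c4 c5
      refine ⟨?_, ?_, ?_, ?_, ?_, ?_⟩
      · linear_combination -c0
      · linear_combination -c1
      · linear_combination -c2
      · linear_combination -c3
      · linear_combination -c4
      · linear_combination -c5
  have hirr := hm.irreducible_of_irreducible_map (Int.castRingHom (ZMod 3)) _ h3
  have := hm.irreducible_iff_irreducible_map_fraction_map (K := ℚ) |>.mp hirr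
  have hmap : (f13 (X : ℤ[X])).map (algebraMap ℤ ℚ) = fPoly := by
    rw [fPoly, ← coe_mapRingHom, map_f13, coe_mapRingHom, map_X]
  rwa [hmap] at this

instance : Fact (Irreducible fPoly) := ⟨fPoly_irreducible⟩

/-- The sextic field `ℚ[x]/(f13)`. -/
abbrev L : Type := AdjoinRoot fPoly

/-- The root of the sextic in `L`. -/
def θL : L := AdjoinRoot.root fPoly

theorem f13_θL : f13 θL = 0 := by
  rw [← aeval_fPoly, θL, aeval_def,
    Subsingleton.elim (algebraMap ℚ L) (AdjoinRoot.of fPoly), AdjoinRoot.eval₂_root]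

/-- The square root of `-1` in `L`, namely `-gA θL / gB θL`. -/
def iL : L :=
  -(3 + 4 * θL + θL ^ 2 + 9 * θL ^ 3 + 7 * θL ^ 4 + 2 * θL ^ 5) / 2

/-- First fundamental unit. -/
def e0L : L := θL ^ 2 + (1 + 2 * iL) * θL + (iL - 1)

/-- Second fundamental unit. -/
def e1L : L := θL ^ 2 + (2 + iL) * θL + iL

theorem iL_sq : iL ^ 2 = -1 := by
  have h := f13_θL
  simp only [iL, f13] at h ⊢
  grind

theorem gA_add_iL_mul_gB : gA θL + iL * gB θL = 0 := by
  have h := f13_θL
  simp only [iL, f13, gA, gB] at h ⊢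
  grind

instance : NumberField L where
  to_charZero := charZero_of_injective_algebraMap (algebraMap ℚ L).injective
  to_finiteDimensional := fPoly_monic.finite_adjoinRoot

theorem finrank_L : Module.finrank ℚ L = 6 := by
  rw [PowerBasis.finrank (AdjoinRoot.powerBasis fPoly_monic.ne_zero),
    AdjoinRoot.powerBasis_dim, natDegree_fPoly]

end FA.Thirteen

end
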