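import Fermat.Agent.Thirteen.FieldDiscr

/-!
# Halving a square root of a quadratic value

If `U(θ)` is a square then there are polynomials `k`, `l` of degrees at most `2` and `3` with
`√(U(θ)) k(θ) = l(θ)`, and then `l² - U k²` is a non-zero multiple of the sextic.
-/

set_option autoImplicit false

noncomputable section

namespace FA.Thirteen

open Module Polynomial

theorem coeff_eq_zero_of_eval_θL {c : Fin 6 → ℤ}
    (h : ∑ j : Fin 6, (c j : L) * θL ^ (j : ℕ) = 0) (j : Fin 6) : c j = 0 := by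
  have hli := Fintype.linearIndependent_iff.1 powBasisL.linearIndependent (fun j => (c j : ℚ)) (by
    rw [← h]
    exact Finset.sum_congr rfl fun j _ => by rw [powBasisL_apply, Algebra.smul_def, map_intCast]) j
  exact_mod_cast hli

/-- Square of the cubic minus the multiple of the quadratic square. -/
def halfPoly {R : Type*} [CommRing R] (u2 u1 u0 : ℤ) (w : Fin 7 → ℤ) (x : R) : R :=
  ((w 3 : R) * x ^ 3 + w 4 * x ^ 2 + w 5 * x + w 6) ^ 2 -
    ((u2 : R) * x ^ 2 + u1 * x + u0) * ((w 0 : R) * x ^ 2 + w 1 * x + w 2) ^ 2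

theorem halfPoly_eq {R : Type*} [CommRing R] (u2 u1 u0 : ℤ) (w : Fin 7 → ℤ) (x : R)
    {e : ℤ} (he : e = w 3 ^ 2 - u2 * w 0 ^ 2) :
    halfPoly u2 u1 u0 w x - e * f13 x = ∑ j : Fin 6,
      ((![w 6 ^ 2 - u0 * w 2 ^ 2 - e,
          2 * w 5 * w 6 - (u1 * w 2 ^ 2 + 2 * u0 * w 1 * w 2) - 2 * e,
          w 5 ^ 2 + 2 * w 4 * w 6 - (u2 * w 2 ^ 2 + 2 * u1 * w 1 * w 2 +
            u0 * (w 1 ^ 2 + 2 * w 0 * w 2)) - e,
          2 * w 3 * w 6 + 2 * w 4 * w 5 - (2 * u2 * w 1 * w 2 +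
            u1 * (w 1 ^ 2 + 2 * w 0 * w 2) + 2 * u0 * w 0 * w 1) - 2 * e,
          w 4 ^ 2 + 2 * w 3 * w 5 - (u2 * (w 1 ^ 2 + 2 * w 0 * w 2) + 2 * u1 * w 0 * w 1 +
            u0 * w 0 ^ 2) - 6 * e,
          2 * w 3 * w 4 - (2 * u2 * w 0 * w 1 + u1 * w 0 ^ 2) - 4 * e] : Fin 6 → ℤ) j : R)
        * x ^ (j : ℕ) := by
  subst he
  simp [halfPoly, f13, Fin.sum_univ_succ]
  ring

/-- A primitive integral vector in the kernel. -/
theorem exists_kernel_vector (aL : L) :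
    ∃ w : Fin 7 → ℤ, (∃ i, ¬ 2 ∣ w i) ∧
      aL * ((w 0 : L) * θL ^ 2 + w 1 * θL + w 2) =
        (w 3 : L) * θL ^ 3 + w 4 * θL ^ 2 + w 5 * θL + w 6 := by
  classical
  let φ : (Fin 7 → ℚ) →ₗ[ℚ] L := Fintype.linearCombination ℚ
    ![aL * θL ^ 2, aL * θL, aL, -θL ^ 3, -θL ^ 2, -θL, -1]
  have hker : ¬ Function.Injective φ := fun hinj => by
    have := LinearMap.finrank_le_finrank_of_injective hinj
    rw [Module.finrank_fin_fun, finrank_L] at this
    omega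
  obtain ⟨v, hv, hv0⟩ : ∃ v, φ v = 0 ∧ v ≠ 0 := by
    by_contra hno
    push Not at hno
    exact hker ((injective_iff_map_eq_zero φ).2 hno)
  let P : (Fin 7 → ℤ) → Prop := fun w =>
    w ≠ 0 ∧ φ (fun i => (w i : ℚ)) = 0
  obtain ⟨w₀, hw₀⟩ : ∃ w, P w := by
    refine ⟨fun i => (v i).num * ∏ j ∈ Finset.univ.erase i, ((v j).den : ℤ), fun h => hv0 ?_, ?_⟩
    · funext i
      have hp : ∏ j ∈ Finset.univ.erase i, ((v j).den : ℤ) ≠ 0 :=
        Finset.prod_ne_zero_iff.2 fun j _ => Int.natCast_ne_zero.2 (v j).den_nz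
      exact Rat.num_eq_zero.1 ((mul_eq_zero.1 (congrFun h i)).resolve_right hp)
    · have : (fun i => (((v i).num * ∏ j ∈ Finset.univ.erase i, ((v j).den : ℤ) : ℤ) : ℚ)) =
          (∏ j, ((v j).den : ℚ)) • v := by
        funext i
        rw [Pi.smul_apply, smul_eq_mul, ← Finset.mul_prod_erase _ _ (Finset.mem_univ i)]
        push_cast
        rw [← Rat.mul_den_eq_num (v i)]
        ring
      rw [this, map_smul, hv, smul_zero]
  obtain ⟨n, hn⟩ : ∃ n, ∃ w, P w ∧ ∑ i, (w i).natAbs = n := ⟨_, w₀, hw₀, rfl⟩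
  induction n using Nat.strong_induction_on generalizing w₀ with
  | _ n ih =>
    obtain ⟨w, ⟨hw0, hwφ⟩, hwn⟩ := hn
    by_cases hodd : ∃ i, ¬ 2 ∣ w i
    · refine ⟨w, hodd, sub_eq_zero.1 ?_⟩
      rw [← hwφ]
      simp [φ, Fintype.linearCombination_apply, Fin.sum_univ_succ, Algebra.smul_def]
      ring
    · push Not at hodd
      choose w' hw' using hodd
      have hne : w' ≠ 0 := fun h => hw0 (funext fun i => by rw [hw' i, h]; simp)
      have hφ' : φ (fun i => (w' i : ℚ)) = 0 := by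
        have he : (fun i => (w i : ℚ)) = (2 : ℚ) • fun i => (w' i : ℚ) := by
          funext i; simp [hw' i]
        rw [he, map_smul, smul_eq_zero] at hwφ
        exact hwφ.resolve_left two_ne_zero
      refine ih (∑ i, (w' i).natAbs) ?_ w' ⟨hne, hφ'⟩ ⟨w', ⟨hne, hφ'⟩, rfl⟩
      have hsum : ∑ i, (w i).natAbs = 2 * ∑ i, (w' i).natAbs := by
        rw [Finset.mul_sum]
        exact Finset.sum_congr rfl fun i _ => by rw [hw' i, Int.natAbs_mul]; rfl
      have hpos : ∑ i, (w' i).natAbs ≠ 0 := fun h => hne (funext fun i =>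
        Int.natAbs_eq_zero.1 (Finset.sum_eq_zero_iff.1 h i (Finset.mem_univ i)))
      omega

/-- **Halving.** -/
theorem exists_halving {u2 u1 u0 : ℤ} (hdisc : u1 ^ 2 - 4 * u2 * u0 ≠ 0) {aL : L}
    (ha : aL ^ 2 = (u2 : L) * θL ^ 2 + u1 * θL + u0) :
    ∃ k2 k1 k0 l3 l2 l1 l0 e : ℤ, e ≠ 0 ∧
      ¬ (2 ∣ k2 ∧ 2 ∣ k1 ∧ 2 ∣ k0 ∧ 2 ∣ l3 ∧ 2 ∣ l2 ∧ 2 ∣ l1 ∧ 2 ∣ l0) ∧
      ¬ (k2 = 0 ∧ k1 = 0 ∧ k0 = 0) ∧
      aL * ((k2 : L) * θL ^ 2 + k1 * θL + k0) =
        (l3 : L) * θL ^ 3 + l2 * θL ^ 2 + l1 * θL + l0 ∧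
      ∀ x : ℤ, (l3 * x ^ 3 + l2 * x ^ 2 + l1 * x + l0) ^ 2 -
        (u2 * x ^ 2 + u1 * x + u0) * (k2 * x ^ 2 + k1 * x + k0) ^ 2 = e * f13 x := by
  obtain ⟨w, hodd, hw⟩ := exists_kernel_vector aL
  obtain ⟨e, he⟩ : ∃ e : ℤ, e = w 3 ^ 2 - u2 * w 0 ^ 2 := ⟨_, rfl⟩
  have hk : ¬ (w 0 = 0 ∧ w 1 = 0 ∧ w 2 = 0) := by
    rintro ⟨h0, h1, h2⟩
    rw [h0, h1, h2] at hw
    have hl := coeff_eq_zero_of_eval_θL (c := ![w 6, w 5, w 4, w 3, 0, 0]) (by
      simp [Fin.sum_univ_succ]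
      simp at hw
      linear_combination -hw)
    have h3 : w 3 = 0 := hl 3
    have h4 : w 4 = 0 := hl 2
    have h5 : w 5 = 0 := hl 1
    have h6 : w 6 = 0 := hl 0
    obtain ⟨i, hi⟩ := hodd
    fin_cases i <;> simp_all
  have hzero := coeff_eq_zero_of_eval_θL ((halfPoly_eq u2 u1 u0 w θL he).symm.trans (by
    rw [f13_θL, mul_zero, sub_zero, halfPoly, ← hw, ← ha]
    ring))
  have hid : ∀ {R : Type} [CommRing R] (x : R), halfPoly u2 u1 u0 w x = e * f13 x := by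
    intro R _ x
    rw [← sub_eq_zero, halfPoly_eq u2 u1 u0 w x he]
    exact Finset.sum_eq_zero fun j _ => by rw [hzero j, Int.cast_zero, zero_mul]
  refine ⟨w 0, w 1, w 2, w 3, w 4, w 5, w 6, e, fun he0 => ?_, ?_, hk, hw, fun x => ?_⟩
  · obtain ⟨r, hr⟩ : ∃ r : ℂ, (u2 : ℂ) * r ^ 2 + u1 * r + u0 = 0 := by
      by_cases h2 : u2 = 0
      · have h1 : u1 ≠ 0 := fun h => hdisc (by rw [h, h2]; ring)
        refine ⟨-u0 / u1, ?_⟩
        have h1' : (u1 : ℂ) ≠ 0 := Int.cast_ne_zero.2 h1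
        rw [h2]; field_simp; simp
      · obtain ⟨s, hs⟩ := IsAlgClosed.exists_pow_nat_eq ((u1 : ℂ) ^ 2 - 4 * u2 * u0) two_pos
        refine ⟨(-u1 + s) / (2 * u2), ?_⟩
        have h2' : (u2 : ℂ) ≠ 0 := Int.cast_ne_zero.2 h2
        field_simp
        linear_combination hs
    let V : ℂ[X] := C (u2 : ℂ) * X + C ((u2 : ℂ) * r + u1)
    let K : ℂ[X] := C (w 0 : ℂ) * X ^ 2 + C (w 1 : ℂ) * X + C (w 2 : ℂ)
    let P : ℂ[X] := C (w 3 : ℂ) * X ^ 3 + C (w 4 : ℂ) * X ^ 2 + C (w 5 : ℂ) * X + C (w 6 : ℂ)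
    have hVr : V.eval r ≠ 0 := fun h => by
      simp only [V, eval_add, eval_mul, eval_C, eval_X] at h
      refine hdisc (Int.cast_inj (α := ℂ) |>.1 ?_)
      push_cast
      linear_combination ((u2 : ℂ) * r + ((u2 : ℂ) * r + u1)) * h - 4 * (u2 : ℂ) * hr
    have hU : (u2 : ℂ[X]) * X ^ 2 + (u1 : ℂ[X]) * X + (u0 : ℂ[X]) = (X - C r) * V := by
      have h0 : (u0 : ℂ[X]) = C (-((u2 : ℂ) * r ^ 2 + u1 * r)) := by
        rw [show -((u2 : ℂ) * r ^ 2 + u1 * r) = (u0 : ℂ) by linear_combination -hr, map_intCast]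
      simp only [V, h0, map_neg, map_add, map_mul, map_pow, map_intCast]
      ring
    have hK : K ≠ 0 := fun h => hk <| by
      refine ⟨?_, ?_, ?_⟩
      · simpa [K, coeff_X, coeff_C, -map_intCast] using congrArg (fun p => coeff p 2) h
      · simpa [K, coeff_X, coeff_C, -map_intCast] using congrArg (fun p => coeff p 1) h
      · simpa [K, coeff_X, coeff_C, -map_intCast] using congrArg (fun p => coeff p 0) h
    have heq : P ^ 2 = (X - C r) * V * K ^ 2 := by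
      have h := hid (X : ℂ[X])
      rw [he0, Int.cast_zero, zero_mul, halfPoly, sub_eq_zero, hU] at h
      simpa [P, K] using h
    have hV : V ≠ 0 := fun h => hVr (by rw [h, eval_zero])
    have hne : (X - C r) * V * K ^ 2 ≠ 0 :=
      mul_ne_zero (mul_ne_zero (X_sub_C_ne_zero r) hV) (pow_ne_zero _ hK)
    have hP : P ≠ 0 := fun h => hne (by rw [← heq, h, zero_pow two_ne_zero])
    have hm := congrArg (rootMultiplicity r) heq
    rw [rootMultiplicity_mul hne, rootMultiplicity_mul (mul_ne_zero (X_sub_C_ne_zero r) hV),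
      rootMultiplicity_X_sub_C_self, rootMultiplicity_eq_zero (p := V) hVr, pow_two, pow_two,
      rootMultiplicity_mul (mul_ne_zero hP hP), rootMultiplicity_mul (mul_ne_zero hK hK)] at hm
    omega
  · rintro ⟨a0, a1, a2, a3, a4, a5, a6⟩
    obtain ⟨i, hi⟩ := hodd
    fin_cases i <;> simp_all
  · have h := hid x
    simpa [halfPoly] using h

end FA.Thirteen

end
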