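import Fermat.Agent.Thirteen.FieldPlaces
import Fermat.Agent.Thirteen.FieldDiscr

/-!
# The sextic field has class number one

Minkowski's bound is less than `4` and no prime has norm `2` or `3`: the sextic has no root
modulo `2` or `3`.
-/

set_option autoImplicit false

noncomputable section

namespace FA.Thirteen

open NumberField Module

theorem minkowskiBound_L_lt :
    (4 / Real.pi) ^ InfinitePlace.nrComplexPlaces L *
      ((Nat.factorial (finrank ℚ L)) / (finrank ℚ L : ℝ) ^ (finrank ℚ L) * √|(discr L : ℝ)|) < 4 := by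
  rw [nrComplexPlaces_L, finrank_L, show (Nat.factorial 6) = 720 from rfl]
  have hd : (|(discr L : ℝ)|) ≤ 104 ^ 2 := by
    rw [← Int.cast_abs]
    refine le_trans (Int.cast_le.2 abs_discr_L_le) (le_of_eq ?_)
    norm_num
  have hs : √|(discr L : ℝ)| ≤ 104 := by
    rw [← Real.sqrt_sq (show (0 : ℝ) ≤ 104 by norm_num)]
    exact Real.sqrt_le_sqrt hd
  have hpi : 4 / Real.pi < 13 / 10 := by
    rw [div_lt_div_iff₀ Real.pi_pos (by norm_num)]
    nlinarith [Real.pi_gt_d2]
  have h3 : (4 / Real.pi) ^ 3 ≤ (13 / 10) ^ 3 := pow_le_pow_left₀ (by positivity) hpi.le 3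
  calc _ ≤ (13 / 10 : ℝ) ^ 3 * (720 / 6 ^ 6 * 104) := by
        push_cast
        gcongr
    _ < 4 := by norm_num

theorem f13_zmod_two_three (x : ZMod 2) (y : ZMod 3) : f13 x ≠ 0 ∧ f13 y ≠ 0 := by
  revert x y
  decide

theorem four_le_absNorm_of_isPrime {P : Ideal (𝓞 L)} (hP : P.IsPrime) (h0 : P ≠ ⊥) :
    4 ≤ Ideal.absNorm P := by
  by_contra hlt
  push Not at hlt
  have h1 : Ideal.absNorm P ≠ 1 := fun h => hP.ne_top (Ideal.absNorm_eq_one_iff.1 h)
  have hn : Ideal.absNorm P ≠ 0 := by rwa [Ne, Ideal.absNorm_eq_zero_iff]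
  have : Finite (𝓞 L ⧸ P) := (Ideal.absNorm_ne_zero_iff P).1 hn
  let : Fintype (𝓞 L ⧸ P) := Fintype.ofFinite _
  have hcard : Fintype.card (𝓞 L ⧸ P) = Ideal.absNorm P := by
    rw [Ideal.absNorm_apply, Submodule.cardQuot_apply, Nat.card_eq_fintype_card]
  let t : 𝓞 L := ⟨θL, isIntegral_θL⟩
  have ht : f13 t = 0 := RingOfIntegers.coe_injective (by
    rw [map_f13, map_zero]; exact f13_θL)
  have ht' : f13 (Ideal.Quotient.mk P t) = 0 := by rw [← map_f13, ht, map_zero]
  obtain h | h : Ideal.absNorm P = 2 ∨ Ideal.absNorm P = 3 := by omega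
  · let e := (ZMod.ringEquivOfPrime (𝓞 L ⧸ P) Nat.prime_two (hcard.trans h)).symm.toRingHom
    exact (f13_zmod_two_three (e (Ideal.Quotient.mk P t)) 0).1
      (by rw [← map_f13, ht', map_zero])
  · let e := (ZMod.ringEquivOfPrime (𝓞 L ⧸ P) Nat.prime_three (hcard.trans h)).symm.toRingHom
    exact (f13_zmod_two_three 0 (e (Ideal.Quotient.mk P t))).2
      (by rw [← map_f13, ht', map_zero])

theorem isPrincipalIdealRing_L : IsPrincipalIdealRing (𝓞 L) := by
  refine RingOfIntegers.isPrincipalIdealRing_of_isPrincipal_of_norm_le_of_isPrime fun I hI hN => ?_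
  have h4 := four_le_absNorm_of_isPrime hI (nonZeroDivisors.coe_ne_zero I)
  have hlt := hN.trans_lt minkowskiBound_L_lt
  exact absurd (by exact_mod_cast hlt : Ideal.absNorm (I : Ideal (𝓞 L)) < 4) (by omega)

end FA.Thirteen

end
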