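import Fermat.Agent.Thirteen.Defs

/-!
# The sextic field has three complex places
-/

set_option autoImplicit false

noncomputable section

namespace FA.Thirteen

open NumberField

theorem nrRealPlaces_L : InfinitePlace.nrRealPlaces L = 0 := by
  rw [nrRealPlaces_eq_zero_iff]
  refine ⟨fun w => ?_⟩
  rw [← InfinitePlace.not_isReal_iff_isComplex]
  intro hw
  have h := congrArg (InfinitePlace.embedding_of_isReal hw) iL_sq
  rw [map_pow, map_neg, map_one] at h
  nlinarith [sq_nonneg (InfinitePlace.embedding_of_isReal hw iL)]

theorem nrComplexPlaces_L : InfinitePlace.nrComplexPlaces L = 3 := by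
  have h := InfinitePlace.card_add_two_mul_card_eq_rank L
  rw [nrRealPlaces_L, finrank_L] at h
  omega

end FA.Thirteen

end
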