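import Fermat.Agent.Thirteen.Defs
import Fermat.Agent.EC.S51Aux
import Fermat.Agent.TW.Primes
import Fermat.Agent.Local.Inertia
import Fermat.Agent.Thirteen.Tate

/-!
# A point of order thirteen on which Galois acts through the cyclotomic character

The coordinates `(X, Y)` on `y² = f13 x` of such a point are permuted by the diamond operators
exactly as the thirteenth roots of unity are; an involution of the curve, defined over the cubic
subfield and `√13`, turns them into a rational point.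
-/

set_option autoImplicit false

noncomputable section

open WeierstrassCurve
open scoped WeierstrassCurve.Affine

namespace FA.Thirteen

local notation "Qb" => AlgebraicClosure ℚ
local notation "GQ" => AlgebraicClosure ℚ ≃ₐ[ℚ] AlgebraicClosure ℚ

section periods

variable {K : Type*} [Field K] {ζ : K}

/-- Minus the cubic period of a thirteenth root of unity. -/
def per (ζ : K) : K := -(ζ + ζ ^ 5 + ζ ^ 8 + ζ ^ 12)

/-- The quadratic Gauss sum. -/
def gauss (ζ : K) : K :=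
  ζ + ζ ^ 3 + ζ ^ 4 + ζ ^ 9 + ζ ^ 10 + ζ ^ 12 - (ζ ^ 2 + ζ ^ 5 + ζ ^ 6 + ζ ^ 7 + ζ ^ 8 + ζ ^ 11)

theorem per_cubic (h : ∑ i ∈ Finset.range 13, ζ ^ i = 0) :
    per ζ ^ 3 - per ζ ^ 2 - 4 * per ζ - 1 = 0 := by
  simp only [Finset.sum_range_succ, Finset.sum_range_zero] at h
  simp only [per]
  linear_combination ((-1) + (5) * ζ + (-5) * ζ ^ 2 + (1) * ζ ^ 4 + (4) * ζ ^ 5 + (-6) * ζ ^ 6 +
    (-1) * ζ ^ 7 + (7) * ζ ^ 8 + (-6) * ζ ^ 9 + (-2) * ζ ^ 10 + (1) * ζ ^ 11 + (7) * ζ ^ 12 +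
    (-9) * ζ ^ 13 + (3) * ζ ^ 15 + (-3) * ζ ^ 17 + (3) * ζ ^ 19 + (-3) * ζ ^ 20 + (1) * ζ ^ 23 +
    (-1) * ζ ^ 24) * h

theorem gauss_sq (h : ∑ i ∈ Finset.range 13, ζ ^ i = 0) : gauss ζ ^ 2 = 13 := by
  simp only [Finset.sum_range_succ, Finset.sum_range_zero] at h
  simp only [gauss]
  linear_combination ((-13) + (13) * ζ + (1) * ζ ^ 2 + (-3) * ζ ^ 3 + (5) * ζ ^ 4 + (-3) * ζ ^ 5 +
    (-3) * ζ ^ 6 + (5) * ζ ^ 7 + (-3) * ζ ^ 8 + (-3) * ζ ^ 9 + (5) * ζ ^ 10 + (-3) * ζ ^ 11 +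
    (1) * ζ ^ 12) * h

theorem per_sq_mul (h : ∑ i ∈ Finset.range 13, ζ ^ i = 0) :
    per (ζ ^ 2) * (per ζ + 1) = -1 := by
  simp only [Finset.sum_range_succ, Finset.sum_range_zero] at h
  have e : per (ζ ^ 2) = -(ζ ^ 2 + ζ ^ 10 + ζ ^ 3 + ζ ^ 11) := by
    simp only [per, ← pow_mul]
    linear_combination ((1) * ζ ^ 3 + (-1) * ζ ^ 4 + (1) * ζ ^ 11 + (-1) * ζ ^ 12) * h
  rw [e]
  simp only [per]
  linear_combination ((1) + (-1) * ζ + (-1) * ζ ^ 2 + (1) * ζ ^ 3 + (1) * ζ ^ 4 + (-1) * ζ ^ 5 +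
    (1) * ζ ^ 7 + (-1) * ζ ^ 9 + (1) * ζ ^ 11) * h

theorem gauss_sq_arg (h : ∑ i ∈ Finset.range 13, ζ ^ i = 0) : gauss (ζ ^ 2) = -gauss ζ := by
  simp only [Finset.sum_range_succ, Finset.sum_range_zero] at h
  simp only [gauss, ← pow_mul]
  linear_combination ((1) * ζ + (-1) * ζ ^ 2 + (1) * ζ ^ 3 + (-1) * ζ ^ 4 + (-1) * ζ ^ 5 +
    (1) * ζ ^ 6 + (-1) * ζ ^ 7 + (1) * ζ ^ 8 + (1) * ζ ^ 9 + (-1) * ζ ^ 10 + (-1) * ζ ^ 11 +
    (1) * ζ ^ 12) * h

end periods

section involution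

variable {K : Type*} [Field K]

/-- The square root of `a² + a + 1` attached to the period `a` and the Gauss sum `S`. -/
def rho (a S : K) : K := (3 * a ^ 2 - 2 * a - 4) * S / 13

/-- The abscissa of the image under the involution. -/
def invX (a X : K) : K := (a * X + a + 1) / (X - a)

/-- The ordinate of the image under the involution. -/
def invY (a S X Y : K) : K := rho a S ^ 3 * Y / (X - a) ^ 3

variable {a S X Y : K}

theorem rho_sq (h13 : (13 : K) ≠ 0) (ha : a ^ 3 - a ^ 2 - 4 * a - 1 = 0) (hS : S ^ 2 = 13) :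
    rho a S ^ 2 = a ^ 2 + a + 1 := by
  rw [rho, div_pow, mul_pow, hS, div_eq_iff (pow_ne_zero 2 h13)]
  linear_combination 13 * (9 * a - 3) * ha

theorem invY_sq (h13 : (13 : K) ≠ 0) (ha : a ^ 3 - a ^ 2 - 4 * a - 1 = 0) (hS : S ^ 2 = 13)
    (hXa : X - a ≠ 0) (hY : Y ^ 2 = f13 X) : invY a S X Y ^ 2 = f13 (invX a X) := by
  have h2 := rho_sq h13 ha hS
  rw [invY, div_pow, mul_pow, ← pow_mul, hY, show (3 : ℕ) * 2 = 2 * 3 from rfl, pow_mul, h2]
  simp only [invX, f13]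
  field_simp
  linear_combination (-(((1) * a + (1) * a ^ 2) + ((-2) + (6) * a ^ 2 + (2) * a ^ 3) * X +
    ((-5) + (-15) * a + (5) * a ^ 3) * X ^ 2 + ((-20) * a + (-20) * a ^ 2) * X ^ 3 +
    ((5) + (-15) * a ^ 2 + (-5) * a ^ 3) * X ^ 4 + ((2) + (6) * a + (-2) * a ^ 3) * X ^ 5 +
    ((1) * a + (1) * a ^ 2) * X ^ 6)) * ha

variable {a' S' X' Y' : K}

/-- The involution intertwines the diamond operator with the generator of the Galois group. -/
theorem invX_invY_fixed (ha : a ^ 3 - a ^ 2 - 4 * a - 1 = 0) (hXa : X - a ≠ 0) (hX1 : X + 1 ≠ 0)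
    (ha' : a' * (a + 1) = -1) (hS' : S' = -S) (hX' : X' = -1 / (X + 1))
    (hY' : Y' = Y / (X + 1) ^ 3) :
    invX a' X' = invX a X ∧ invY a' S' X' Y' = invY a S X Y := by
  have ha1 : a + 1 ≠ 0 := fun e => by simp [e] at ha'
  obtain rfl : a' = -1 / (a + 1) := by rw [eq_div_iff ha1]; exact ha'
  subst hX' hY' hS'
  have hden : -1 / (X + 1) - -1 / (a + 1) = (X - a) / ((X + 1) * (a + 1)) := by
    field_simp; ring
  have hk : (3 * (-1 / (a + 1)) ^ 2 - 2 * (-1 / (a + 1)) - 4) * (a + 1) =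
      -(3 * a ^ 2 - 2 * a - 4) := by
    field_simp
    linear_combination 3 * ha
  have hrho : rho (-1 / (a + 1)) (-S) * (a + 1) = rho a S := by
    rw [rho, rho]
    linear_combination (-(S / 13)) * hk
  constructor
  · rw [invX, invX, hden]
    field_simp
    ring
  · rw [invY, invY, hden, ← hrho]
    field_simp

end involution

/-- **No rational curve point behind a cyclotomic point of order thirteen**: a pair `(X, Y)` on
`y² = f13 x`, fixed by the automorphisms fixing the thirteenth roots of unity and moved by the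
diamond operator by those squaring them, contradicts `OnlyCusps`. -/
theorem false_of_omega_coordinates (H : OnlyCusps) {X Y : Qb} (hY : Y ^ 2 = f13 X)
    (hX1 : X ≠ -1) (hcub : X ^ 3 - X ^ 2 - 4 * X - 1 ≠ 0)
    (hfix : ∀ σ : GQ, (∀ μ : Qb, μ ^ 13 = 1 → σ μ = μ) → σ X = X ∧ σ Y = Y)
    (htwo : ∀ σ : GQ, (∀ μ : Qb, μ ^ 13 = 1 → σ μ = μ ^ 2) →
      σ X = -1 / (X + 1) ∧ σ Y = Y / (X + 1) ^ 3) : False := by
  have : NeZero (13 : ℕ) := ⟨by norm_num⟩
  obtain ⟨ζ, hζ⟩ := HasEnoughRootsOfUnity.exists_primitiveRoot Qb 13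
  have hsum : ∑ i ∈ Finset.range 13, ζ ^ i = 0 := hζ.geom_sum_eq_zero (by norm_num)
  set a := per ζ with ha
  set S := gauss ζ with hS
  have hcu : a ^ 3 - a ^ 2 - 4 * a - 1 = 0 := per_cubic hsum
  have h13 : (13 : Qb) ≠ 0 := by norm_num
  have hXa : X - a ≠ 0 := fun e => hcub (by rw [sub_eq_zero.1 e]; exact hcu)
  have hX1' : X + 1 ≠ 0 := fun e => hX1 (eq_neg_of_add_eq_zero_left e)
  -- the generator
  obtain ⟨τ, hτ⟩ := FA.TW.exists_cyclotomic_action (p := 13) (by norm_num) (a := 2) (by norm_num)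
  have hτζ : τ ζ = ζ ^ 2 := hτ ζ hζ.pow_eq_one
  have hτa : τ a * (a + 1) = -1 := by
    rw [ha, show τ (per ζ) = per (ζ ^ 2) by simp [per, map_pow, hτζ]]
    exact per_sq_mul hsum
  have hτS : τ S = -S := by
    rw [hS, show τ (gauss ζ) = gauss (ζ ^ 2) by simp [gauss, map_pow, hτζ]]
    exact gauss_sq_arg hsum
  obtain ⟨hτX, hτY⟩ := htwo τ hτ
  obtain ⟨hwX, hwY⟩ := invX_invY_fixed hcu hXa hX1' hτa hτS hτX hτY
  have hmapX : ∀ σ : GQ, σ (invX a X) = invX (σ a) (σ X) := fun σ => by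
    simp [invX, map_div₀]
  have hmapY : ∀ σ : GQ, σ (invY a S X Y) = invY (σ a) (σ S) (σ X) (σ Y) := fun σ => by
    simp [invY, rho, map_div₀, map_ofNat]
  -- every automorphism is a power of the generator up to one fixing the roots of unity
  have hinv : ∀ σ : GQ, σ (invX a X) = invX a X ∧ σ (invY a S X Y) = invY a S X Y := by
    intro σ
    obtain ⟨i, -, hi⟩ := hζ.eq_pow_of_pow_eq_one
      (show σ ζ ^ 13 = 1 by rw [← map_pow, hζ.pow_eq_one, map_one])
    have hτk : ∀ k : ℕ, (τ ^ k) ζ = ζ ^ 2 ^ k ∧ (τ ^ k) (invX a X) = invX a X ∧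
        (τ ^ k) (invY a S X Y) = invY a S X Y := fun k => by
      induction k with
      | zero => simp
      | succ k ih =>
        rw [pow_succ τ k, AlgEquiv.mul_apply, AlgEquiv.mul_apply, AlgEquiv.mul_apply, hτζ, map_pow,
          ih.1, ← pow_mul, ← pow_succ, hmapX τ, hwX, hmapY τ, hwY]
        exact ⟨rfl, ih.2⟩
    have hi13 : ¬ 13 ∣ i := fun hd => hζ.ne_one (by norm_num) (σ.injective (by
      rw [← hi, map_one]; exact (hζ.pow_eq_one_iff_dvd i).2 hd))
    obtain ⟨k, -, hk⟩ : ∃ k ∈ Finset.range 12, 2 ^ k % 13 = i % 13 := by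
      have : ∀ r : Fin 13, r.val ≠ 0 → ∃ k ∈ Finset.range 12, 2 ^ k % 13 = r.val := by decide
      exact this ⟨i % 13, Nat.mod_lt _ (by norm_num)⟩ fun e => hi13 (Nat.dvd_of_mod_eq_zero e)
    set s := (τ ^ k)⁻¹ * σ with hs
    have hsζ : s ζ = ζ := by
      apply (τ ^ k).injective
      rw [hs, ← AlgEquiv.mul_apply, mul_inv_cancel_left, (hτk k).1, ← hi, pow_eq_pow_mod i hζ.pow_eq_one,
        pow_eq_pow_mod (2 ^ k) hζ.pow_eq_one, hk]
    have hsμ : ∀ μ : Qb, μ ^ 13 = 1 → s μ = μ := fun μ hμ => by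
      obtain ⟨j, -, rfl⟩ := hζ.eq_pow_of_pow_eq_one hμ
      rw [map_pow, hsζ]
    obtain ⟨hsX, hsY⟩ := hfix s hsμ
    have hsa : s a = a := by simp [ha, per, map_pow, hsζ]
    have hsS : s S = S := by simp [hS, gauss, map_pow, hsζ]
    obtain ⟨hτX', hτY'⟩ := (hτk k).2
    have hσ : ∀ z : Qb, σ z = (τ ^ k) (s z) := fun z => by
      rw [← AlgEquiv.mul_apply, hs, mul_inv_cancel_left]
    refine ⟨?_, ?_⟩
    · rw [hσ, hmapX s, hsX, hsa, hτX']
    · rw [hσ, hmapY s, hsX, hsY, hsa, hsS, hτY']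
  obtain ⟨q, hq⟩ := FA.EC.mem_range_of_fixed fun σ => (hinv σ).1
  obtain ⟨r, hr⟩ := FA.EC.mem_range_of_fixed fun σ => (hinv σ).2
  have hcurve := invY_sq h13 hcu (gauss_sq hsum) hXa hY
  rw [← hr, ← hq, ← map_f13, ← map_pow] at hcurve
  have ha0 : a ≠ 0 := fun e => by simp [e] at hcu
  have ha1 : a + 1 ≠ 0 := fun e => by simp [e] at hτa
  rcases H q r ((algebraMap ℚ Qb).injective hcurve) with h | h <;>
    rw [h] at hq <;> simp only [map_zero, map_neg, map_one, invX] at hq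
  · rw [eq_comm, div_eq_zero_iff, or_iff_left hXa] at hq
    apply hcub
    have hXe : X = -(a + 1) / a := by rw [eq_div_iff ha0]; linear_combination hq
    rw [hXe]
    field_simp
    linear_combination hcu
  · rw [eq_comm, div_eq_iff hXa] at hq
    apply hcub
    have hXe : X = -1 / (a + 1) := by rw [eq_div_iff ha1]; linear_combination hq
    rw [hXe]
    field_simp
    linear_combination -hcu

/-- The coordinates on `X₁(13)` of a point commute with Galois. -/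
theorem z13_galois (E : WeierstrassCurve ℚ) (σ : GQ) (x y : Qb) :
    z13 (E⁄Qb) (σ x) (σ y) = (σ (z13 (E⁄Qb) x y).1, σ (z13 (E⁄Qb) x y).2) := by
  have hE : (E.map (algebraMap ℚ Qb)).map (σ : Qb →+* Qb) = E.map (algebraMap ℚ Qb) := by
    rw [WeierstrassCurve.map_map]
    congr 1
    exact RingHom.ext fun z => σ.commutes z
  show z13 (E.map (algebraMap ℚ Qb)) (σ x) (σ y) =
    (σ (z13 (E.map (algebraMap ℚ Qb)) x y).1, σ (z13 (E.map (algebraMap ℚ Qb)) x y).2)
  conv_lhs => rw [← hE]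
  exact map_z13 (σ : Qb →+* Qb) (E.map (algebraMap ℚ Qb)) x y

/-- **No cyclotomic point of order thirteen**: Galois does not act on a point of order thirteen
through the cyclotomic character. -/
theorem false_of_omega_point (H : OnlyCusps) (E : WeierstrassCurve ℚ) [E.IsElliptic]
    (P : (E⁄Qb).toAffine.Point) (hord : addOrderOf P = 13)
    (hσ : ∀ σ : GQ, ∀ n : ℕ, (∀ μ : Qb, μ ^ 13 = 1 → σ μ = μ ^ n) → σ • P = n • P) : False := by
  rcases P with _ | ⟨x, y, hxy⟩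
  · rw [← Affine.Point.zero_def, addOrderOf_zero] at hord
    norm_num at hord
  obtain ⟨hY, -, hX1, hcub⟩ := z13_spec hord
  refine false_of_omega_coordinates H hY hX1 hcub (fun σ hμ => ?_) (fun σ hμ => ?_)
  · have h := hσ σ 1 fun μ h => by rw [hμ μ h, pow_one]
    obtain ⟨h', e⟩ := FA.Local.smul_some (σ := σ) E hxy
    rw [e, one_nsmul, Affine.Point.some.injEq] at h
    have hz := z13_galois E σ x y
    rw [h.1, h.2, Prod.ext_iff] at hz
    exact ⟨hz.1.symm, hz.2.symm⟩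
  · obtain ⟨h', e⟩ := FA.Local.smul_some (σ := σ) E hxy
    have hz := z13_double hord ((hσ σ 2 hμ).symm.trans e)
    rw [z13_galois E σ x y, Prod.ext_iff] at hz
    exact hz

end FA.Thirteen

end
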