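import Fermat.Agent.Thirteen.ParityCore

/-!
# The parity lemma

If the primitive quadratic `k = k₂ x² + k₁ x + k₀` with `k₂` odd divides `f13 - (v₁ x + v₀)²`, then
the ideal of `k(θ)` in the sextic field is a square.
-/

set_option autoImplicit false
set_option linter.unusedSectionVars false

noncomputable section

open Polynomial
open scoped NumberField

namespace FA.Thirteen

namespace Parity

/-- The sextic `f13`. -/
def fS : Sextic := ⟨1, 2, 1, 2, 6, 4⟩

/-- The reversed sextic. -/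
def fR : Sextic := ⟨1, 4, 6, 2, 1, 2⟩

theorem fS_ev {R : Type*} [CommRing R] (x : R) : fS.ev x = f13 x := by
  simp [fS, Sextic.ev, f13]

theorem fR_ev_inv {K : Type*} [Field K] {x : K} (hx : x ≠ 0) :
    fR.ev x⁻¹ = fS.ev x / x ^ 6 := by
  simp only [fR, fS, Sextic.ev]; push_cast; field_simp; ring

/-- A polynomial with integer coefficients, lowest first, in Horner form. -/
def hor {R : Type*} [CommRing R] : List ℤ → R → R
  | [], _ => 0
  | c :: l, x => c + x * hor l x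

variable {K : Type*} [Field K] [CharZero K] {Γ : Type*} [LinearOrderedCommGroupWithZero Γ]
  {v : Valuation K Γ}

theorem hor_le_one {x : K} (hx : v x ≤ 1) : ∀ l : List ℤ, v (hor l x) ≤ 1
  | [] => by simp [hor]
  | c :: l => le_one_add (le_one_intCast c) (le_one_mul hx (hor_le_one hx l))

theorem eq_one_of_mul_eq {x y c : K} (hx : v x ≤ 1) (hy : v y ≤ 1) (hc : v c = 1)
    (h : x * y = c) : v y = 1 := by
  refine hy.antisymm (le_of_not_gt fun hlt => ?_)
  exact hc.not_lt (h ▸ small_mul hx hlt)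

theorem two_thirteen (h2 : v (2 : K) = 1) (h13 : v (13 : K) = 1) : v (104 : K) = 1 := by
  rw [show (104 : K) = 2 ^ 3 * 13 by norm_num, map_mul, map_pow, h2, h13, one_pow, one_mul]

/-- Where 2 is a unit, either the derivative is a unit or the root is congruent to a good integer. -/
theorem crit (F : Sextic) (A B U W G : List ℤ) (r m : ℤ)
    (hbez : ∀ x : K, hor A x * F.ev x + hor B x * F.dv x = 104)
    (hmod : ∀ x : K, hor U x * F.ev x + hor W x * F.dv x = (x - r) ^ 2 + 13 * hor G x)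
    (hval : F.ev (r : K) = 13 * m) (hm : ¬ (13 : ℤ) ∣ m)
    {θ : K} (hθ : v θ ≤ 1) (hroot : F.ev θ = 0) (h2 : v (2 : K) = 1) :
    v (F.dv θ) = 1 ∨
      (v (13 : K) < 1 ∧ ∃ r : ℤ, v (θ - r) < 1 ∧ v (F.ev (r : K)) = v 13) := by
  have hd : v (F.dv θ) ≤ 1 := by
    have h : F.dv θ = hor [F.c1, 2 * F.c2, 3 * F.c3, 4 * F.c4, 5 * F.c5, 6] θ := by
      simp [hor, Sextic.dv]; ring
    rw [h]; exact hor_le_one hθ _
  rcases (by simpa using le_one_natCast (v := v) 13 : v (13 : K) ≤ 1).eq_or_lt with h13 | h13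
  · refine Or.inl (eq_one_of_mul_eq (hor_le_one hθ B) hd (two_thirteen h2 h13) ?_)
    simpa [hroot] using hbez θ
  rcases hd.eq_or_lt with hd1 | hd1
  · exact Or.inl hd1
  refine Or.inr ⟨h13, r, small_of_sq ?_, ?_⟩
  · have h := hmod θ
    rw [hroot, mul_zero, zero_add] at h
    rw [show (θ - r) ^ 2 = hor W θ * F.dv θ - hor G θ * 13 by rw [h]; ring]
    exact v.map_sub_lt (small_mul (hor_le_one hθ W) hd1) (small_mul (hor_le_one hθ G) h13)
  · rw [hval, map_mul, eq_one_of_not_dvd h13 hm, mul_one]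

theorem crit_fS {θ : K} (hθ : v θ ≤ 1) (hroot : fS.ev θ = 0) (h2 : v (2 : K) = 1) :
    v (fS.dv θ) = 1 ∨
      (v (13 : K) < 1 ∧ ∃ r : ℤ, v (θ - r) < 1 ∧ v (fS.ev (r : K)) = v 13) :=
  crit fS [234, -192, 606, 784, 300] [-65, -73, 40, -177, -164, -50] [0, -6, -6] [-5, -1, 6, 1]
    [-7, 0, -3, -10, -8, 4, 6, 2] 9 62197
    (fun x => by simp [hor, fS, Sextic.ev, Sextic.dv]; ring)
    (fun x => by simp [hor, fS, Sextic.ev, Sextic.dv]; ring)
    (by simp [fS, Sextic.ev]; norm_num) (by norm_num) hθ hroot h2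

theorem crit_fR {θ : K} (hθ : v θ ≤ 1) (hroot : fR.ev θ = 0) (h2 : v (2 : K) = 1) :
    v (fR.dv θ) = 1 ∨
      (v (13 : K) < 1 ∧ ∃ r : ℤ, v (θ - r) < 1 ∧ v (fR.ev (r : K)) = v 13) :=
  crit fR [548, 252, 54, 416, 300] [-111, -278, -87, -21, -86, -50] [0, -6, -6] [-1, 3, -3, 1]
    [-1, 0, -1, -6, -4, 0, -2, -2] 3 109
    (fun x => by simp [hor, fR, Sextic.ev, Sextic.dv]; ring)
    (fun x => by simp [hor, fR, Sextic.ev, Sextic.dv]; ring)
    (by simp [fR, Sextic.ev]; norm_num) (by norm_num) hθ hroot h2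

/-- The monic case, where 2 is a unit. -/
theorem isSq_monic (F : Sextic) {θ : K} {a b s t : ℚ} (hθ : v θ ≤ 1) (hroot : F.ev θ = 0)
    (ha : v (a : K) ≤ 1) (hb : v (b : K) ≤ 1) (hr1 : F.r1 a b = 2 * s * t - s ^ 2 * a)
    (hr0 : F.r0 a b = t ^ 2 - s ^ 2 * b)
    (hcrit : v (F.dv θ) = 1 ∨
      (v (13 : K) < 1 ∧ ∃ r : ℤ, v (θ - r) < 1 ∧ v (F.ev (r : K)) = v 13)) :
    IsSq v (θ ^ 2 + a * θ + b) := by
  rcases hcrit with hd | ⟨h13, r, hr, hF⟩
  · refine isSq_of_dv F (s := (s : K)) (t := (t : K)) hθ hroot ha hb ?_ ?_ hd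
    · have h := congrArg (Rat.castHom K) hr1
      rw [F.map_r1] at h
      simpa using h
    · have h := congrArg (Rat.castHom K) hr0
      rw [F.map_r0] at h
      simpa using h
  · exact isSq_of_thirteen F hθ hroot ha hb hr1 hr0 h13 hr hF

/-- Where 2 is small, the quadratic has no root. -/
theorem isSq_two {θ : K} (hθ : v θ ≤ 1) (hroot : fS.ev θ = 0) (h2 : v (2 : K) < 1) {k2 k1 k0 : ℤ}
    (hk2 : Odd k2) : IsSq v (k2 * θ ^ 2 + k1 * θ + k0) := by
  set z := (k2 : K) * θ ^ 2 + k1 * θ + k0 with hzdef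
  have hz : v z ≤ 1 := by
    have h : z = hor [k0, k1, k2] θ := by simp [z, hor]; ring
    rw [h]; exact hor_le_one hθ _
  refine isSq_one (hz.antisymm (le_of_not_gt fun hlt => ?_))
  have hH : v (h13 θ) < 1 := by
    refine small_of_sq ?_
    have h := hroot
    rw [fS_ev, f13_eq_h13] at h
    rw [show h13 θ ^ 2 = -(2 * (θ ^ 5 + θ ^ 4)) * 2 by linear_combination h]
    refine small_mul ?_ h2
    rw [Valuation.map_neg]
    refine le_one_mul le_one_two (le_one_add ?_ ?_) <;> rw [map_pow] <;>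
      exact pow_le_one₀ zero_le hθ
  obtain ⟨m2, hm2⟩ := hk2
  -- it suffices to write 1 as a combination of `h`, the monic quadratic mod 2, and 2
  suffices H : ∀ e1 e0 : ℤ, (∃ m1, k1 = 2 * m1 + e1) → (∃ m0, k0 = 2 * m0 + e0) →
      ∀ u w y : List ℤ, (∀ x : K, hor u x * h13 x + hor w x * (x ^ 2 + e1 * x + e0) +
        hor y x * 2 = 1) → False by
    rcases Int.emod_two_eq_zero_or_one k1 with h1 | h1 <;>
      rcases Int.emod_two_eq_zero_or_one k0 with h0 | h0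
    · exact H 0 0 ⟨k1 / 2, by omega⟩ ⟨k0 / 2, by omega⟩ [1, -1] [1, -1, 1] []
        (fun x => by simp [hor, h13]; ring)
    · exact H 0 1 ⟨k1 / 2, by omega⟩ ⟨k0 / 2, by omega⟩ [1] [0, -1] []
        (fun x => by simp [hor, h13]; ring)
    · exact H 1 0 ⟨k1 / 2, by omega⟩ ⟨k0 / 2, by omega⟩ [1] [1, -1] [0, -1]
        (fun x => by simp [hor, h13]; ring)
    · exact H 1 1 ⟨k1 / 2, by omega⟩ ⟨k0 / 2, by omega⟩ [-1, -1] [0, 0, 1] [1, 1]
        (fun x => by simp [hor, h13]; ring)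
  rintro e1 e0 ⟨m1, hm1⟩ ⟨m0, hm0⟩ u w y he
  have hA : v (θ ^ 2 + e1 * θ + e0) < 1 := by
    rw [show θ ^ 2 + (e1 : K) * θ + e0 = z - hor [m0, m1, m2] θ * 2 by
      simp [hzdef, hm1, hm0, hm2, hor]; ring]
    exact v.map_sub_lt hlt (small_mul (hor_le_one hθ _) h2)
  refine (map_one v).not_lt ?_
  rw [← he θ]
  exact v.map_add_lt (v.map_add_lt (small_mul (hor_le_one hθ u) hH)
    (small_mul (hor_le_one hθ w) hA)) (small_mul (hor_le_one hθ y) h2)

/-- Reversing the quadratic. -/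
theorem reverse {a b s t : ℚ} (hb : b ≠ 0) (hr1 : fS.r1 a b = 2 * s * t - s ^ 2 * a)
    (hr0 : fS.r0 a b = t ^ 2 - s ^ 2 * b) :
    let A := a / b; let B := 1 / b
    let S := -s * A + t * (A ^ 2 - B); let T := -s * B + t * (A * B)
    fR.r1 A B = 2 * S * T - S ^ 2 * A ∧ fR.r0 A B = T ^ 2 - S ^ 2 * B := by
  intro A B S T
  have ha : a = A / B := by simp [A, B]; field_simp
  have hb' : b = 1 / B := by simp [B]
  have hB : B ≠ 0 := by simp [B, hb]
  clear_value A B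
  subst ha hb'
  simp only [fS, fR, Sextic.r1, Sextic.r0, Sextic.q0, Sextic.q1, Sextic.q2, Sextic.q3, S, T]
    at hr1 hr0 ⊢
  push_cast at hr1 hr0 ⊢
  field_simp at hr1 hr0
  constructor
  · grind
  · grind

/-- The coefficient equations. -/
theorem remainder {k2 k1 k0 : ℤ} (hk2 : k2 ≠ 0) {v1 v0 : ℚ}
    (hdvd : (C (k2 : ℚ) * X ^ 2 + C (k1 : ℚ) * X + C (k0 : ℚ)) ∣ fPoly - (C v1 * X + C v0) ^ 2) :
    fS.r1 ((k1 : ℚ) / k2) ((k0 : ℚ) / k2) = 2 * v1 * v0 - v1 ^ 2 * ((k1 : ℚ) / k2) ∧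
      fS.r0 ((k1 : ℚ) / k2) ((k0 : ℚ) / k2) = v0 ^ 2 - v1 ^ 2 * ((k0 : ℚ) / k2) := by
  set a := (k1 : ℚ) / k2 with ha
  set b := (k0 : ℚ) / k2 with hb
  have hk : (k2 : ℚ) ≠ 0 := Int.cast_ne_zero.2 hk2
  set P : ℚ[X] := X ^ 2 + C a * X + C b
  have hP : C (k2 : ℚ) * X ^ 2 + C (k1 : ℚ) * X + C (k0 : ℚ) = C (k2 : ℚ) * P := by
    simp only [P, mul_add, ← mul_assoc, ← map_mul, ha, hb, mul_div_cancel₀ _ hk]
  rw [hP] at hdvd
  have h1 := (dvd_mul_left P (C (k2 : ℚ))).trans hdvd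
  set e1 := fS.r1 a b - (2 * v1 * v0 - v1 ^ 2 * a)
  set e0 := fS.r0 a b - (v0 ^ 2 - v1 ^ 2 * b)
  have e : fPoly - (C v1 * X + C v0) ^ 2 = P * (fS.quo (C a) (C b) X - C v1 ^ 2) +
      (C e1 * X + C e0) := by
    rw [fPoly, ← fS_ev, fS.ev_eq (C a) (C b) X, ← fS.map_r1 C, ← fS.map_r0 C]
    simp only [e1, e0, P, map_sub, map_mul, map_pow, map_ofNat]
    ring
  rw [e, dvd_add_right (dvd_mul_right _ _)] at h1
  have h0 := eq_zero_of_dvd_of_degree_lt h1 (lt_of_le_of_lt degree_linear_le (by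
    rw [show P.degree = 2 by simp only [P]; compute_degree!]; norm_num))
  constructor
  · have := congrArg (fun p : ℚ[X] => p.coeff 1) h0
    have he : e1 = 0 := by simpa using this
    exact sub_eq_zero.1 he
  · have := congrArg (fun p : ℚ[X] => p.coeff 0) h0
    have he : e0 = 0 := by simpa using this
    exact sub_eq_zero.1 he

/-- Every valuation sees a square. -/
theorem isSq_quadratic {θ : K} (hθ : v θ ≤ 1) (hroot : fS.ev θ = 0) {k2 k1 k0 : ℤ} (h2 : Odd k2)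
    (hgcd : ∀ p : ℕ, p.Prime → ¬ ((p : ℤ) ∣ k2 ∧ (p : ℤ) ∣ k1 ∧ (p : ℤ) ∣ k0)) {v1 v0 : ℚ}
    (hdvd : (C (k2 : ℚ) * X ^ 2 + C (k1 : ℚ) * X + C (k0 : ℚ)) ∣ fPoly - (C v1 * X + C v0) ^ 2) :
    IsSq v (k2 * θ ^ 2 + k1 * θ + k0) := by
  rcases (le_one_two (v := v)).eq_or_lt with hv2 | hv2
  swap
  · exact isSq_two hθ hroot hv2 h2
  have hk2 : k2 ≠ 0 := by rintro rfl; simp at h2
  obtain ⟨hr1, hr0⟩ := remainder hk2 hdvd
  have hk2K : (k2 : K) ≠ 0 := Int.cast_ne_zero.2 hk2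
  rcases (le_one_intCast (v := v) k2).eq_or_lt with h | h
  · have hint : ∀ n : ℤ, v (((n : ℚ) / k2 : ℚ) : K) ≤ 1 := fun n => by
      push_cast; rw [map_div₀, h, div_one]; exact le_one_intCast n
    have := (isSq_monic fS hθ hroot (hint k1) (hint k0) hr1 hr0 (crit_fS hθ hroot hv2)).mul h
    convert this using 2
    push_cast; field_simp
  have hu : v θ = 1 := by
    have h1 : hor [2, 1, 2, 6, 4, 1] θ * θ = -1 := by
      have := hroot
      simp only [hor, fS, Sextic.ev] at this ⊢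
      push_cast at this ⊢
      linear_combination this
    exact eq_one_of_mul_eq (hor_le_one hθ _) hθ (by rw [Valuation.map_neg, map_one]) h1
  rcases (le_one_intCast (v := v) k0).eq_or_lt with h0 | h0
  swap
  · -- the middle coefficient is a unit
    have hg : Int.gcd (Int.gcd k2 k1) k0 = 1 := by
      by_contra hne
      obtain ⟨p, hp, hpd⟩ := Nat.exists_prime_and_dvd hne
      have hd := Int.natCast_dvd_natCast.2 hpd
      exact hgcd p hp ⟨(hd.trans (Int.gcd_dvd_left _ _)).trans (Int.gcd_dvd_left _ _),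
        (hd.trans (Int.gcd_dvd_left _ _)).trans (Int.gcd_dvd_right _ _),
        hd.trans (Int.gcd_dvd_right _ _)⟩
    have h1 : v (k1 : K) = 1 := by
      refine (le_one_intCast k1).antisymm (le_of_not_gt fun h1 => ?_)
      have e1 := Int.gcd_eq_gcd_ab k2 k1
      have e0 := Int.gcd_eq_gcd_ab (Int.gcd k2 k1 : ℤ) k0
      rw [hg, e1] at e0
      have e := congrArg (Int.cast (R := K)) e0
      push_cast at e
      refine (map_one v).not_lt ?_
      rw [e]
      refine v.map_add_lt ?_ (by rw [mul_comm]; exact small_mul (le_one_intCast _) h0)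
      rw [mul_comm]
      refine small_mul (le_one_intCast _) (v.map_add_lt ?_ ?_) <;> rw [mul_comm]
      · exact small_mul (le_one_intCast _) h
      · exact small_mul (le_one_intCast _) h1
    refine isSq_one ?_
    have hs : v ((k2 : K) * θ ^ 2 + k0) < 1 := by
      refine v.map_add_lt ?_ h0
      rw [map_mul, map_pow, hu, one_pow, mul_one]; exact h
    have hb : v ((k1 : K) * θ) = 1 := by rw [map_mul, h1, hu, one_mul]
    rw [show (k2 : K) * θ ^ 2 + k1 * θ + k0 = k1 * θ + (k2 * θ ^ 2 + k0) by ring,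
      Valuation.map_add_eq_of_lt_left v (hb.symm ▸ hs), hb]
  have hk0 : (k0 : ℤ) ≠ 0 := by
    rintro rfl; simp at h0
  have hb : (k0 : ℚ) / k2 ≠ 0 := div_ne_zero (Int.cast_ne_zero.2 hk0) (Int.cast_ne_zero.2 hk2)
  obtain ⟨hR1, hR0⟩ := reverse hb hr1 hr0
  have hθ0 : θ ≠ 0 := fun e => by simp [e] at hu
  have hθ' : v θ⁻¹ ≤ 1 := by rw [map_inv₀, hu, inv_one]
  have hroot' : fR.ev θ⁻¹ = 0 := by rw [fR_ev_inv hθ0, hroot, zero_div]
  have hint : ∀ n : ℤ, v (((n : ℚ) / k0 : ℚ) : K) ≤ 1 := fun n => by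
    push_cast; rw [map_div₀, h0, div_one]; exact le_one_intCast n
  have eA : (k1 : ℚ) / k2 / ((k0 : ℚ) / k2) = (k1 : ℚ) / k0 := by field_simp
  have eB : 1 / ((k0 : ℚ) / k2) = (k2 : ℚ) / k0 := by rw [one_div_div]
  rw [eA, eB] at hR1 hR0
  have := (isSq_monic fR hθ' hroot' (hint k1) (hint k2) hR1 hR0 (crit_fR hθ' hroot' hv2)).mul
    (u := (k0 : K) * θ ^ 2) (by rw [map_mul, map_pow, h0, hu, one_pow, mul_one])
  convert this using 2
  have hk0K : (k0 : K) ≠ 0 := Int.cast_ne_zero.2 hk0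
  push_cast; field_simp; ring

open IsDedekindDomain in
/-- An element whose valuations are squares generates the square of an ideal. -/
theorem exists_sq_of_isSq {F : Type*} [Field F] [NumberField F] {z : 𝓞 F} (hz : z ≠ 0)
    (h : ∀ P : HeightOneSpectrum (𝓞 F), IsSq (P.valuation F) (z : F)) :
    ∃ J : Ideal (𝓞 F), Ideal.span {z} = J ^ 2 := by
  classical
  set I : Ideal (𝓞 F) := Ideal.span {z}
  have hI : I ≠ 0 := by simpa [I] using hz
  set c : HeightOneSpectrum (𝓞 F) → ℕ := fun P =>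
    (Associates.mk P.asIdeal).count (Associates.mk I).factors with hc
  have heven : ∀ P, 2 * (c P / 2) = c P := fun P => by
    obtain ⟨w, hw⟩ := h P
    rw [P.valuation_of_algebraMap, P.intValuation_if_neg hz] at hw
    have hw0 : P.valuation F w ≠ 0 := fun e => by simp [e] at hw
    obtain ⟨n, hn⟩ := WithZero.ne_zero_iff_exists.1 hw0
    rw [← hn, ← WithZero.coe_pow] at hw
    have := congrArg Multiplicative.toAdd (WithZero.coe_inj.1 hw)
    simp only [toAdd_ofAdd, toAdd_pow, nsmul_eq_mul, Nat.cast_ofNat] at this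
    simp only [hc, show I = Ideal.span {z} from rfl]
    omega
  have hfin : (Function.mulSupport fun P => P.asIdeal ^ (c P / 2)).Finite := by
    refine (Ideal.hasFiniteMulSupport hI).subset fun P hP e => hP ?_
    have e' : P.asIdeal ^ c P = 1 := e
    have h0 : c P = 0 := by
      by_contra hne
      rw [← Nat.succ_pred hne, Ideal.one_eq_top] at e'
      exact P.isPrime.ne_top (top_le_iff.1 (e' ▸ Ideal.pow_le_self (Nat.succ_ne_zero _)))
    simp [h0]
  refine ⟨∏ᶠ P : HeightOneSpectrum (𝓞 F), P.asIdeal ^ (c P / 2), ?_⟩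
  rw [finprod_pow hfin, ← Ideal.finprod_heightOneSpectrum_factorization hI]
  exact finprod_congr fun P => by
    rw [← pow_mul, mul_comm, heven]; rfl

end Parity

open Parity in
/-- **Parity.** If `k₂ x² + k₁ x + k₀`, primitive with `k₂` odd, divides `f13 - (v₁ x + v₀)²`,
then its value at `θ` generates the square of an ideal. -/
theorem exists_ideal_sq {k2 k1 k0 : ℤ} (h2 : Odd k2)
    (hgcd : ∀ p : ℕ, p.Prime → ¬ ((p : ℤ) ∣ k2 ∧ (p : ℤ) ∣ k1 ∧ (p : ℤ) ∣ k0)) {v1 v0 : ℚ}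
    (hdvd : (C (k2 : ℚ) * X ^ 2 + C (k1 : ℚ) * X + C (k0 : ℚ)) ∣ fPoly - (C v1 * X + C v0) ^ 2)
    {z : 𝓞 L} (hz : (z : L) = k2 * θL ^ 2 + k1 * θL + k0) :
    ∃ J : Ideal (𝓞 L), Ideal.span {z} = J ^ 2 := by
  have hk2 : k2 ≠ 0 := by rintro rfl; simp at h2
  refine exists_sq_of_isSq ?_ fun P => ?_
  · rintro rfl
    set k : ℚ[X] := C (k2 : ℚ) * X ^ 2 + C (k1 : ℚ) * X + C (k0 : ℚ)
    have hd : k.natDegree = 2 := natDegree_quadratic (Int.cast_ne_zero.2 hk2)
    have hm : AdjoinRoot.mk fPoly k = 0 := by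
      simp only [k, map_add, map_mul, map_pow, map_intCast, AdjoinRoot.mk_X]
      simpa [θL] using hz.symm
    rw [AdjoinRoot.mk_eq_zero] at hm
    have := natDegree_le_of_dvd hm (fun e => by simp [e] at hd)
    rw [natDegree_fPoly, hd] at this
    omega
  · have hroot : fS.ev θL = 0 := (fS_ev θL).trans f13_θL
    have hθ : IsIntegral ℤ θL := by
      refine ⟨f13 (X : ℤ[X]), by unfold f13; monicity!, ?_⟩
      rw [show eval₂ (algebraMap ℤ L) θL (f13 X) = f13 θL by simp [f13], f13_θL]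
    rw [hz]
    exact isSq_quadratic (P.valuation_le_one ⟨θL, hθ⟩) hroot h2 hgcd hdvd

/-- Parity, with trivial class group: a unit times a square. -/
theorem exists_unit_mul_sq [IsPrincipalIdealRing (𝓞 L)] {k2 k1 k0 : ℤ} (h2 : Odd k2)
    (hgcd : ∀ p : ℕ, p.Prime → ¬ ((p : ℤ) ∣ k2 ∧ (p : ℤ) ∣ k1 ∧ (p : ℤ) ∣ k0)) {v1 v0 : ℚ}
    (hdvd : (C (k2 : ℚ) * X ^ 2 + C (k1 : ℚ) * X + C (k0 : ℚ)) ∣ fPoly - (C v1 * X + C v0) ^ 2)
    {z : 𝓞 L} (hz : (z : L) = k2 * θL ^ 2 + k1 * θL + k0) :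
    ∃ (u : (𝓞 L)ˣ) (y : 𝓞 L), z = u * y ^ 2 := by
  obtain ⟨J, hJ⟩ := exists_ideal_sq h2 hgcd hdvd hz
  obtain ⟨y, rfl⟩ := IsPrincipalIdealRing.principal J
  rw [Ideal.submodule_span_eq, Ideal.span_singleton_pow, Ideal.span_singleton_eq_span_singleton] at hJ
  obtain ⟨u, hu⟩ := hJ.symm
  exact ⟨u, y, by rw [← hu, mul_comm]⟩

end FA.Thirteen

end
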