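import Fermat.Agent.Thirteen.Descent

/-!
# The rational points of `X₁(13)`

The automorphism `x ↦ -1/(x+1)` moves any point to one with `x ≡ 0 (mod 2)`; a non-cuspidal such
point would be the first state of an endless descent.
-/

set_option autoImplicit false

noncomputable section

namespace FA.Thirteen

/-- No point with `x = u / v`, `u` even, `v` odd, `u ≠ 0`. -/
theorem no_point_of_even_num {u v : ℤ} (hu : Even u) (hu0 : u ≠ 0) (hv : 4 ∣ v - 1)
    (hcop : IsCoprime u v) {y : ℚ} (hy : y ^ 2 = f13 ((u : ℚ) / v)) : False := by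
  have hvodd : Odd v := by obtain ⟨r, hr⟩ := hv; exact ⟨2 * r, by omega⟩
  have hv2 : red2 (v : ℤ_[2]) = 1 := red2_of_odd hvodd
  have hv0 : v ≠ 0 := by rintro rfl; simp at hvodd
  obtain ⟨w, hw⟩ := (isUnit_of_red2 hv2).exists_right_inv
  obtain ⟨ρ, hρ⟩ : ∃ ρ : ℤ_[2], ρ = u * w := ⟨_, rfl⟩
  have hρq : incl ρ = (((u : ℚ) / v : ℚ) : ℚ_[2]) := by
    have h := congrArg incl hw
    rw [map_mul, map_one, incl_intCast] at h
    rw [hρ, map_mul, incl_intCast, Rat.cast_div, Rat.cast_intCast, Rat.cast_intCast,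
      eq_div_iff (Int.cast_ne_zero.2 hv0)]
    linear_combination (u : ℚ_[2]) * h
  have hy2 : (y : ℚ_[2]) ^ 2 = incl (f13 ρ) := by
    rw [map_f13, hρq, ← Rat.cast_pow, hy]
    simp [f13]
  obtain ⟨Y, hY⟩ : ∃ Y : ℤ_[2], incl Y = (y : ℚ_[2]) := by
    have h : ‖(y : ℚ_[2])‖ ^ 2 ≤ 1 := by
      rw [← norm_pow, hy2]; exact PadicInt.norm_le_one _
    exact ⟨⟨_, (sq_le_one_iff₀ (norm_nonneg _)).1 h⟩, rfl⟩
  have hρ0 : red2 ρ = 0 := by
    obtain ⟨r, rfl⟩ := hu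
    rw [hρ, map_mul]
    push_cast
    rw [map_add, CharTwo.add_self_eq_zero, zero_mul]
  have hY1 : red2 Y = 1 := by
    have e : Y ^ 2 = f13 ρ := Subtype.coe_injective (by
      show incl (Y ^ 2) = incl (f13 ρ)
      rw [map_pow, hY, hy2])
    have := congrArg red2 e
    rw [map_pow, map_f13, hρ0] at this
    rcases zmod2_cases (red2 Y) with h | h
    · rw [h] at this; exact absurd this (by decide)
    · exact h
  obtain ⟨s, hs, hs4⟩ : ∃ s : ℤ, (s = 1 ∨ s = -1) ∧ 4 ∣ Y + s := by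
    have key : ∀ a : ZMod 4, 2 * a = 2 → a + ((1 : ℤ) : ZMod 4) = 0 ∨ a + ((-1 : ℤ) : ZMod 4) = 0 := by
      decide
    rcases key _ ((two_mul_red4 Y).1 hY1) with h | h
    · exact ⟨1, Or.inl rfl, red4_eq_zero.1 (by rw [map_add, map_intCast]; exact h)⟩
    · exact ⟨-1, Or.inr rfl, red4_eq_zero.1 (by rw [map_add, map_intCast]; exact h)⟩
  obtain ⟨z, hz⟩ := hs4
  have hs2 : (s : ℚ) ^ 2 = 1 := by rcases hs with rfl | rfl <;> norm_num
  obtain ⟨r, hr⟩ : ∃ r : ℚ, r = (u : ℚ) / v := ⟨_, rfl⟩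
  have hr0 : r ≠ 0 := hr ▸ div_ne_zero (Int.cast_ne_zero.2 hu0) (Int.cast_ne_zero.2 hv0)
  obtain ⟨v1, hv1⟩ : ∃ v1 : ℚ, v1 = (y - s) / r := ⟨_, rfl⟩
  have hy' : v1 * r + s = y := by rw [hv1, div_mul_cancel₀ _ hr0, sub_add_cancel]
  have hf : (v1 * r + s) ^ 2 = f13 r := by rw [hy', hr]; exact hy
  obtain ⟨q3, hq3⟩ : ∃ q : ℚ, q = 4 + r := ⟨_, rfl⟩
  obtain ⟨q2, hq2⟩ : ∃ q : ℚ, q = 6 + r * q3 := ⟨_, rfl⟩
  obtain ⟨q1, hq1⟩ : ∃ q : ℚ, q = 2 + r * q2 := ⟨_, rfl⟩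
  obtain ⟨q0, hq0⟩ : ∃ q : ℚ, q = 1 - v1 ^ 2 + r * q1 := ⟨_, rfl⟩
  have hlast : 2 - 2 * s * v1 + r * q0 = 0 := by
    refine mul_left_cancel₀ hr0 ?_
    rw [mul_zero, hq0, hq1, hq2, hq3]
    simp only [f13] at hf
    linear_combination -hf + hs2
  have hid : ∀ x : ℚ, f13 x = (v1 * x + (s : ℚ)) ^ 2 + ((v : ℚ) * x ^ 2 + ((-u : ℤ) : ℚ) * x
      + ((0 : ℤ) : ℚ)) * (1 / v * x ^ 4 + q3 / v * x ^ 3 + q2 / v * x ^ 2 + q1 / v * x + q0 / v) := by
    intro x
    have hu' : (u : ℚ) = v * r := by rw [hr, mul_div_cancel₀ _ (Int.cast_ne_zero.2 hv0)]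
    push_cast
    rw [hu']
    have : (v : ℚ) ≠ 0 := Int.cast_ne_zero.2 hv0
    field_simp
    simp only [f13]
    rw [hq0, hq1, hq2, hq3] at hlast ⊢
    linear_combination (v : ℚ) * (x * hlast - hs2)
  have hprim : ∀ p : ℕ, p.Prime → ¬ ((p : ℤ) ∣ v ∧ (p : ℤ) ∣ -u ∧ (p : ℤ) ∣ 0) := by
    rintro p hp ⟨h1, h2, -⟩
    have := hcop.isUnit_of_dvd' (dvd_neg.1 h2) h1
    rw [Int.isUnit_iff] at this
    have := hp.two_le
    omega
  obtain ⟨-, a, -, -, ha⟩ := exists_sqrt hvodd hprim hid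
  obtain ⟨t, ht⟩ : ∃ t : ℤ_[2], (u : ℤ_[2]) = 4 * t := by
    have h := ((sqrt_red ha hv2 (by
      obtain ⟨k, rfl⟩ := hu
      push_cast
      rw [map_neg, map_add, CharTwo.add_self_eq_zero, neg_zero])).2 (by simp)).1
    obtain ⟨t, ht⟩ := red4_eq_zero.1 h
    push_cast at ht
    exact ⟨-t, by linear_combination -ht⟩
  obtain ⟨m, hm⟩ : ∃ m : ℤ_[2], m = 2 * t * w := ⟨_, rfl⟩
  have hm0 : m ≠ 0 := by
    intro h
    have e : (u : ℤ_[2]) = 2 * v * m := by rw [hm, ht]; linear_combination -4 * t * hw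
    rw [h, mul_zero] at e
    exact hu0 (Int.cast_eq_zero.1 e)
  obtain ⟨n, hn⟩ := exists_exact hm0
  have hn1 : 1 ≤ n := hn.le_of_dvd ⟨t * w, by rw [hm]; ring⟩
  refine not_descentState n ⟨v, -u, 0, v1, s, 1 / v, q3 / v, q2 / v, q1 / v, q0 / v, m, m ^ 2,
    2 * z, hv, hprim, hid, hn1, ⟨t * w, by rw [hm]; ring⟩, by rw [mul_comm 2 n]; exact hn.pow 2,
    dvd_mul_right _ _, ?_, ?_, by push_cast; ring⟩
  · have e := congrArg incl hz
    simp only [map_add, map_mul, map_ofNat, hY, incl_intCast] at e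
    have hρm : incl ρ = 2 * incl m := by
      rw [← map_ofNat incl 2, ← map_mul]; congr 1; rw [hρ, hm, ht]; ring
    rw [← hr] at hρq
    have hy2' : (v1 : ℚ_[2]) * incl ρ + (s : ℚ_[2]) = (y : ℚ_[2]) := by
      rw [hρq, ← hy']; push_cast; ring
    simp only [map_mul, map_ofNat, Rat.cast_intCast]
    refine mul_left_cancel₀ (two_ne_zero (α := ℚ_[2])) ?_
    linear_combination -e + (v1 : ℚ_[2]) * hρm - hy2'
  · push_cast
    rw [hm, ht]
    linear_combination 4 * t * hw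

theorem f13_shift {x : ℚ} (h : x + 1 ≠ 0) : f13 (-1 / (x + 1)) = f13 x / ((x + 1) ^ 3) ^ 2 := by
  simp only [f13]; field_simp; ring

theorem f13_shift' {x : ℚ} (h : x ≠ 0) : f13 (-(x + 1) / x) = f13 x / (x ^ 3) ^ 2 := by
  simp only [f13]; field_simp; ring

/-- **The rational points of `X₁(13)`** are its cusps. -/
theorem onlyCusps : OnlyCusps := by
  intro x y h
  by_contra hne
  push Not at hne
  obtain ⟨hx0, hx1⟩ := hne
  obtain ⟨a, b, hb, hcop, hx⟩ : ∃ a b : ℤ, b ≠ 0 ∧ IsCoprime a b ∧ x = a / b :=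
    ⟨x.num, x.den, Int.natCast_ne_zero.2 x.den_nz, Rat.isCoprime_num_den x, by
      rw [Int.cast_natCast, Rat.num_div_den]⟩
  have hbq : (b : ℚ) ≠ 0 := Int.cast_ne_zero.2 hb
  -- the sign of the denominator
  have main : ∀ u v : ℤ, ∀ z : ℚ, Even u → Odd v → u ≠ 0 → IsCoprime u v →
      z ^ 2 = f13 ((u : ℚ) / v) → False := by
    intro u v z hu hv hu0 hc hz
    obtain ⟨j, hj⟩ := hv
    rcases Int.even_or_odd j with ⟨i, hi⟩ | ⟨i, hi⟩
    · exact no_point_of_even_num hu hu0 ⟨i, by omega⟩ hc hz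
    · refine no_point_of_even_num hu.neg (neg_ne_zero.2 hu0) (v := -v) ⟨-i - 1, by omega⟩
        hc.neg_neg (y := z) ?_
      push_cast
      rw [neg_div_neg_eq]
      exact hz
  have ha : a ≠ 0 := by rintro rfl; simp [hx] at hx0
  have hab : a + b ≠ 0 := by
    intro e
    refine hx1 ?_
    rw [hx, show a = -b by omega]
    push_cast
    rw [neg_div, div_self hbq]
  rcases Int.even_or_odd b with hbe | hbo
  · have hao : Odd a := by
      rw [← Int.not_even_iff_odd]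
      intro hae
      have := hcop.isUnit_of_dvd' hae.two_dvd hbe.two_dvd
      rw [Int.isUnit_iff] at this
      omega
    have hc : IsCoprime (-b) (a + b) := by
      have := (hcop.symm.add_mul_left_right 1).neg_left
      rwa [mul_one] at this
    refine main (-b) (a + b) (y / (x + 1) ^ 3) hbe.neg (hao.add_even hbe) (neg_ne_zero.2 hb) hc ?_
    have hx1' : x + 1 ≠ 0 := fun e => hx1 (by linarith)
    have he : ((-b : ℤ) : ℚ) / ((a + b : ℤ) : ℚ) = -1 / (x + 1) := by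
      rw [hx]; push_cast; field_simp
    rw [he, f13_shift hx1', div_pow, h]
  · rcases Int.even_or_odd a with hae | hao
    · exact main a b y hae hbo ha hcop (by rw [h, hx])
    · have hc : IsCoprime (-(a + b)) a := by
        have := (hcop.symm.add_mul_left_left 1).neg_left
        rwa [mul_one, add_comm] at this
      refine main (-(a + b)) a (y / x ^ 3) (hao.add_odd hbo).neg hao (neg_ne_zero.2 hab) hc ?_
      have he : ((-(a + b) : ℤ) : ℚ) / (a : ℚ) = -(x + 1) / x := by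
        rw [hx]; push_cast; field_simp
      rw [he, f13_shift' hx0, div_pow, h]

end FA.Thirteen

end
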