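import Fermat.Agent.Thirteen.Defs

/-!
# Units of the sextic field modulo squares

The eight products of `i`, `e₀`, `e₁` are distinct modulo squares, as seen by the three roots
`5, 22, 24` of the sextic modulo 29. The unit rank is two, so they represent every class.
-/

set_option autoImplicit false
set_option linter.style.haveILetI false

noncomputable section

open Polynomial NumberField

namespace FA.Thirteen

namespace UnitsL

theorem isIntegral_θL : IsIntegral ℤ θL :=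
  ⟨f13 X, by unfold f13; monicity!, by simpa [f13, map_ofNat] using f13_θL⟩

theorem isIntegral_iL : IsIntegral ℤ iL :=
  ⟨X ^ 2 + C 1, by monicity!, by simp [iL_sq]⟩

/-- The root as an algebraic integer. -/
def θI : 𝓞 L := ⟨θL, isIntegral_θL⟩

/-- The square root of `-1` as an algebraic integer. -/
def iI : 𝓞 L := ⟨iL, isIntegral_iL⟩

theorem coe_θI : (θI : L) = θL := rfl

theorem coe_iI : (iI : L) = iL := rfl

theorem g_θL : θL ^ 3 + (2 + 2 * iL) * θL ^ 2 + (-1 + 2 * iL) * θL - 1 = 0 := by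
  have h := gA_add_iL_mul_gB
  simp only [gA, gB] at h
  linear_combination h

/-- `i` as a unit. -/
def uI : (𝓞 L)ˣ :=
  Units.mkOfMulEqOne iI (-iI) (RingOfIntegers.ext (by
    simp only [map_mul, map_neg, map_one, coe_iI]
    linear_combination -iL_sq))

/-- The first fundamental unit. -/
def u0 : (𝓞 L)ˣ :=
  Units.mkOfMulEqOne (θI ^ 2 + (1 + 2 * iI) * θI + (iI - 1))
    (iI + 3 * θI + (1 - iI) * θI ^ 2) (RingOfIntegers.ext (by
      simp only [map_mul, map_add, map_sub, map_pow, map_one, map_ofNat, coe_iI, coe_θI]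
      have h := g_θL
      have hi := iL_sq
      grind))

/-- The second fundamental unit. -/
def u1 : (𝓞 L)ˣ :=
  Units.mkOfMulEqOne (θI ^ 2 + (2 + iI) * θI + iI)
    ((iI - 1) + (2 + 2 * iI) * θI + θI ^ 2) (RingOfIntegers.ext (by
      simp only [map_mul, map_add, map_sub, map_pow, map_one, map_ofNat, coe_iI, coe_θI]
      have h := g_θL
      have hi := iL_sq
      grind))

/-! ### The rank -/

theorem not_isReal (w : InfinitePlace L) : ¬w.IsReal := fun hw => by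
  have h := congrArg (InfinitePlace.embedding_of_isReal hw) iL_sq
  rw [map_pow, map_neg, map_one] at h
  nlinarith [sq_nonneg (InfinitePlace.embedding_of_isReal hw iL)]

theorem rank_L : Units.rank L = 2 := by
  classical
  have h0 : InfinitePlace.nrRealPlaces L = 0 :=
    Fintype.card_eq_zero_iff.2 ⟨fun w => not_isReal w.1 w.2⟩
  have h1 := InfinitePlace.card_add_two_mul_card_eq_rank L
  have h2 := InfinitePlace.card_eq_nrRealPlaces_add_nrComplexPlaces (K := L)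
  rw [finrank_L, h0] at h1
  rw [h0] at h2
  show Fintype.card (InfinitePlace L) - 1 = 2
  omega

/-- Units modulo squares. -/
abbrev Q2 : Type := (𝓞 L)ˣ ⧸ (powMonoidHom 2 : (𝓞 L)ˣ →* (𝓞 L)ˣ).range

theorem mk_sq (x : (𝓞 L)ˣ) : ((x ^ 2 : (𝓞 L)ˣ) : Q2) = 1 :=
  (QuotientGroup.eq_one_iff _).2 ⟨x, rfl⟩

theorem exists_pow_sq (x : (𝓞 L)ˣ) (n : ℤ) :
    ∃ a : Fin 2, ((x ^ n : (𝓞 L)ˣ) : Q2) = ((x ^ (a : ℕ) : (𝓞 L)ˣ) : Q2) := by
  obtain ⟨j, rfl | rfl⟩ := Int.even_or_odd' n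
  · exact ⟨0, by rw [mul_comm, zpow_mul, zpow_two, ← sq, mk_sq, Fin.val_zero, pow_zero]; rfl⟩
  · exact ⟨1, by
      rw [zpow_add_one, mul_comm 2 j, zpow_mul, zpow_two, ← sq, QuotientGroup.mk_mul, mk_sq]
      show (1 : Q2) * (x : Q2) = ((x ^ 1 : (𝓞 L)ˣ) : Q2)
      rw [pow_one]
      exact one_mul (x : Q2)⟩

/-- The generators of all units modulo squares. -/
theorem exists_generators :
    ∃ z e e' : (𝓞 L)ˣ, ∀ x : (𝓞 L)ˣ, ∃ a b c : Fin 2,
      (x : Q2) = ((z ^ (a : ℕ) * e ^ (b : ℕ) * e' ^ (c : ℕ) : (𝓞 L)ˣ) : Q2) := by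
  obtain ⟨g, hg⟩ := IsCyclic.exists_generator (α := Units.torsion L)
  let q : Fin 2 ≃ Fin (Units.rank L) := finCongr rank_L.symm
  refine ⟨(g : (𝓞 L)ˣ), Units.fundSystem L (q 0), Units.fundSystem L (q 1), fun x => ?_⟩
  obtain ⟨⟨t, f⟩, hx, -⟩ := Units.exist_unique_eq_mul_prod L x
  obtain ⟨n, rfl⟩ := Subgroup.mem_zpowers_iff.1 (hg t)
  simp only [Subgroup.coe_zpow, ← Equiv.prod_comp q, Fin.prod_univ_two] at hx
  obtain ⟨a, ha⟩ := exists_pow_sq (g : (𝓞 L)ˣ) n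
  obtain ⟨b, hb⟩ := exists_pow_sq (Units.fundSystem L (q 0)) (f (q 0))
  obtain ⟨c, hc⟩ := exists_pow_sq (Units.fundSystem L (q 1)) (f (q 1))
  refine ⟨a, b, c, ?_⟩
  rw [hx, QuotientGroup.mk_mul, QuotientGroup.mk_mul, ha, hb, hc, QuotientGroup.mk_mul,
    QuotientGroup.mk_mul, mul_assoc]

/-! ### Reduction at the degree-one primes over 29 -/

/-- A simple root of the sextic modulo 29 gives a reduction of the integers of `L`. -/
theorem exists_red (r : ℤ) (h : (29 : ℤ) ∣ f13 r)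
    (h' : ¬(29 : ℤ) ∣ (f13 (X : ℤ[X])).derivative.eval r) :
    ∃ ψ : 𝓞 L →+* ZMod 29, ψ θI = (r : ZMod 29) := by
  haveI : Fact (Nat.Prime 29) := ⟨by norm_num⟩
  have ha : (f13 (X : ℤ[X])).aeval (r : ℤ_[29]) = ((f13 r : ℤ) : ℤ_[29]) := by
    simp [f13, map_ofNat]
  have hd : ‖(f13 (X : ℤ[X])).derivative.aeval (r : ℤ_[29])‖ = 1 := by
    have e : (f13 (X : ℤ[X])).derivative.aeval (r : ℤ_[29]) =
        (((f13 (X : ℤ[X])).derivative.eval r : ℤ) : ℤ_[29]) := by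
      rw [show ((r : ℤ_[29])) = algebraMap ℤ ℤ_[29] r by simp,
        Polynomial.aeval_algebraMap_apply, Polynomial.aeval_def, Polynomial.eval]
      simp
    rw [e]
    exact le_antisymm (PadicInt.norm_le_one _)
      (not_lt.1 fun hlt => h' (by exact_mod_cast (PadicInt.norm_int_lt_one_iff_dvd _).1 hlt))
  obtain ⟨z, hz, hclose, -⟩ := hensels_lemma (F := f13 (X : ℤ[X])) (a := (r : ℤ_[29])) (by
    rw [ha, hd, one_pow]
    exact (PadicInt.norm_int_lt_one_iff_dvd _).2 (by exact_mod_cast h))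
  have hzf : f13 z = 0 := by simpa [f13, map_ofNat] using hz
  have hzQ : fPoly.eval₂ (algebraMap ℚ ℚ_[29]) (z : ℚ_[29]) = 0 := by
    rw [← aeval_def, aeval_fPoly]
    have e := map_f13 PadicInt.Coe.ringHom z
    rw [hzf, map_zero] at e
    exact e.symm
  let σ : L →+* ℚ_[29] := AdjoinRoot.lift (algebraMap ℚ ℚ_[29]) (z : ℚ_[29]) hzQ
  let τ : 𝓞 L →+* ℚ_[29] := σ.comp (algebraMap (𝓞 L) L)
  have hint : ∀ x : 𝓞 L, τ x ∈ (PadicInt.Coe.ringHom (p := 29)).range := fun x => by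
    have h1 : IsIntegral ℤ_[29] (σ (x : L)) :=
      (x.isIntegral_coe.map σ.toIntAlgHom).tower_top
    obtain ⟨y, hy⟩ := IsIntegrallyClosed.isIntegral_iff.1 h1
    exact ⟨y, hy⟩
  choose y hy using hint
  have hinj : Function.Injective (PadicInt.Coe.ringHom (p := 29)) := Subtype.coe_injective
  let ρ : 𝓞 L →+* ℤ_[29] :=
    { toFun := y
      map_one' := hinj (by simp only [hy, map_one])
      map_mul' := fun a b => hinj (by simp only [map_mul, hy])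
      map_zero' := hinj (by simp only [hy, map_zero])
      map_add' := fun a b => hinj (by simp only [map_add, hy]) }
  refine ⟨PadicInt.toZMod.comp ρ, ?_⟩
  have hy' : ρ θI = z := hinj (by
    show PadicInt.Coe.ringHom (y θI) = _
    rw [hy]
    show σ θL = _
    exact AdjoinRoot.lift_root hzQ)
  show PadicInt.toZMod (ρ θI) = _
  rw [hy', ← map_intCast (PadicInt.toZMod (p := 29)) r, ← sub_eq_zero, ← map_sub,
    ← RingHom.mem_ker, PadicInt.ker_toZMod, PadicInt.maximalIdeal_eq_span_p,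
    Ideal.mem_span_singleton, ← PadicInt.norm_lt_one_iff_dvd]
  rw [hd] at hclose
  exact hclose

theorem two_mul_iI : 2 * iI =
    -(3 + 4 * θI + θI ^ 2 + 9 * θI ^ 3 + 7 * θI ^ 4 + 2 * θI ^ 5) :=
  RingOfIntegers.ext (by
    simp only [map_mul, map_add, map_neg, map_pow, map_ofNat, coe_iI, coe_θI, iL]
    ring)

/-- The values of `i`, `e₀`, `e₁` at a root modulo 29. -/
theorem red_values (ψ : 𝓞 L →+* ZMod 29) (r : ZMod 29) (h : ψ θI = r) :
    let i := 15 * -(3 + 4 * r + r ^ 2 + 9 * r ^ 3 + 7 * r ^ 4 + 2 * r ^ 5)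
    ψ (uI : 𝓞 L) = i ∧ ψ (u0 : 𝓞 L) = r ^ 2 + (1 + 2 * i) * r + (i - 1) ∧
      ψ (u1 : 𝓞 L) = r ^ 2 + (2 + i) * r + i := by
  intro i
  have hi : ψ iI = i := by
    have e := congrArg ψ two_mul_iI
    simp only [map_mul, map_add, map_neg, map_pow, map_ofNat, h] at e
    have h15 : (15 : ZMod 29) * 2 = 1 := by decide
    calc ψ iI = 15 * (2 * ψ iI) := by rw [← mul_assoc, h15, one_mul]
      _ = i := by rw [e]
  refine ⟨hi, ?_, ?_⟩
  · simp only [u0, Units.val_mkOfMulEqOne, map_mul, map_add, map_sub, map_pow, map_one, map_ofNat,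
      h, hi]
  · simp only [u1, Units.val_mkOfMulEqOne, map_mul, map_add, map_pow, map_ofNat, h, hi]

theorem not_sq_zmod :
    let v (r : ZMod 29) : ZMod 29 × ZMod 29 × ZMod 29 :=
      let i := 15 * -(3 + 4 * r + r ^ 2 + 9 * r ^ 3 + 7 * r ^ 4 + 2 * r ^ 5)
      (i, r ^ 2 + (1 + 2 * i) * r + (i - 1), r ^ 2 + (2 + i) * r + i)
    (∀ a b c : Fin 2, ∀ s : ZMod 29,
      (v 22).1 ^ (a : ℕ) * (v 22).2.1 ^ (b : ℕ) * (v 22).2.2 ^ (c : ℕ) = s ^ 2 → a = 0) ∧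
    (∀ b c : Fin 2, ∀ s : ZMod 29,
      (v 24).1 ^ 0 * (v 24).2.1 ^ (b : ℕ) * (v 24).2.2 ^ (c : ℕ) = s ^ 2 → b = 0) ∧
    (∀ c : Fin 2, ∀ s : ZMod 29,
      (v 5).1 ^ 0 * (v 5).2.1 ^ 0 * (v 5).2.2 ^ (c : ℕ) = s ^ 2 → c = 0) := by
  decide +kernel

/-- The classes of `i`, `e₀`, `e₁` are independent modulo squares. -/
theorem indep (a b c : Fin 2) (η : (𝓞 L)ˣ)
    (h : uI ^ (a : ℕ) * u0 ^ (b : ℕ) * u1 ^ (c : ℕ) = η ^ 2) : a = 0 ∧ b = 0 ∧ c = 0 := by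
  have key : ∀ ψ : 𝓞 L →+* ZMod 29, ψ (uI : 𝓞 L) ^ (a : ℕ) * ψ (u0 : 𝓞 L) ^ (b : ℕ) *
      ψ (u1 : 𝓞 L) ^ (c : ℕ) = ψ (η : 𝓞 L) ^ 2 := fun ψ => by
    have e := congrArg (fun x : (𝓞 L)ˣ => ψ (x : 𝓞 L)) h
    simpa only [Units.val_mul, Units.val_pow_eq_pow_val, map_mul, map_pow] using e
  obtain ⟨hA, hB, hC⟩ := not_sq_zmod
  have d : ∀ r : ℤ, r = 22 ∨ r = 24 ∨ r = 5 →
      ∃ ψ : 𝓞 L →+* ZMod 29, ψ θI = (r : ZMod 29) := fun r hr => by
    rcases hr with rfl | rfl | rfl <;>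
      exact exists_red _ (by norm_num [f13]) (by simp [f13, derivative_pow])
  obtain ⟨ψ₁, h₁⟩ := d 22 (by norm_num)
  obtain ⟨ψ₂, h₂⟩ := d 24 (by norm_num)
  obtain ⟨ψ₃, h₃⟩ := d 5 (by norm_num)
  obtain ⟨e1, e2, e3⟩ := red_values ψ₁ _ h₁
  have ea := key ψ₁
  rw [e1, e2, e3] at ea
  obtain rfl := hA a b c _ ea
  obtain ⟨e1, e2, e3⟩ := red_values ψ₂ _ h₂
  have eb := key ψ₂
  rw [e1, e2, e3] at eb
  obtain rfl := hB b c _ eb
  obtain ⟨e1, e2, e3⟩ := red_values ψ₃ _ h₃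
  have ec := key ψ₃
  rw [e1, e2, e3] at ec
  exact ⟨rfl, rfl, hC c _ ec⟩

theorem fin_two_sub (a a' : Fin 2) : ∃ d : Fin 2, (a = a' ↔ d = 0) ∧
    ∀ x : (𝓞 L)ˣ, ((x ^ (a : ℕ) : (𝓞 L)ˣ) : Q2) * ((x ^ (a' : ℕ) : (𝓞 L)ˣ) : Q2) =
      ((x ^ (d : ℕ) : (𝓞 L)ˣ) : Q2) := by
  refine ⟨a + a', by revert a a'; decide, fun x => ?_⟩
  rw [← QuotientGroup.mk_mul, ← pow_add]
  fin_cases a <;> fin_cases a' <;> first | rfl | exact (mk_sq x).trans (congrArg _ (pow_zero x).symm)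

end UnitsL

open UnitsL in
/-- Every unit is a product of `i`, `e₀`, `e₁` and a square. -/
theorem unit_eq (u : (𝓞 L)ˣ) : ∃ (a b c : ℕ) (η : L),
    ((u : 𝓞 L) : L) = iL ^ a * e0L ^ b * e1L ^ c * η ^ 2 := by
  classical
  let M : Fin 2 × Fin 2 × Fin 2 → Q2 := fun p =>
    ((uI ^ (p.1 : ℕ) * u0 ^ (p.2.1 : ℕ) * u1 ^ (p.2.2 : ℕ) : (𝓞 L)ˣ) : Q2)
  obtain ⟨z, e, e', hgen⟩ := exists_generators
  let G : Fin 2 × Fin 2 × Fin 2 → Q2 := fun p =>
    ((z ^ (p.1 : ℕ) * e ^ (p.2.1 : ℕ) * e' ^ (p.2.2 : ℕ) : (𝓞 L)ˣ) : Q2)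
  have hG : Function.Surjective G := fun q => by
    obtain ⟨x, rfl⟩ := QuotientGroup.mk_surjective q
    obtain ⟨a, b, c, hx⟩ := hgen x
    exact ⟨(a, b, c), hx.symm⟩
  haveI : Finite Q2 := Finite.of_surjective G hG
  have hsq : ∀ q : Q2, q * q = 1 := fun q => by
    obtain ⟨x, rfl⟩ := QuotientGroup.mk_surjective q
    rw [← QuotientGroup.mk_mul, ← sq, mk_sq]
  have reorder : ∀ A B C A' B' C' : Q2,
      A * B * C * (A' * B' * C') = A * A' * (B * B') * (C * C') := fun A B C A' B' C' => by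
    rw [mul_mul_mul_comm (A * B), mul_mul_mul_comm A]
  have hM : Function.Injective M := by
    rintro ⟨a, b, c⟩ ⟨a', b', c'⟩ hp
    obtain ⟨da, ha, ha'⟩ := fin_two_sub a a'
    obtain ⟨db, hb, hb'⟩ := fin_two_sub b b'
    obtain ⟨dc, hc, hc'⟩ := fin_two_sub c c'
    have h1 : M (a, b, c) * M (a', b', c') = 1 := by rw [hp, hsq]
    simp only [M, QuotientGroup.mk_mul] at h1
    rw [reorder, ha', hb', hc',
      ← QuotientGroup.mk_mul, ← QuotientGroup.mk_mul, QuotientGroup.eq_one_iff] at h1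
    obtain ⟨η, hη⟩ := h1
    obtain ⟨r0, r1, r2⟩ := indep da db dc η hη.symm
    rw [ha.2 r0, hb.2 r1, hc.2 r2]
  have hcard : Nat.card Q2 ≤ Nat.card (Fin 2 × Fin 2 × Fin 2) := Nat.card_le_card_of_surjective G hG
  have hbij : Function.Bijective M :=
    Function.Injective.bijective_of_nat_card_le hM hcard
  obtain ⟨⟨a, b, c⟩, hp⟩ := hbij.2 (u : Q2)
  obtain ⟨η, hη⟩ := QuotientGroup.eq.1 hp
  refine ⟨a, b, c, ((η : 𝓞 L) : L), ?_⟩
  have hu : u = uI ^ (a : ℕ) * u0 ^ (b : ℕ) * u1 ^ (c : ℕ) * η ^ 2 := by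
    rw [show η ^ 2 = _ from hη, mul_inv_cancel_left]
  rw [hu]
  simp only [Units.val_mul, Units.val_pow_eq_pow_val, map_mul, map_pow, uI, u0, u1,
    Units.val_mkOfMulEqOne, map_add, map_sub, map_one, map_ofNat, coe_iI, coe_θI, e0L, e1L]

end FA.Thirteen

end
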