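import Fermat.Agent.Thirteen.TwoAdic

/-!
# The descent step on `X₁(13)`: valuations

`U = u ((x - m)² - D)` and `V` with `V² ≡ f13 (mod U)` give the first state; from
`l² - U k² = ε f13` with `k = q ((x - m')² - D')` the lemmas here compute the valuations of the
next state: `v(D) = v(D') + 2`.
-/

set_option autoImplicit false

noncomputable section

namespace FA.Thirteen

theorem parity_value : ∀ m D : ZMod 2, (m = D ∨ D = 0) →
    fE m D = 1 ∧ (m = 0 → gO m D = 1 ∧ fE' m D = 1 ∧ gO' m D = 1) ∧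
    (m = 1 → gO m D = 0) ∧ (m = 1 → D = 0 → fE' m D = 0) ∧
    ∀ a b : ZMod 2, a ^ 2 + D * b ^ 2 = fE m D → a * b = gO m D → b * (b ^ 2 + fE' m D) = 0 := by
  decide

theorem isUnit_of_red2 {x : ℤ_[2]} (h : red2 x = 1) : IsUnit x :=
  PadicInt.isUnit_iff.2 (le_antisymm (PadicInt.norm_le_one _)
    (not_lt.1 fun hlt => red2_eq_one.1 h (by simpa using (PadicInt.norm_lt_one_iff_dvd x).1 hlt)))

theorem map_fE {R S : Type} [CommRing R] [CommRing S] (φ : R →+* S) (m D : R) :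
    φ (fE m D) = fE (φ m) (φ D) := by simp [fE, f13, map_ofNat]

theorem map_gO {R S : Type} [CommRing R] [CommRing S] (φ : R →+* S) (m D : R) :
    φ (gO m D) = gO (φ m) (φ D) := by simp [gO, map_ofNat]

theorem map_fE' {R S : Type} [CommRing R] [CommRing S] (φ : R →+* S) (m D : R) :
    φ (fE' m D) = fE' (φ m) (φ D) := by simp [fE', map_ofNat]

/-- The value `P + Q √D` of `V` at a root when `m` and `P` are even: `D` is a square. -/
theorem state_eqs {m D P : ℤ_[2]} {Q : ℚ_[2]} {δ : ℕ} (hδ : 1 ≤ δ) (hm : 2 ∣ m)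
    (hD : Exact (2 * δ) D) (hP : 2 ∣ P) (h1 : incl P ^ 2 + incl D * Q ^ 2 = incl (fE m D))
    (h2 : incl P * Q = incl (gO m D)) :
    ∃ d₀ Q₀ : ℤ_[2], D = (2 ^ δ * d₀) ^ 2 ∧ red2 d₀ = 1 ∧ red2 Q₀ = 1 ∧ incl Q₀ = 2 ^ δ * Q ∧
      Exact δ P ∧ P * Q₀ = 2 ^ δ * gO m D ∧ P ^ 2 + d₀ ^ 2 * Q₀ ^ 2 = fE m D := by
  obtain ⟨D₀, hD₀, rfl⟩ := hD
  have hm0 : red2 m = 0 := red2_eq_zero.2 hm
  have hD0 : red2 (2 ^ (2 * δ) * D₀) = 0 := by
    rw [map_mul, map_pow, red2_two, zero_pow (by omega), zero_mul]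
  obtain ⟨hF, hg, -⟩ := parity_value (red2 m) (red2 (2 ^ (2 * δ) * D₀)) (Or.inr hD0)
  rw [← map_fE] at hF
  rw [← map_gO] at hg
  have hQ0 : ‖2 ^ δ * Q‖ ≤ 1 := by
    obtain ⟨w, hw⟩ := (isUnit_of_red2 hD₀).exists_right_inv
    have e : (2 ^ δ * Q) ^ 2 = incl (w * (fE m (2 ^ (2 * δ) * D₀) - P ^ 2)) := by
      rw [map_mul, map_sub, map_pow, ← h1, map_mul, map_pow, map_ofNat, mul_pow, ← pow_mul,
        mul_comm δ 2]
      have hw' : incl w * incl D₀ = 1 := by rw [← map_mul, mul_comm, hw, map_one]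
      linear_combination -(2 ^ (2 * δ) * Q ^ 2) * hw'
    have h : ‖2 ^ δ * Q‖ ^ 2 ≤ 1 := by
      rw [← norm_pow, e]; exact PadicInt.norm_le_one _
    nlinarith [norm_nonneg (2 ^ δ * Q)]
  obtain ⟨Q₀, hQ₀⟩ : ∃ Q₀ : ℤ_[2], incl Q₀ = 2 ^ δ * Q := ⟨⟨_, hQ0⟩, rfl⟩
  have hinj : Function.Injective incl := Subtype.coe_injective
  have e1 : P ^ 2 + D₀ * Q₀ ^ 2 = fE m (2 ^ (2 * δ) * D₀) := by
    refine hinj ?_
    rw [map_add, map_pow, map_mul, map_pow, hQ₀, ← h1, map_mul, map_pow, map_ofNat, mul_pow,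
      ← pow_mul, mul_comm δ 2]
    ring
  have e2 : P * Q₀ = 2 ^ δ * gO m (2 ^ (2 * δ) * D₀) := by
    refine hinj ?_
    rw [map_mul, hQ₀, map_mul, map_pow, map_ofNat, ← h2]
    ring
  have hQ₀1 : red2 Q₀ = 1 := by
    have := congrArg red2 e1
    rw [map_add, map_pow, red2_eq_zero.2 hP, map_mul, hD₀, map_pow, one_mul, hF] at this
    rcases zmod2_cases (red2 Q₀) with h | h
    · rw [h] at this; simp at this
    · exact h
  have hPδ : Exact δ P := by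
    have h := (e2.symm ▸ (⟨_, hg hm0 |>.1, rfl⟩ : Exact δ (2 ^ δ * gO m (2 ^ (2 * δ) * D₀))) :
      Exact δ (P * Q₀))
    have hP0 : P ≠ 0 := fun e => h.ne_zero (by rw [e, zero_mul])
    obtain ⟨n, hn⟩ := exists_exact hP0
    have := (hn.mul (exact_zero_iff.2 hQ₀1)).unique h
    rw [add_zero] at this
    subst this
    exact hn
  -- `D₀ Q₀² = fE - P²` is `1` modulo `8`
  obtain ⟨m', rfl⟩ := hm
  obtain ⟨P', hP', hPe⟩ := hPδ
  have h8 : 8 ∣ D₀ * Q₀ ^ 2 - 1 := by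
    have e : D₀ * Q₀ ^ 2 = fE (2 * m') (2 ^ (2 * δ) * D₀) - P ^ 2 := by linear_combination e1
    obtain ⟨p', hp'⟩ : (2 : ℤ_[2]) ∣ P' ^ 2 - D₀ := red2_eq_zero.1 (by
      rw [map_sub, map_pow, hP', hD₀, one_pow, sub_self])
    obtain ⟨j, rfl⟩ : ∃ j, δ = j + 1 := ⟨δ - 1, by omega⟩
    have hdvd : ∀ x : ℤ_[2], (2 : ℤ_[2]) ∣ x ^ 2 + x := fun x => red2_eq_zero.1 (by
      rw [map_add, map_pow]; rcases zmod2_cases (red2 x) with h | h <;> rw [h] <;> decide)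
    obtain ⟨c, hc⟩ := hdvd m'
    rw [e, hPe]
    have h4 : ((2 : ℤ_[2]) ^ (j + 1)) ^ 2 = 4 * (2 ^ (2 * j)) := by ring
    have h4' : ((2 : ℤ_[2]) ^ (2 * (j + 1))) = 4 * (2 ^ (2 * j)) := by ring
    rw [mul_pow, h4, h4']
    generalize (2 : ℤ_[2]) ^ (2 * j) = N
    refine ⟨c + 8 * m' ^ 6 + 16 * m' ^ 5 + 12 * m' ^ 4 + 2 * m' ^ 3 - N * p'
      + 2 * N * D₀ * (60 * m' ^ 4 + 80 * m' ^ 3 + 36 * m' ^ 2 + 3 * m')
      + 2 * N ^ 2 * D₀ ^ 2 * (60 * m' ^ 2 + 40 * m' + 6) + 8 * N ^ 3 * D₀ ^ 3, ?_⟩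
    simp only [fE, f13]
    linear_combination 4 * hc - 4 * N * hp'
  obtain ⟨r, hr⟩ := exists_sq_eq h8
  obtain ⟨w, hw⟩ := (isUnit_of_red2 hQ₀1).exists_right_inv
  have hd : D₀ = (r * w) ^ 2 := by linear_combination -(w ^ 2) * hr - D₀ * (Q₀ * w + 1) * hw
  refine ⟨r * w, Q₀, by rw [hd]; ring, ?_, hQ₀1, hQ₀,
    ⟨P', hP', hPe⟩, e2, by rw [← hd]; exact e1⟩
  have := congrArg red2 hd
  rw [hD₀, map_pow] at this
  rcases zmod2_cases (red2 (r * w)) with h | h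
  · rw [h] at this; simp at this
  · exact h

/-- `ε` is the square of a `2`-adic integer. -/
theorem exists_sqrt_const {m P Q₀ d₀ A B ε : ℤ_[2]} {δ : ℕ} (hP : 2 ∣ P)
    (hd : red2 d₀ = 1) (hQ : red2 Q₀ = 1) (hPQ : P * Q₀ = 2 ^ δ * gO m ((2 ^ δ * d₀) ^ 2))
    (hPQ2 : P ^ 2 + d₀ ^ 2 * Q₀ ^ 2 = fE m ((2 ^ δ * d₀) ^ 2))
    (hA : A ^ 2 + (2 ^ δ * d₀) ^ 2 * B ^ 2 = ε * fE m ((2 ^ δ * d₀) ^ 2))
    (hAB : A * B = ε * gO m ((2 ^ δ * d₀) ^ 2)) : ∃ E, ε = E ^ 2 := by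
  have hy : red2 (P + d₀ * Q₀) = 1 := by
    rw [map_add, map_mul, red2_eq_zero.2 hP, hd, hQ, one_mul, zero_add]
  obtain ⟨w, hw⟩ := (isUnit_of_red2 hy).exists_right_inv
  refine ⟨(A + 2 ^ δ * d₀ * B) * w, ?_⟩
  have e : (A + 2 ^ δ * d₀ * B) ^ 2 = ε * (P + d₀ * Q₀) ^ 2 := by
    linear_combination hA + 2 * 2 ^ δ * d₀ * hAB - ε * hPQ2 - 2 * ε * d₀ * hPQ
  linear_combination -(w ^ 2) * e - ε * ((P + d₀ * Q₀) * w + 1) * hw

/-- The remainder of `l` modulo `U` is a multiple of `V`. -/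
theorem proportional {m P Q₀ d₀ A B E : ℤ_[2]} {δ : ℕ} (hd : red2 d₀ = 1)
    (hQ : red2 Q₀ = 1) (hP0 : P ≠ 0) (hE : E ≠ 0)
    (hPQ : P * Q₀ = 2 ^ δ * gO m ((2 ^ δ * d₀) ^ 2))
    (hPQ2 : P ^ 2 + d₀ ^ 2 * Q₀ ^ 2 = fE m ((2 ^ δ * d₀) ^ 2))
    (hA : A ^ 2 + (2 ^ δ * d₀) ^ 2 * B ^ 2 = E ^ 2 * fE m ((2 ^ δ * d₀) ^ 2))
    (hAB : A * B = E ^ 2 * gO m ((2 ^ δ * d₀) ^ 2)) (h2 : 2 * E ∣ A) :
    ∃ σ : ℤ_[2], σ ^ 2 = 1 ∧ A = σ * E * P ∧ 2 ^ δ * B = σ * E * Q₀ := by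
  have h0 : (A ^ 2 - E ^ 2 * P ^ 2) * (A ^ 2 - E ^ 2 * (d₀ ^ 2 * Q₀ ^ 2)) = 0 := by
    linear_combination A ^ 2 * hA - (2 ^ δ * d₀) ^ 2 * (A * B + E ^ 2 * gO m ((2 ^ δ * d₀) ^ 2)) * hAB
      - E ^ 2 * A ^ 2 * hPQ2
      + E ^ 4 * d₀ ^ 2 * (P * Q₀ + 2 ^ δ * gO m ((2 ^ δ * d₀) ^ 2)) * hPQ
  have hA2 : A ^ 2 = E ^ 2 * P ^ 2 := by
    rcases mul_eq_zero.1 h0 with h | h
    · linear_combination h
    · exfalso
      obtain ⟨a, rfl⟩ := h2
      have := congrArg red2 (mul_left_cancel₀ (pow_ne_zero 2 hE)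
        (show E ^ 2 * (2 * a) ^ 2 = E ^ 2 * (d₀ ^ 2 * Q₀ ^ 2) by linear_combination h))
      rw [map_pow, map_mul, red2_two, zero_mul, map_mul, map_pow, map_pow, hd, hQ] at this
      simp at this
  have hσ : ∀ σ : ℤ_[2], σ ^ 2 = 1 → A = σ * E * P → 2 ^ δ * B = σ * E * Q₀ := fun σ hs hA' => by
    refine mul_left_cancel₀ (mul_ne_zero (mul_ne_zero ?_ hE) hP0 : σ * E * P ≠ 0) ?_
    · intro e; rw [e] at hs; simp at hs
    · linear_combination 2 ^ δ * hAB - 2 ^ δ * B * hA' - E ^ 2 * hPQ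
        - E ^ 2 * P * Q₀ * hs
  rcases eq_or_eq_neg_of_sq_eq_sq A (E * P) (by linear_combination hA2) with h | h
  · exact ⟨1, by norm_num, by linear_combination h, hσ 1 (by norm_num) (by linear_combination h)⟩
  · exact ⟨-1, by norm_num, by linear_combination h,
      hσ (-1) (by norm_num) (by linear_combination h)⟩

theorem dvd_pow_pred {n : ℕ} (h : 1 ≤ n) : (2 : ℤ_[2]) ∣ 2 ^ n := dvd_pow_self _ (by omega)

/-- The valuations of the next state. -/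
theorem next_core {m D A B c e E : ℤ_[2]} {ε : ℕ} (hε : 1 ≤ ε) (he : red2 e = 1)
    (hE : Exact ε E) (hpar : red2 m = red2 D ∨ red2 D = 0)
    (hε1 : red2 m = 1 → red2 D = 0 → ε = 1)
    (h1 : A ^ 2 + D * B ^ 2 = E ^ 2 * fE m D) (h2 : A * B = E ^ 2 * gO m D)
    (h3 : 2 * A * c + B ^ 2 + 2 * D * B * e = E ^ 2 * fE' m D)
    (h4 : c * B + A * e = E ^ 2 * gO' m D) :
    ∃ δ : ℕ, 1 ≤ δ ∧ ε = 3 * δ + 1 ∧ red2 m = 0 ∧ Exact (2 * δ) D ∧ Exact (ε + δ) A ∧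
      Exact (2 * δ + 1) B := by
  obtain ⟨hF, hm0, hm1, hm1', hb⟩ := parity_value (red2 m) (red2 D) hpar
  rw [← map_fE] at hF
  have hE0 : E ≠ 0 := hE.ne_zero
  -- `E ∣ A`
  obtain ⟨α, rfl⟩ : E ∣ A := by
    obtain ⟨u, hu, rfl⟩ := hE
    obtain ⟨w, hw⟩ := (isUnit_of_red2 hu).exists_right_inv
    suffices h : (2 : ℤ_[2]) ^ ε ∣ A by
      obtain ⟨a, rfl⟩ := h
      exact ⟨a * w, by linear_combination -(2 ^ ε * a) * hw⟩
    by_contra hA
    have hA0 : A ≠ 0 := fun e => hA (e ▸ dvd_zero _)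
    obtain ⟨j, hj⟩ := exists_exact hA0
    have hjε : j < ε := by
      by_contra h
      exact hA ((pow_dvd_pow _ (by omega)).trans hj.dvd)
    obtain ⟨v, hv, rfl⟩ := hj
    obtain ⟨v', hv'⟩ := (isUnit_of_red2 hv).exists_right_inv
    have hB : (2 : ℤ_[2]) ^ ε ∣ B := by
      refine ⟨2 ^ (ε - j) * (u ^ 2 * gO m D * v'), mul_left_cancel₀
        (pow_ne_zero j two_ne_zero) ?_⟩
      have e : (2 : ℤ_[2]) ^ ε = 2 ^ j * 2 ^ (ε - j) := by rw [← pow_add]; congr 1; omega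
      rw [e] at h2 ⊢
      linear_combination v' * h2 - 2 ^ j * B * hv'
    obtain ⟨β, rfl⟩ := hB
    have hle := ((show Exact j (2 ^ j * v) from ⟨v, hv, rfl⟩).pow 2).le_of_dvd (k := 2 * ε)
      ⟨u ^ 2 * fE m D - D * β ^ 2, by rw [mul_comm 2 ε, pow_mul]; linear_combination h1⟩
    omega
  -- `E ∤ B`
  have hEB : ¬ E ∣ B := by
    rintro ⟨β, rfl⟩
    have e1 : α ^ 2 + D * β ^ 2 = fE m D :=
      mul_left_cancel₀ (pow_ne_zero 2 hE0) (by linear_combination h1)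
    have e2 : α * β = gO m D :=
      mul_left_cancel₀ (pow_ne_zero 2 hE0) (by linear_combination h2)
    have e3 : 2 * e * (α ^ 2 - D * β ^ 2) = E * (2 * α * gO' m D - β * fE' m D + β ^ 3) :=
      mul_left_cancel₀ (pow_ne_zero 2 hE0) (by linear_combination 2 * E * α * h4 - E * β * h3)
    have hb' := hb (red2 α) (red2 β)
      (by rw [← map_fE, ← e1, map_add, map_pow, map_mul, map_pow])
      (by rw [← map_gO, ← e2, map_mul])
    obtain ⟨s, hs⟩ : (2 : ℤ_[2]) ∣ 2 * α * gO' m D - β * fE' m D + β ^ 3 := red2_eq_zero.1 (by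
      rw [map_add, map_sub, map_mul, map_mul, red2_two, map_pow, map_mul, map_fE']
      rw [zero_mul, zero_mul, zero_sub, CharTwo.neg_eq]
      linear_combination hb')
    have e4 : e * (α ^ 2 - D * β ^ 2) = E * s :=
      mul_left_cancel₀ two_ne_zero (by linear_combination e3 + E * hs)
    have e5 := congrArg red2 e4
    have e6 := congrArg red2 e1
    rw [map_add, map_mul, hF] at e6
    rw [map_mul, map_sub, map_mul, he, one_mul, map_mul,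
      red2_eq_zero.2 ((dvd_pow_pred hε).trans hE.dvd), zero_mul, CharTwo.sub_eq_add, e6] at e5
    exact one_ne_zero e5
  -- exact valuations
  have hB0 : B ≠ 0 := fun e => hEB (e ▸ dvd_zero _)
  obtain ⟨i, β₀, hβ₀, rfl⟩ := exists_exact hB0
  obtain ⟨u, hu, rfl⟩ := hE
  have hi : i < ε := by
    by_contra h
    obtain ⟨w, hw⟩ := (isUnit_of_red2 hu).exists_right_inv
    refine hEB ⟨2 ^ (i - ε) * β₀ * w, ?_⟩
    have e : (2 : ℤ_[2]) ^ i = 2 ^ ε * 2 ^ (i - ε) := by rw [← pow_add]; congr 1; omega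
    rw [e]; linear_combination -(2 ^ ε * 2 ^ (i - ε) * β₀) * hw
  obtain ⟨δ, rfl⟩ : ∃ δ, ε = i + δ := ⟨ε - i, by omega⟩
  have hδ : 1 ≤ δ := by omega
  have hi0 : (2 : ℤ_[2]) ^ i ≠ 0 := pow_ne_zero _ two_ne_zero
  have e2 : α * β₀ = 2 ^ δ * (u * gO m D) :=
    mul_left_cancel₀ (mul_ne_zero hE0 hi0) (by rw [pow_add] at h2 ⊢; linear_combination h2)
  have hα : red2 α = 0 := by
    have := congrArg red2 e2
    rw [map_mul, hβ₀, mul_one, map_mul, red2_eq_zero.2 (dvd_pow_pred hδ), zero_mul] at this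
    exact this
  have e1 : D * β₀ ^ 2 = 2 ^ (2 * δ) * (u ^ 2 * (fE m D - α ^ 2)) :=
    mul_left_cancel₀ (pow_ne_zero 2 hi0)
      (by rw [pow_add] at h1; rw [mul_comm 2 δ, pow_mul]; linear_combination h1)
  have hD : Exact (2 * δ) D := by
    have hR : Exact (2 * δ) (D * β₀ ^ 2) := ⟨u ^ 2 * (fE m D - α ^ 2), by
      rw [map_mul, map_pow, map_sub, map_pow, hu, hF, hα]; simp, e1⟩
    have hD0 : D ≠ 0 := fun e => hR.ne_zero (by rw [e, zero_mul])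
    obtain ⟨n, hn⟩ := exists_exact hD0
    have := (hn.mul ((exact_zero_iff.2 hβ₀).pow 2)).unique hR
    rw [zero_mul, add_zero] at this
    subst this
    exact hn
  have hD0 : red2 D = 0 := red2_eq_zero.2 ((dvd_pow_pred (by omega)).trans hD.dvd)
  have hm : red2 m = 0 := by
    rcases zmod2_cases (red2 m) with h | h
    · exact h
    · exfalso
      have hε' := hε1 h hD0
      obtain ⟨rfl, rfl⟩ : i = 0 ∧ δ = 1 := by omega
      have := congrArg red2 h3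
      simp [map_add, map_mul, map_pow, red2_two, hβ₀, hu, map_fE', hm1' h hD0] at this
  obtain ⟨hg, hF', hG'⟩ := hm0 hm
  rw [← map_gO] at hg
  rw [← map_fE'] at hF'
  have hαe : Exact δ α := by
    have hR : Exact δ (α * β₀) := ⟨u * gO m D, by rw [map_mul, hu, hg, one_mul], e2⟩
    have hα0 : α ≠ 0 := fun e => hR.ne_zero (by rw [e, zero_mul])
    obtain ⟨n, hn⟩ := exists_exact hα0
    have := (hn.mul (exact_zero_iff.2 hβ₀)).unique hR
    rw [add_zero] at this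
    subst this
    exact hn
  -- the leading terms of the third and fourth equations
  obtain ⟨α', hα', rfl⟩ := hαe
  have e3 : 2 * e * ((2 ^ (i + δ) * u) ^ 2 * (2 * (2 ^ δ * α') ^ 2 - fE m D)) =
      (2 ^ (i + δ) * u) ^ 2 * (2 * (2 ^ (i + δ) * u * (2 ^ δ * α')) * gO' m D
        - 2 ^ i * β₀ * fE' m D) + (2 ^ i * β₀) ^ 3 := by
    linear_combination 2 * (2 ^ (i + δ) * u * (2 ^ δ * α')) * h4 - (2 ^ i * β₀) * h3 + 2 * e * h1
  have h3i : Exact (3 * i) ((2 ^ i * β₀) ^ 3) := by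
    have := (show Exact i (2 ^ i * β₀) from ⟨β₀, hβ₀, rfl⟩).pow 3
    rwa [mul_comm] at this
  have hlhs : Exact (2 * (i + δ) + 1)
      (2 * e * ((2 ^ (i + δ) * u) ^ 2 * (2 * (2 ^ δ * α') ^ 2 - fE m D))) := by
    refine ⟨e * u ^ 2 * (2 * (2 ^ δ * α') ^ 2 - fE m D), ?_, by ring⟩
    rw [map_mul, map_mul, map_pow, map_sub, map_mul, red2_two, hu, he, hF]
    simp
  have hrest : ∀ k, k ≤ 2 * (i + δ) + i → (2 : ℤ_[2]) ^ k ∣ (2 ^ (i + δ) * u) ^ 2 *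
      (2 * (2 ^ (i + δ) * u * (2 ^ δ * α')) * gO' m D - 2 ^ i * β₀ * fE' m D) := fun k hk =>
    (pow_dvd_pow _ hk).trans ⟨u ^ 2 * (2 ^ δ * 2 * u * (2 ^ δ * α') * gO' m D - β₀ * fE' m D),
      by ring⟩
  have key : i = 2 * δ + 1 := by
    rcases Nat.lt_trichotomy (3 * i) (2 * (i + δ) + 1) with h | h | h
    · exfalso
      refine h3i.not_dvd ((dvd_add_right (hrest _ (by omega))).1 ?_)
      rw [← e3]
      exact (pow_dvd_pow _ (by omega)).trans hlhs.dvd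
    · omega
    · exfalso
      refine hlhs.not_dvd ?_
      rw [e3]
      exact dvd_add (hrest _ (by omega)) ((pow_dvd_pow _ (by omega)).trans h3i.dvd)
  subst key
  exact ⟨δ, hδ, by omega, hm, hD,
    (show Exact (2 * δ + 1 + δ) (2 ^ (2 * δ + 1 + δ) * u) from ⟨u, hu, rfl⟩).mul
      ⟨α', hα', rfl⟩, β₀, hβ₀, rfl⟩

/-- The centre and discriminant of `U` against those of `k`. -/
theorem U_core {m D a b c e E w DU v2 : ℤ_[2]} {δ : ℕ} (hδ : 1 ≤ δ) (he : red2 e = 1)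
    (hD : Exact (2 * δ) D) (hA : Exact (4 * δ + 1) (a + c * D)) (hB : Exact (2 * δ + 1) (b + e * D))
    (hE : Exact (3 * δ + 1) E)
    (h4 : c * (b + e * D) + (a + c * D) * e = E ^ 2 * gO' m D) (h5 : v2 = e ^ 2 - E ^ 2)
    (h6 : -2 * w * v2 = 2 * c * e - 2 * E ^ 2 * (3 * m + 2))
    (h7 : v2 * (w ^ 2 - DU) - 2 * D * v2 = c ^ 2 + 2 * b * e - E ^ 2 * (15 * m ^ 2 + 20 * m + 6)) :
    Exact (2 * δ + 2) DU ∧
      2 * E ∣ a + b * w + c * w ^ 2 + e * w ^ 3 + (c + 3 * e * w) * DU := by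
  have hE2 : (2 : ℤ_[2]) ^ (6 * δ + 2) ∣ E ^ 2 := by
    have := (hE.pow 2).dvd
    rwa [show (3 * δ + 1) * 2 = 6 * δ + 2 by ring] at this
  have hE20 : ∀ k, k ≤ 6 * δ + 2 → (2 : ℤ_[2]) ^ k ∣ E ^ 2 := fun k hk =>
    (pow_dvd_pow _ hk).trans hE2
  have hev2 : red2 v2 = 1 := by
    rw [h5, map_sub, map_pow, he, red2_eq_zero.2 ((dvd_pow_pred (by omega)).trans hE2)]
    simp
  have hc : Exact (2 * δ) c := by
    have hR : Exact (4 * δ + 1) (c * (b + e * D)) := by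
      have := ((hA.mul (exact_zero_iff.2 he)).neg).add_dvd
        (y := E ^ 2 * gO' m D) ((hE20 _ (by omega)).mul_right _)
      convert this using 1
      linear_combination h4
    have hc0 : c ≠ 0 := fun z => hR.ne_zero (by rw [z, zero_mul])
    obtain ⟨n, hn⟩ := exists_exact hc0
    have := (hn.mul hB).unique hR
    rw [show n = 2 * δ by omega] at hn
    exact hn
  have hw : Exact (2 * δ) w := by
    have e6 : w * v2 = -(c * e) + E ^ 2 * (3 * m + 2) :=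
      mul_left_cancel₀ two_ne_zero (by linear_combination -h6)
    have hR : Exact (2 * δ) (w * v2) := by
      rw [e6]
      exact (show Exact (2 * δ) (c * e) from hc.mul (exact_zero_iff.2 he)).neg.add_dvd
        ((hE20 _ (by omega)).mul_right _)
    have hw0 : w ≠ 0 := fun z => hR.ne_zero (by rw [z, zero_mul])
    obtain ⟨n, hn⟩ := exists_exact hw0
    have := (hn.mul (exact_zero_iff.2 hev2)).unique hR
    rw [add_zero] at this
    subst this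
    exact hn
  have hb : Exact (2 * δ) b := by
    have := ((exact_zero_iff.2 he).mul hD).neg.add_dvd
      (y := b + e * D) (by rw [zero_add]; exact hB.dvd)
    rw [zero_add] at this
    convert this using 1
    ring
  have ha : Exact (4 * δ) a := by
    have := (hc.mul hD).neg.add_dvd (y := a + c * D)
      ((pow_dvd_pow _ (by omega)).trans hA.dvd)
    convert this using 1
    · omega
    · ring
  have hDU : Exact (2 * δ + 2) DU := by
    have e7 : v2 ^ 2 * DU = -(v2 * (2 * e * (b + e * D))) + E ^ 2 * (c ^ 2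
        + v2 * (2 * D + (15 * m ^ 2 + 20 * m + 6)) + E ^ 2 * (3 * m + 2) ^ 2
        - 2 * c * e * (3 * m + 2)) := by
      have e6 : w * v2 = -(c * e) + E ^ 2 * (3 * m + 2) :=
        mul_left_cancel₀ two_ne_zero (by linear_combination -h6)
      linear_combination (w * v2 - c * e + E ^ 2 * (3 * m + 2)) * e6 - v2 * h7 -
        (c ^ 2 + 2 * D * v2) * h5
    have hR : Exact (2 * δ + 2) (v2 ^ 2 * DU) := by
      rw [e7]
      refine Exact.add_dvd (Exact.neg ?_) ((hE20 _ (by omega)).mul_right _)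
      have := (exact_zero_iff.2 hev2).mul
        (((show Exact 1 (2 : ℤ_[2]) from ⟨1, map_one _, by ring⟩).mul (exact_zero_iff.2 he)).mul hB)
      convert this using 1
      omega
    have hDU0 : DU ≠ 0 := fun z => hR.ne_zero (by rw [z, mul_zero])
    obtain ⟨n, hn⟩ := exists_exact hDU0
    have := (((exact_zero_iff.2 hev2).pow 2).mul hn).unique hR
    rw [show n = 2 * δ + 2 by omega] at hn
    exact hn
  refine ⟨hDU, ?_⟩
  obtain ⟨u, hu, rfl⟩ := hE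
  suffices h : (2 : ℤ_[2]) ^ (3 * δ + 2) ∣
      a + b * w + c * w ^ 2 + e * w ^ 3 + (c + 3 * e * w) * DU by
    obtain ⟨z, hz⟩ := h
    obtain ⟨w', hw'⟩ := (isUnit_of_red2 hu).exists_right_inv
    exact ⟨z * w', by linear_combination hz - 2 ^ (3 * δ + 2) * z * hw'⟩
  obtain ⟨a', ha', rfl⟩ := ha
  obtain ⟨b', hb', rfl⟩ := hb
  obtain ⟨c', -, rfl⟩ := hc
  obtain ⟨w', hw', rfl⟩ := hw
  obtain ⟨D', -, rfl⟩ := hDU
  obtain ⟨s, hs⟩ : (2 : ℤ_[2]) ∣ a' + b' * w' := red2_eq_zero.1 (by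
    rw [map_add, map_mul, ha', hb', hw']; decide)
  have p1 : (2 : ℤ_[2]) ^ (3 * δ + 2) ∣ 2 ^ (4 * δ + 1) := pow_dvd_pow _ (by omega)
  have p2 : (2 : ℤ_[2]) ^ (3 * δ + 2) ∣ 2 ^ (6 * δ) := pow_dvd_pow _ (by omega)
  have p3 : (2 : ℤ_[2]) ^ (3 * δ + 2) ∣ 2 ^ (4 * δ + 2) := pow_dvd_pow _ (by omega)
  have he' : 2 ^ (4 * δ) * a' + 2 ^ (2 * δ) * b' * (2 ^ (2 * δ) * w')
      + 2 ^ (2 * δ) * c' * (2 ^ (2 * δ) * w') ^ 2 + e * (2 ^ (2 * δ) * w') ^ 3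
      + (2 ^ (2 * δ) * c' + 3 * e * (2 ^ (2 * δ) * w')) * (2 ^ (2 * δ + 2) * D') =
      2 ^ (4 * δ + 1) * s + 2 ^ (6 * δ) * (c' * w' ^ 2 + e * w' ^ 3)
        + 2 ^ (4 * δ + 2) * ((c' + 3 * e * w') * D') := by
    linear_combination 2 ^ (4 * δ) * hs
  rw [he']
  exact dvd_add (dvd_add (p1.mul_right _) (p2.mul_right _)) (p3.mul_right _)

end FA.Thirteen

end
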